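import Fermat.Agent.S56.FK.Eig

/-!
# S56/FK-ALPHA : the leading coefficient map of the off-diagonal part          (key `S56/FK-ALPHA`)

`b : GQ → k` (the `(0,1)` entry of the cocycle restricted to `J`), `κ_x = kap p b x = Tr(x b(·))`, `BB` = the properties of `b`; `c^((p+1)/2) = -1`.
* `anti` : `b(τ0^-m σ τ0^m) = c^m b(σ)` by induction on `m` (`conj_mem_JJ`, `Iq_le_Dq`), so `κ_x(τ1⁻¹ σ τ1) = -κ_x(σ)`.
* `exists_LD` : for every `x` there is an integral `a` with `LD i0 κ_x a`: if `Van κ_x` : `LD.zero.congr`; otherwise `partB` (`j = e`, from `IsK`; `e/e = 1`) + `LD.of_EQ`.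
* `exists_alpha` : `α x := rsq (choice)`.  Additivity: `LD.add` + `LD.uniq` (`kap` is additive in `x`), `rs_eq_iff`.
  `α (c x) = z α x` : `LD.conj` with `δ = τ0`: `LD i0 (ω(τ0) κ_x(τ0⁻¹·τ0)) (τ0 a_x ξ0^i0)`, `κ_x(τ0⁻¹ σ τ0) = κ_{c x}(σ)`; `LD.smul` : `LD i0 (n κ_{cx}) (n a_{cx})`, `n = ω(τ0).val ≡ ξ0^(p+1)` (`omega_congr`);
  `LD.uniq` : `ξ0^(p+1) a_{cx} ≡ a_x ξ0^i0`; `i0 = (p+1) + (p²-p)`; cancel the unit `ξ0^(p+1)`.
  `α x ^ p² = n0 α x` : `LD.conj` with `δ = φ²` (`ξ = 1`) : `LD i0 (ω(φ²) κ_x) (φ² a_x)`, `LD.smul`, `LD.uniq` : `φ² a_x ≡ n0 a_x`; `φ² a ≡ a^(p²)` (twice `hfrob`, `GT_pow_sub_pow`).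
* `eq_of_alpha` : `b - b'` satisfies `BB` (`IsK.add`, `IsK.neg`), `LD i0 (kap (b-b') x) (a - a')`, `a ≡ a'`, `LD.congr_a` : `LD i0 κ 0`, i.e. `w` with `v(w^p - 1) > i0/e`, hence `≥ (i0+1)/e` (`val_group`, `Kum.pow_fixed`);
  `partB` with `j = i0 + 1` `⇒ Van`.  So `Tr(x (b σ - b' σ)) = 0` for all `x`, `Algebra.traceForm_nondegenerate` `⇒ b σ = b' σ`.
-/

set_option autoImplicit false

noncomputable section

namespace Fermat.Agent.S56.FK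

open Fermat.Agent.S05 Fermat.Agent.S55 Fermat.Agent.S55.B ExtCitation

/-- the properties of the off-diagonal entry -/
structure BB (p : Nat.Primes) {k : Type} [Field k] [Algebra (ZMod (p : ℕ)) k] (π ζ : Qb) (τ0 φ : GQ)
    (c : k) (b : GQ → k) : Prop where
  hK : ∀ x, IsK p π ζ (kap p b x)
  hτ : ∀ σ ∈ JJ p π, b (τ0⁻¹ * σ * τ0) = c * b σ
  hφ : ∀ σ ∈ JJ p π, b ((φ ^ 2)⁻¹ * σ * φ ^ 2) = b σ

variable {p : Nat.Primes} {π ζ : Qb} {k : Type} [Field k] [Finite k] [Algebra (ZMod (p : ℕ)) k]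

variable {τ0 φ : GQ} {ξ0 : Qb} {c : k}

theorem trace_nondeg {y : k} (h : ∀ x, Algebra.trace (ZMod (p : ℕ)) k (x * y) = 0) : y = 0 := by
  have h1 := traceForm_nondegenerate (ZMod (p : ℕ)) k
  apply h1.2 y
  intro x
  exact h x

/-! ### the residue map `rsq` -/

theorem rsq_eq_iff {a b : Qb} (ha : (wq p).GE a 0) (hb : (wq p).GE b 0) :
    rsq p a = rsq p b ↔ (wq p).GT (a - b) 0 := by
  rw [rsq_of_GE p ha, rsq_of_GE p hb, rs_eq_iff]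

theorem rsq_add {a b : Qb} (ha : (wq p).GE a 0) (hb : (wq p).GE b 0) :
    rsq p (a + b) = rsq p a + rsq p b := by
  rw [rsq_of_GE p ha, rsq_of_GE p hb, rsq_of_GE p (ha.add hb), ← map_add]
  rfl

theorem GE_mul0 {a b : Qb} (ha : (wq p).GE a 0) (hb : (wq p).GE b 0) : (wq p).GE (a * b) 0 :=
  (ha.mul hb).mono (by linarith)

theorem GE_pow0 {a : Qb} (ha : (wq p).GE a 0) (n : ℕ) : (wq p).GE (a ^ n) 0 :=
  (ha.pow n).mono (by linarith)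

theorem rsq_mul {a b : Qb} (ha : (wq p).GE a 0) (hb : (wq p).GE b 0) :
    rsq p (a * b) = rsq p a * rsq p b := by
  rw [rsq_of_GE p ha, rsq_of_GE p hb, rsq_of_GE p (GE_mul0 ha hb), ← map_mul]
  rfl

theorem rsq_pow {a : Qb} (ha : (wq p).GE a 0) (n : ℕ) : rsq p (a ^ n) = rsq p a ^ n := by
  rw [rsq_of_GE p ha, rsq_of_GE p (GE_pow0 ha n), ← map_pow]
  rfl

theorem rsq_natCast (n : ℕ) : rsq p (n : Qb) = (n : kk (wq p)) := by
  rw [rsq_of_GE p (RVal.GE_natCast n), ← map_natCast (rs (wq p)) n]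
  rfl

theorem rsq_ne_zero {a : Qb} (ha : (wq p).EQ a 0) : rsq p a ≠ 0 := by
  rw [rsq_of_GE p (ha.GE le_rfl), rs_ne_zero_iff]
  exact ha

/-! ### numerology of `i0` -/

theorem i0_pos : 0 < i0 p := by unfold i0; positivity

theorem not_dvd_i0 : ¬ (p : ℕ) ∣ i0 p := by
  intro h
  have h1 : (p : ℕ) ∣ (p : ℕ) ^ 2 := dvd_pow_self _ two_ne_zero
  have h3 : (p : ℕ) ∣ 1 := (Nat.dvd_add_right h1).1 h
  exact p.2.one_lt.ne' (Nat.dvd_one.1 h3)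

theorem i0_lt : i0 p < (p : ℕ) ^ 2 + (p : ℕ) := by
  have := p.2.one_lt
  unfold i0
  omega

/-! ### the character `κ_x` -/

omit [Finite k] in
theorem kap_add (b : GQ → k) (x y : k) (σ : GQ) : kap p b (x + y) σ = kap p b x σ + kap p b y σ := by
  simp only [kap, add_mul, map_add]

omit [Finite k] in
theorem conj_pow (hT : TD p π ζ) (hτ0 : τ0 ∈ Iq p) {b : GQ → k}
    (hτ : ∀ σ ∈ JJ p π, b (τ0⁻¹ * σ * τ0) = c * b σ) (m : ℕ) :
    ∀ σ ∈ JJ p π, b ((τ0 ^ m)⁻¹ * σ * τ0 ^ m) = c ^ m * b σ := by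
  induction m with
  | zero => intro σ _; simp
  | succ m ih =>
    intro σ hσ
    have h1 : (τ0 ^ (m + 1))⁻¹ * σ * τ0 ^ (m + 1) = τ0⁻¹ * ((τ0 ^ m)⁻¹ * σ * τ0 ^ m) * τ0 := by
      rw [pow_succ, mul_inv_rev]
      simp only [mul_assoc]
    rw [h1, hτ _ (conj_mem_JJ hT (Iq_le_Dq p (pow_mem hτ0 m)) hσ), ih σ hσ, pow_succ]
    ring

omit [Finite k] in
theorem kap_anti (hT : TD p π ζ) (hτ0 : τ0 ∈ Iq p) (hc : c ^ (((p : ℕ) + 1) / 2) = -1) {b : GQ → k}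
    (hτ : ∀ σ ∈ JJ p π, b (τ0⁻¹ * σ * τ0) = c * b σ) (x : k) :
    ∀ σ ∈ JJ p π, kap p b x ((τ0 ^ (((p : ℕ) + 1) / 2))⁻¹ * σ * τ0 ^ (((p : ℕ) + 1) / 2)) =
      - kap p b x σ := by
  intro σ hσ
  simp only [kap]
  rw [conj_pow hT hτ0 hτ _ σ hσ, hc, ← map_neg]
  congr 1
  ring

omit [Finite k] in
theorem exists_LD (hT : TD p π ζ) (hτ0 : τ0 ∈ Iq p) (hξ : τ0 π = ξ0 * π)
    (hξ0 : IsPrimitiveRoot ξ0 (ee p)) (hc : c ^ (((p : ℕ) + 1) / 2) = -1) {b : GQ → k}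
    (hb : BB p π ζ τ0 φ c b) (x : k) : ∃ a, (wq p).GE a 0 ∧ LD p π ζ (i0 p) (kap p b x) a := by
  by_cases hv : Van p π (kap p b x)
  · exact ⟨0, RVal.GE_zero 0, LD.zero.congr (fun σ hσ => (hv σ hσ).symm)⟩
  · obtain ⟨w, hK1, hK2⟩ := hb.hK x
    have he := ee_real_pos (p := p)
    obtain ⟨-, w', hK', hE⟩ := partB hT hτ0 hξ hξ0 hK1 le_rfl (by rw [div_self he.ne']; exact hK2)
      (kap_anti hT hτ0 hc hb.hτ x) hv
    obtain ⟨a, ha, hL⟩ := LD.of_EQ hT hK' hE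
    exact ⟨a, ha.GE le_rfl, hL⟩

theorem exists_alpha (hT : TD p π ζ) (hτ0 : τ0 ∈ Iq p) (hξ : τ0 π = ξ0 * π)
    (hξ0 : IsPrimitiveRoot ξ0 (ee p)) (hφ : φ ∈ Dq p) (hφπ : φ π = π)
    (hfrob : ∀ x : Qb, (wq p).GE x 0 → (wq p).GT (φ x - x ^ (p : ℕ)) 0)
    (hc : c ^ (((p : ℕ) + 1) / 2) = -1) {b : GQ → k} (hb : BB p π ζ τ0 φ c b) :
    ∃ α ∈ AAset p c (rsq p (ξ0 ^ ((p : ℕ) ^ 2 - (p : ℕ))))
      ((((cycloChar (p : ℕ) (φ ^ 2) : (ZMod (p : ℕ))ˣ) : ZMod (p : ℕ)).val : ℕ) : kk (wq p)),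
      IsAlpha p π ζ b α := by
  choose a ha hL using exists_LD hT hτ0 hξ hξ0 hc hb
  have huniq : ∀ {κ : GQ → ZMod (p : ℕ)} {a a' : Qb}, (wq p).GE a 0 → (wq p).GE a' 0 →
      LD p π ζ (i0 p) κ a → LD p π ζ (i0 p) κ a' → rsq p a = rsq p a' := fun h1 h2 h3 h4 =>
    (rsq_eq_iff h1 h2).2 (LD.uniq hT i0_pos not_dvd_i0 i0_lt h1 h2 h3 h4)
  refine ⟨fun x => rsq p (a x), ⟨?_, ?_, ?_⟩, fun x => ⟨a x, ha x, rfl, hL x⟩⟩
  · intro x y
    show rsq p (a (x + y)) = rsq p (a x) + rsq p (a y)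
    rw [← rsq_add (ha x) (ha y)]
    refine huniq (ha _) ((ha x).add (ha y)) (hL _) ?_
    exact (LD.add hT i0_pos (ha x) (ha y) (hL x) (hL y)).congr
      (fun σ _ => (kap_add b x y σ).symm)
  · intro x
    show rsq p (a (c * x)) = rsq p (ξ0 ^ ((p : ℕ) ^ 2 - (p : ℕ))) * rsq p (a x)
    have hτD := Iq_le_Dq p hτ0
    have hξE := xi_EQ hT hτD hξ
    have hξG : (wq p).GE ξ0 0 := hξE.GE le_rfl
    obtain ⟨n, hn⟩ : ∃ n, n = ((cycloChar (p : ℕ) τ0 : (ZMod (p : ℕ))ˣ) : ZMod (p : ℕ)).val :=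
      ⟨_, rfl⟩
    have h1 := (hL x).conj hT hτD hξ
    have h2 : LD p π ζ (i0 p) (fun σ => (n : ZMod (p : ℕ)) * kap p b (c * x) σ)
        (τ0 (a x) * ξ0 ^ i0 p) :=
      h1.congr (fun σ hσ => by
        rw [hn, ZMod.natCast_zmod_val]
        congr 1
        simp only [kap]
        rw [hb.hτ σ hσ]
        congr 1
        ring)
    have h3 := (hL (c * x)).smul hT i0_pos (ha _) n
    have hτa : (wq p).GE (τ0 (a x)) 0 := GE_map hτD (ha x)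
    have h4 := huniq (GE_mul0 hτa (GE_pow0 hξG _)) (GE_mul0 (RVal.GE_natCast n) (ha _)) h2 h3
    rw [rsq_mul hτa (GE_pow0 hξG _), rsq_mul (RVal.GE_natCast n) (ha _)] at h4
    have h5 : rsq p (τ0 (a x)) = rsq p (a x) := (rsq_eq_iff hτa (ha x)).2 (GT_of_mem_Iq p hτ0 (ha x))
    have h6 : rsq p (n : Qb) = rsq p (ξ0 ^ ((p : ℕ) + 1)) :=
      (rsq_eq_iff (RVal.GE_natCast n) (GE_pow0 hξG _)).2 (by rw [hn]; exact omega_congr hT hτ0 hξ)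
    have h7 : i0 p = ((p : ℕ) + 1) + ((p : ℕ) ^ 2 - (p : ℕ)) := by
      have : (p : ℕ) ≤ (p : ℕ) ^ 2 := by nlinarith [p.2.pos]
      unfold i0
      omega
    rw [h5, h6, h7, pow_add, rsq_mul (GE_pow0 hξG _) (GE_pow0 hξG _)] at h4
    have h8 : rsq p (ξ0 ^ ((p : ℕ) + 1)) ≠ 0 := rsq_ne_zero (by simpa using hξE.pow ((p : ℕ) + 1))
    apply mul_left_cancel₀ h8
    rw [← h4]
    ring
  · intro x
    show rsq p (a x) ^ ((p : ℕ) ^ 2) = _ * rsq p (a x)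
    have hφ2 : φ ^ 2 ∈ Dq p := pow_mem hφ 2
    have hφπ2 : (φ ^ 2) π = 1 * π := by
      rw [pow_two, AlgEquiv.mul_apply, hφπ, hφπ, one_mul]
    obtain ⟨n, hn⟩ : ∃ n, n = ((cycloChar (p : ℕ) (φ ^ 2) : (ZMod (p : ℕ))ˣ) : ZMod (p : ℕ)).val :=
      ⟨_, rfl⟩
    rw [← hn]
    have h1 := (hL x).conj hT hφ2 hφπ2
    have h2 : LD p π ζ (i0 p) (fun σ => (n : ZMod (p : ℕ)) * kap p b x σ)
        ((φ ^ 2) (a x) * 1 ^ i0 p) :=
      h1.congr (fun σ hσ => by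
        rw [hn, ZMod.natCast_zmod_val]
        congr 1
        simp only [kap]
        rw [hb.hφ σ hσ])
    rw [one_pow, mul_one] at h2
    have h3 := (hL x).smul hT i0_pos (ha _) n
    have hφa : (wq p).GE ((φ ^ 2) (a x)) 0 := GE_map hφ2 (ha x)
    have h4 := huniq hφa (GE_mul0 (RVal.GE_natCast n) (ha _)) h2 h3
    rw [rsq_mul (RVal.GE_natCast n) (ha _), rsq_natCast] at h4
    rw [← h4, ← rsq_pow (ha x), eq_comm]
    refine (rsq_eq_iff hφa (GE_pow0 (ha x) _)).2 ?_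
    have hφ1 : (wq p).GE (φ (a x)) 0 := GE_map hφ (ha x)
    have e1 : (φ ^ 2) (a x) - a x ^ ((p : ℕ) ^ 2) =
        (φ (φ (a x)) - (φ (a x)) ^ (p : ℕ)) + ((φ (a x)) ^ (p : ℕ) - (a x ^ (p : ℕ)) ^ (p : ℕ)) := by
      rw [pow_two φ, AlgEquiv.mul_apply, pow_two (p : ℕ), pow_mul]
      ring
    rw [e1]
    exact (hfrob _ hφ1).add (GT_pow_sub_pow _ hφ1 (GE_pow0 (ha x) _) (hfrob _ (ha x)) _)

theorem eq_of_alpha (hT : TD p π ζ) (hτ0 : τ0 ∈ Iq p) (hξ : τ0 π = ξ0 * π)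
    (hξ0 : IsPrimitiveRoot ξ0 (ee p)) (hc : c ^ (((p : ℕ) + 1) / 2) = -1) {b b' : GQ → k}
    (hb : BB p π ζ τ0 φ c b) (hb' : BB p π ζ τ0 φ c b') {α : k → kk (wq p)}
    (hα : IsAlpha p π ζ b α) (hα' : IsAlpha p π ζ b' α) : ∀ σ ∈ JJ p π, b σ = b' σ := by
  have he := ee_real_pos (p := p)
  have key : ∀ x, Van p π (fun σ => kap p b x σ + - kap p b' x σ) := by
    intro x
    obtain ⟨a, ha, haα, hL⟩ := hα x
    obtain ⟨a', ha', haα', hL'⟩ := hα' x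
    have h1 := LD.add hT i0_pos ha ha'.neg hL (hL'.neg hT i0_pos ha')
    have h2 : (wq p).GT (a + -a' - 0) 0 := by
      rw [sub_zero, ← sub_eq_add_neg]
      exact (rsq_eq_iff ha ha').1 (haα.trans haα'.symm)
    obtain ⟨w, hK, hw⟩ := h1.congr_a hT h2
    rw [zero_mul, sub_zero] at hw
    by_contra hne
    have hGE : (wq p).GE (w ^ (p : ℕ) - 1) (((i0 p + 1 : ℕ) : ℝ) / (ee p : ℝ)) := by
      by_cases hu : w ^ (p : ℕ) - 1 = 0
      · exact Or.inl hu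
      · right
        have hfix : ∀ σ ∈ JJ p π, σ (w ^ (p : ℕ) - 1) = w ^ (p : ℕ) - 1 := fun σ hσ => by
          rw [map_sub, map_one, hK.pow_fixed hT σ hσ]
        obtain ⟨m, hm⟩ := val_group hT hfix hu
        have h3 := hw.lt_w hu
        rw [hm, div_lt_div_iff_of_pos_right he] at h3
        rw [hm, div_le_div_iff_of_pos_right he]
        have h4 : (i0 p : ℤ) < m := by exact_mod_cast h3
        have h5 : ((i0 p + 1 : ℕ) : ℤ) ≤ m := by push_cast; omega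
        exact_mod_cast h5
    have hle : ee p ≤ i0 p + 1 := by
      unfold ee i0
      omega
    have hanti : ∀ σ ∈ JJ p π, (fun σ => kap p b x σ + - kap p b' x σ)
        ((τ0 ^ (((p : ℕ) + 1) / 2))⁻¹ * σ * τ0 ^ (((p : ℕ) + 1) / 2)) =
        - (fun σ => kap p b x σ + - kap p b' x σ) σ := by
      intro σ hσ
      show kap p b x _ + - kap p b' x _ = - (kap p b x σ + - kap p b' x σ)
      rw [kap_anti hT hτ0 hc hb.hτ x σ hσ, kap_anti hT hτ0 hc hb'.hτ x σ hσ]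
      ring
    have := (partB hT hτ0 hξ hξ0 hK hle hGE hanti hne).1
    omega
  intro σ hσ
  rw [← sub_eq_zero]
  apply trace_nondeg (p := p)
  intro x
  have := key x σ hσ
  simp only [kap] at this
  rw [mul_sub, map_sub, sub_eq_add_neg]
  exact this

end Fermat.Agent.S56.FK
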