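import Fermat.Agent.S56.FK.Type

/-!
# S56/FK-CONJ : transport along a change of basis          (key `S56/FK-CONJ`)

`r0' = conjRep g r0`.  `adOne g : M0 k →+ M0 k` intertwines `adRhoD r0 p` and `adRhoD r0' p` (`IsHom`), `Θ = H1c (lvlD p) _` (`S55/Coh/Defs.lean`).
`Θ` is injective: if `g c g⁻¹ = d0 a` then `c = d0 (g⁻¹ a g)` (`H1.mk_eq_zero_iff`, `mem_B1`; `LC1` from `c ∈ Z1`).
`X' = Θ '' X`; for `x = [c]`, `Θ x = [c']`, `c' σ = g c(σ) g⁻¹` and `KumCond (ext0 c')` follows from `KumCond (ext0 c)` with the vector `g⁻¹ x` and the functional `l ∘ (g *ᵥ ·)` (`IsK.congr` not even needed: the functions agree for `σ ∈ D`, both are `l 0 = 0` outside; use `funext` + `ext0_of_mem`).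
`Nat.card X = Nat.card X'` (`Set.InjOn`/`Nat.card_image_of_injective`), `Set.Finite.of_finite_image`.
-/

set_option autoImplicit false

noncomputable section

namespace Fermat.Agent.S56.FK

open Fermat.Agent.S05 Fermat.Agent.S55 Fermat.Agent.S55.B ExtCitation
open Fermat.Agent.S53 (M2)

variable {p : Nat.Primes} {π ζ : Qb} {k : Type} [Field k]

/-- the property proved by `core` -/
def Bd (p : Nat.Primes) (π ζ : Qb) (r0 : GQ →* GL (Fin 2) k) : Prop :=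
  ∀ X : Set (H1 (lvlD p) (adRhoD r0 p)),
    (∀ x ∈ X, ∃ c : ↥(Z1 (lvlD p) (adRhoD r0 p)), H1.mk _ _ c = x ∧
      KumCond p π ζ (ext0 p (c : ↥(Dq p) → M0 k))) → X.Finite ∧ Nat.card X ≤ Nat.card k

theorem conjAux_hom (g : GL (Fin 2) k) (r0 : GQ →* GL (Fin 2) k) :
    IsHom (adRhoD r0 p) (adRhoD (conjRep g r0) p) (adOne g) := by
  intro σ a
  apply Subtype.ext
  show (g : M2 k) * ((r0 σ : M2 k) * a.1 * (((r0 σ)⁻¹ : GL (Fin 2) k) : M2 k)) *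
      ((g⁻¹ : GL (Fin 2) k) : M2 k) =
    ((g * r0 σ * g⁻¹ : GL (Fin 2) k) : M2 k) * ((g : M2 k) * a.1 * ((g⁻¹ : GL (Fin 2) k) : M2 k)) *
      (((g * r0 σ * g⁻¹)⁻¹ : GL (Fin 2) k) : M2 k)
  have e : (g * r0 σ * g⁻¹)⁻¹ = g * (r0 σ)⁻¹ * g⁻¹ := by group
  rw [e]
  simp only [Units.val_mul]
  have h : ((g⁻¹ : GL (Fin 2) k) : M2 k) * (g : M2 k) = 1 := Units.inv_mul g
  calc (g : M2 k) * ((r0 σ : M2 k) * a.1 * (((r0 σ)⁻¹ : GL (Fin 2) k) : M2 k)) *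
        ((g⁻¹ : GL (Fin 2) k) : M2 k)
      = (g : M2 k) * (r0 σ : M2 k) * 1 * a.1 * 1 * (((r0 σ)⁻¹ : GL (Fin 2) k) : M2 k) *
        ((g⁻¹ : GL (Fin 2) k) : M2 k) := by noncomm_ring
    _ = _ := by rw [← h]; noncomm_ring

theorem conjAux_hom' (g : GL (Fin 2) k) (r0 : GQ →* GL (Fin 2) k) :
    IsHom (adRhoD (conjRep g r0) p) (adRhoD r0 p) (adOne g⁻¹) := by
  intro σ a
  apply Subtype.ext
  show ((g⁻¹ : GL (Fin 2) k) : M2 k) * (((g * r0 σ * g⁻¹ : GL (Fin 2) k) : M2 k) * a.1 *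
      (((g * r0 σ * g⁻¹)⁻¹ : GL (Fin 2) k) : M2 k)) * (((g⁻¹)⁻¹ : GL (Fin 2) k) : M2 k) =
    (r0 σ : M2 k) * (((g⁻¹ : GL (Fin 2) k) : M2 k) * a.1 * (((g⁻¹)⁻¹ : GL (Fin 2) k) : M2 k)) *
      (((r0 σ)⁻¹ : GL (Fin 2) k) : M2 k)
  have e : (g * r0 σ * g⁻¹)⁻¹ = g * (r0 σ)⁻¹ * g⁻¹ := by group
  rw [e, inv_inv]
  simp only [Units.val_mul]
  have h : ((g⁻¹ : GL (Fin 2) k) : M2 k) * (g : M2 k) = 1 := Units.inv_mul g
  calc ((g⁻¹ : GL (Fin 2) k) : M2 k) * ((g : M2 k) * (r0 σ : M2 k) * ((g⁻¹ : GL (Fin 2) k) : M2 k) *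
        a.1 * ((g : M2 k) * (((r0 σ)⁻¹ : GL (Fin 2) k) : M2 k) * ((g⁻¹ : GL (Fin 2) k) : M2 k))) *
        (g : M2 k)
      = (((g⁻¹ : GL (Fin 2) k) : M2 k) * (g : M2 k)) * (r0 σ : M2 k) *
        ((g⁻¹ : GL (Fin 2) k) : M2 k) * a.1 * (g : M2 k) * (((r0 σ)⁻¹ : GL (Fin 2) k) : M2 k) *
        (((g⁻¹ : GL (Fin 2) k) : M2 k) * (g : M2 k)) := by noncomm_ring
    _ = _ := by rw [h]; noncomm_ring

theorem conjAux_inv (g : GL (Fin 2) k) (a : M0 k) : adOne g⁻¹ (adOne g a) = a := by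
  apply Subtype.ext
  show ((g⁻¹ : GL (Fin 2) k) : M2 k) * ((g : M2 k) * a.1 * ((g⁻¹ : GL (Fin 2) k) : M2 k)) *
      (((g⁻¹)⁻¹ : GL (Fin 2) k) : M2 k) = a.1
  rw [inv_inv]
  have h : ((g⁻¹ : GL (Fin 2) k) : M2 k) * (g : M2 k) = 1 := Units.inv_mul g
  calc ((g⁻¹ : GL (Fin 2) k) : M2 k) * ((g : M2 k) * a.1 * ((g⁻¹ : GL (Fin 2) k) : M2 k)) * (g : M2 k)
      = (((g⁻¹ : GL (Fin 2) k) : M2 k) * (g : M2 k)) * a.1 *
        (((g⁻¹ : GL (Fin 2) k) : M2 k) * (g : M2 k)) := by noncomm_ring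
    _ = a.1 := by rw [h, one_mul, mul_one]

theorem conjAux_inj (g : GL (Fin 2) k) (r0 : GQ →* GL (Fin 2) k) :
    Function.Injective (H1c (lvlD p) (conjAux_hom (p := p) g r0)) := by
  rw [injective_iff_map_eq_zero]
  intro x hx
  obtain ⟨c, rfl⟩ := H1.mk_surjective _ _ x
  rw [H1c, H1map_mk, H1.mk_eq_zero_iff] at hx
  obtain ⟨-, a, ha⟩ := hx
  rw [H1.mk_eq_zero_iff]
  refine ⟨c.2.1, adOne g⁻¹ a, ?_⟩
  funext σ
  have h1 := congrFun ha σ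
  rw [coe_Z1map, pp1_apply, d0_apply] at h1
  have h2 := conjAux_hom' (p := p) g r0 σ a
  have h3 := congrArg (adOne g⁻¹) h1
  rw [map_sub] at h3
  have h4 := congrArg (fun z => z - adOne g⁻¹ a) h2
  rw [d0_apply]
  exact (conjAux_inv g _).symm.trans (h3.trans h4)

theorem bd_of_conj (g : GL (Fin 2) k) {r0 : GQ →* GL (Fin 2) k} (h : Bd p π ζ (conjRep g r0)) :
    Bd p π ζ r0 := by
  intro X hX
  have hinj := conjAux_inj (p := p) g r0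
  obtain ⟨hfin, hcard⟩ := h (H1c (lvlD p) (conjAux_hom (p := p) g r0) '' X) (by
    rintro _ ⟨x, hx, rfl⟩
    obtain ⟨c, rfl, hc⟩ := hX x hx
    refine ⟨Z1map (LvlMap.id (lvlD p)) (conjAux_hom (p := p) g r0).along c, (H1map_mk _ _ c).symm, ?_⟩
    intro v l
    have h1 := hc (((g⁻¹ : GL (Fin 2) k) : M2 k).mulVec v)
      (l.comp (Matrix.mulVecLin (g : M2 k)).toAddMonoidHom)
    have e : (fun σ => l ((ext0 p (Z1map (LvlMap.id (lvlD p)) (conjAux_hom (p := p) g r0).along c :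
        ↥(Dq p) → M0 k) σ).mulVec v)) =
        (fun σ => (l.comp (Matrix.mulVecLin (g : M2 k)).toAddMonoidHom)
          ((ext0 p (c : ↥(Dq p) → M0 k) σ).mulVec (((g⁻¹ : GL (Fin 2) k) : M2 k).mulVec v))) := by
      funext σ
      show l _ = l ((g : M2 k).mulVec _)
      congr 1
      by_cases hσ : σ ∈ Dq p
      · rw [ext0_of_mem p _ hσ, ext0_of_mem p _ hσ, Matrix.mulVec_mulVec, Matrix.mulVec_mulVec]
        rfl
      · simp only [ext0, dif_neg hσ, Matrix.zero_mulVec, Matrix.mulVec_zero]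
    rw [e]
    exact h1)
  exact ⟨Set.Finite.of_finite_image hfin hinj.injOn, by
    rwa [Nat.card_image_of_injective hinj] at hcard⟩

end Fermat.Agent.S56.FK
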