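import Fermat.Agent.S56.FK.Defs

/-!
# S56/FK-COUNT : counting semilinear maps          (key `S56/FK-COUNT`, pure algebra)

`k` finite field of characteristic `p`, `K` a field of characteristic `p`, `c ∈ k`, `z, n0 ∈ K`, `z^p ≠ z`.
`𝒜 = {α : k → K additive, α(c x) = z α(x), α(x)^(p²) = n0 α(x)}` is finite with at most `#k` elements.
PROOF. `Z = roots of X^(p²) - n0 X` (a nonzero polynomial of degree `p²`): finite, `#Z ≤ p²`.  `α (n x) = n α x` for `n : ℕ` (additivity), so `α (aeval c P * x) = aeval z P * α x` for `P : (ZMod p)[X]`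
(`Polynomial.induction_on`).
Case `c ∈ range (algebraMap (ZMod p) k)`, `c = n` : `(z - n) α x = 0`, `z ≠ n` because `n^p = n` in `K` (`ZMod.pow_card`/`frobenius_natCast`) : `𝒜 ⊆ {0}`.
Otherwise `R = Algebra.adjoin (ZMod p) {c}` is a field (`Subalgebra.isField_of_algebraic` / finite domain `Finite.isField_of_domain`), `#R = p^r`, `r ≥ 2` (`1, c` independent), `k` is free over `R` with basis `x_1..x_m`,
`#k = #R^m ≥ p^(2m)` (`Module.card_eq_pow_finrank`), and `α ↦ (α x_j)_j ∈ Z^m` is injective because every `r ∈ R` is `aeval c P` (`Algebra.adjoin_singleton_eq_range_aeval`).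
-/

set_option autoImplicit false

noncomputable section

namespace Fermat.Agent.S56.FK

open Polynomial

section

variable {p : ℕ} [Fact p.Prime] {k : Type} [Field k] [Algebra (ZMod p) k]
  {K : Type*} [Field K] [Algebra (ZMod p) K] {c : k} {z : K} {α : k → K}

theorem cnt_zero (hadd : ∀ x y, α (x + y) = α x + α y) : α 0 = 0 := by
  have := hadd 0 0
  rw [add_zero] at this
  exact left_eq_add.mp this

theorem cnt_nat (hadd : ∀ x y, α (x + y) = α x + α y) (n : ℕ) (x : k) :
    α ((n : k) * x) = (n : K) * α x := by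
  induction n with
  | zero => simp [cnt_zero hadd]
  | succ n ih =>
    push_cast
    rw [add_mul, add_mul, hadd, ih, one_mul, one_mul]

theorem cnt_alg (hadd : ∀ x y, α (x + y) = α x + α y) (a : ZMod p) (x : k) :
    α (algebraMap (ZMod p) k a * x) = algebraMap (ZMod p) K a * α x := by
  have h1 : a = ((a.val : ℕ) : ZMod p) := (ZMod.natCast_zmod_val a).symm
  rw [h1, map_natCast, map_natCast]
  exact cnt_nat hadd _ x

theorem cnt_pow (hc : ∀ x, α (c * x) = z * α x) (n : ℕ) (x : k) : α (c ^ n * x) = z ^ n * α x := by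
  induction n with
  | zero => simp
  | succ n ih => rw [pow_succ', mul_assoc, hc, ih, pow_succ', mul_assoc]

theorem cnt_aeval (hadd : ∀ x y, α (x + y) = α x + α y) (hc : ∀ x, α (c * x) = z * α x)
    (P : (ZMod p)[X]) (x : k) : α (aeval c P * x) = aeval z P * α x := by
  induction P using Polynomial.induction_on' with
  | add P Q hP hQ => rw [map_add, map_add, add_mul, add_mul, hadd, hP, hQ]
  | monomial n a =>
    rw [aeval_monomial, aeval_monomial, mul_assoc, mul_assoc, cnt_alg hadd, cnt_pow hc]

end

theorem cnt_card (K V : Type*) [Field K] [AddCommGroup V] [Module K V] [Finite K] [Finite V] :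
    Nat.card V = Nat.card K ^ Module.finrank K V := by
  letI := Fintype.ofFinite K
  letI := Fintype.ofFinite V
  rw [Nat.card_eq_fintype_card, Nat.card_eq_fintype_card]
  exact Module.card_eq_pow_finrank

theorem cnt_roots (p : ℕ) [Fact p.Prime] {K : Type*} [Field K] (n0 : K) :
    ∃ Z : Finset K, Z.card ≤ p ^ 2 ∧ ∀ y : K, y ^ (p ^ 2) = n0 * y → y ∈ Z := by
  classical
  have hp := (Fact.out : p.Prime).two_le
  have hp2 : 1 < p ^ 2 := by nlinarith
  let P : K[X] := X ^ (p ^ 2) - C n0 * X
  have hcoeff : P.coeff (p ^ 2) = 1 := by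
    simp only [P, coeff_sub, coeff_X_pow, if_true, coeff_C_mul, coeff_X]
    rw [if_neg (by omega)]
    simp
  have hP0 : P ≠ 0 := by
    intro h
    rw [h] at hcoeff
    simp at hcoeff
  have hdeg : P.natDegree ≤ p ^ 2 := by
    refine (natDegree_sub_le _ _).trans ?_
    rw [natDegree_X_pow]
    refine max_le le_rfl ?_
    refine (natDegree_C_mul_le _ _).trans ?_
    rw [natDegree_X]
    omega
  refine ⟨P.roots.toFinset, ?_, fun y hy => ?_⟩
  · exact (Multiset.toFinset_card_le _).trans ((card_roots' P).trans hdeg)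
  · rw [Multiset.mem_toFinset, mem_roots hP0]
    simp only [P, IsRoot.def, eval_sub, eval_pow, eval_X, eval_mul, eval_C]
    rw [hy, sub_self]

theorem count_gen (p : ℕ) [Fact p.Prime] {k : Type} [Field k] [Finite k] [Algebra (ZMod p) k]
    {K : Type*} [Field K] [CharP K p] (c : k) (z n0 : K) (hz : z ^ p ≠ z) :
    ({α : k → K | (∀ x y, α (x + y) = α x + α y) ∧ (∀ x, α (c * x) = z * α x) ∧
      ∀ x, α x ^ (p ^ 2) = n0 * α x}).Finite ∧
    Nat.card ↥({α : k → K | (∀ x y, α (x + y) = α x + α y) ∧ (∀ x, α (c * x) = z * α x) ∧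
      ∀ x, α x ^ (p ^ 2) = n0 * α x}) ≤ Nat.card k := by
  classical
  letI : Algebra (ZMod p) K := ZMod.algebra K p
  set S : Set (k → K) := {α : k → K | (∀ x y, α (x + y) = α x + α y) ∧ (∀ x, α (c * x) = z * α x) ∧
      ∀ x, α x ^ (p ^ 2) = n0 * α x} with hS
  have hkpos : 0 < Nat.card k := Nat.card_pos
  by_cases hcr : c ∈ (algebraMap (ZMod p) k).range
  · obtain ⟨a, rfl⟩ := hcr
    have hsub : S ⊆ {0} := by
      rintro α ⟨hadd, hc, -⟩
      rw [Set.mem_singleton_iff]
      funext x
      have h1 := hc x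
      rw [cnt_alg hadd] at h1
      have h2 : (z - algebraMap (ZMod p) K a) * α x = 0 := by
        rw [sub_mul, h1, sub_self]
      rcases mul_eq_zero.1 h2 with h3 | h3
      · exfalso
        apply hz
        rw [sub_eq_zero.1 h3, ← map_pow, ZMod.pow_card]
      · exact h3
    have hfin : S.Finite := (Set.finite_singleton _).subset hsub
    refine ⟨hfin, ?_⟩
    have := Nat.card_mono (Set.finite_singleton (0 : k → K)) hsub
    have h1 : Nat.card ↥({0} : Set (k → K)) = 1 := by simp
    omega
  · have hint : IsIntegral (ZMod p) c := Algebra.IsIntegral.isIntegral c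
    let R := IntermediateField.adjoin (ZMod p) {c}
    have hRfin : 2 ≤ Module.finrank (ZMod p) R := by
      rw [IntermediateField.adjoin.finrank hint]
      exact (minpoly.two_le_natDegree_iff hint).2 hcr
    have hRcard : p ^ 2 ≤ Nat.card R := by
      rw [cnt_card (ZMod p) R, Nat.card_zmod]
      exact Nat.pow_le_pow_right (Fact.out : p.Prime).pos hRfin
    have hkcard : Nat.card k = Nat.card R ^ Module.finrank R k :=
      cnt_card R k
    let bas := Module.finBasis R k
    obtain ⟨Z, hZcard, hZ⟩ := cnt_roots p n0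
    have hRmem : ∀ r : R, ∃ P : (ZMod p)[X], aeval c P = (r : k) := by
      intro r
      have h1 : (r : k) ∈ (IntermediateField.adjoin (ZMod p) {c}).toSubalgebra := r.2
      rw [IntermediateField.adjoin_simple_toSubalgebra_of_isAlgebraic hint.isAlgebraic,
        Algebra.adjoin_singleton_eq_range_aeval] at h1
      exact h1
    let Φ : S → (Fin (Module.finrank R k) → Z) := fun α j => ⟨α.1 (bas j), hZ _ (α.2.2.2 _)⟩
    have hΦ : Function.Injective Φ := by
      rintro ⟨α, hadd, hc, hr⟩ ⟨α', hadd', hc', hr'⟩ h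
      apply Subtype.ext
      funext x
      have hj : ∀ j, α (bas j) = α' (bas j) := fun j => by
        have := congrFun h j
        exact congrArg Subtype.val this
      let A : k →+ K := AddMonoidHom.mk' α hadd
      let A' : k →+ K := AddMonoidHom.mk' α' hadd'
      show A x = A' x
      rw [← bas.sum_repr x, map_sum, map_sum]
      refine Finset.sum_congr rfl fun j _ => ?_
      obtain ⟨P, hP⟩ := hRmem (bas.repr x j)
      show α (bas.repr x j • bas j) = α' (bas.repr x j • bas j)
      have h1 : bas.repr x j • bas j = aeval c P * bas j := by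
        rw [hP]
        rfl
      rw [h1, cnt_aeval hadd hc, cnt_aeval hadd' hc', hj j]
    have hfinS : Finite S := Finite.of_injective Φ hΦ
    refine ⟨Set.toFinite S, ?_⟩
    have h1 : Nat.card S ≤ Nat.card (Fin (Module.finrank R k) → Z) :=
      Nat.card_le_card_of_injective Φ hΦ
    have h2 : Nat.card (Fin (Module.finrank R k) → Z) = Z.card ^ Module.finrank R k := by
      rw [Nat.card_fun]
      simp
    rw [h2] at h1
    rw [hkcard]
    exact h1.trans (Nat.pow_le_pow_left (hZcard.trans hRcard) _)

end Fermat.Agent.S56.FK
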