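import Fermat.Agent.S56.FK.Eig

/-!
# S56/FK-INJ : `H¹(D, ad⁰) → Hom(J, ad⁰)` is injective (adapted basis)          (key `S56/FK-INJ`)

`c` a cocycle on `D` (`c (g h) = g c(h) + c(g)`), vanishing on `J`.  `s = r0(τ0)_{00}`, `r0(τ0) = diag(s, s^p)`.
* `s_pow` : `(s^(p-1))^((p+1)/2) = (s^(p+1))^((p-1)/2) = ω(τ0)^((p-1)/2) = -1` in `k`: `n = ω(τ0).val`, `n ≡ ξ0^(p+1)` (`omega_congr`), `n^((p-1)/2) ≡ ξ0^(e/2) = -1`, so `p ∣ n^((p-1)/2) + 1` (`natCast_EQ`), cast to `ZMod p`, then to `k`.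
  In particular `s^p ≠ s`.
* (1) every `τ ∈ I` is `τ0^j σ`, `σ ∈ J` (`exists_root`, `hξ0.eq_pow_of_pow_eq_one`, `root_fixed`).
* (2) `m = ∑_{j<e} c(τ0^j)`: `τ0 m = m + c(τ0^e) - c(1) - e c(τ0) = m - e c(τ0)` (`τ0^e ∈ J`), and `e = -1` in `k`, i.e. `e • X = -X` on `M0 k` (`CharP k p` from the algebra structure): `c(τ0) = τ0 m - m`.
  `c' = c - d0 m` is a cocycle vanishing on `J` (`r0 = 1` there) and at `τ0`, hence on `I`.
* (3) for `δ ∈ D`: `c'(τ0 δ) = τ0 c'(δ)`, `τ0 δ = δ (δ⁻¹ τ0 δ)`, `c'(δ ι) = c'(δ)` for `ι ∈ I` (`conj_mem_Iq`): `c'(δ)` commutes with `diag(s, s^p)`, so it is diagonal, `= diag(t, -t)`; conjugation by the antidiagonal `r0 φ` maps it to its negative.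
* (4) `m' = -c'(φ)/2` (diagonal, so fixed by `I`), `(φ - 1) m' = c'(φ)`; `c'' = c' - d0 m'` vanishes on `I` and at `φ`, `c''(δ)` is still diagonal.
* (5) `ι = (φ δ)⁻¹ δ φ ∈ I` (`mem_Iq_of_GT`: `δ φ x ≡ δ (x^p) = (δ x)^p ≡ φ δ x`, `pres_Dq`).  `c''(δ φ) = c''(δ)`, `c''(φ δ ι) = c''(φ δ) = φ c''(δ) = -c''(δ)`: `2 c''(δ) = 0`.
So `c = d0 (m + m')`; `LC1` comes from `c ∈ Z1`.
-/

set_option autoImplicit false

noncomputable section

namespace Fermat.Agent.S56.FK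

open Fermat.Agent.S05 Fermat.Agent.S55 Fermat.Agent.S55.B ExtCitation
open Fermat.Agent.S53 (M2)

variable {p : Nat.Primes} {π ζ : Qb} {k : Type} [Field k] [Algebra (ZMod (p : ℕ)) k]
  {r0 : GQ →* GL (Fin 2) k} {τ0 φ : GQ} {ξ0 : Qb}

/-! ### the abstract argument -/

theorem inj_inv {G A : Type*} [Group G] [AddCommGroup A] {ρ : G →* AddMonoid.End A} {g : G → A}
    (hg : ∀ a b, g (a * b) = ρ a (g b) + g a) {I : Subgroup G}
    (hIn : ∀ d, ∀ ι ∈ I, d⁻¹ * ι * d ∈ I) (hI : ∀ ι ∈ I, g ι = 0) (d : G) :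
    ∀ ι ∈ I, ρ ι (g d) = g d := by
  intro ι hι
  have h1 : g (ι * d) = ρ ι (g d) := by rw [hg, hI ι hι, add_zero]
  have h2 : ι * d = d * (d⁻¹ * ι * d) := by group
  rw [← h1, h2, hg, hI _ (hIn d ι hι), map_zero, zero_add]

theorem inj_cob {G A : Type*} [Group G] [AddCommGroup A] {ρ : G →* AddMonoid.End A} {g : G → A}
    (hg : ∀ a b, g (a * b) = ρ a (g b) + g a) (m : A) :
    ∀ a b, (fun x => g x - (ρ x m - m)) (a * b) =
      ρ a ((fun x => g x - (ρ x m - m)) b) + (fun x => g x - (ρ x m - m)) a := by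
  intro a b
  show g (a * b) - (ρ (a * b) m - m) = ρ a (g b - (ρ b m - m)) + (g a - (ρ a m - m))
  have h1 : ρ (a * b) m = ρ a (ρ b m) := by rw [map_mul]; rfl
  rw [hg, h1, map_sub, map_sub]
  abel

theorem inj_abs {G A : Type*} [Group G] [AddCommGroup A] (ρ : G →* AddMonoid.End A) (f : G → A)
    (hf : ∀ g h, f (g * h) = ρ g (f h) + f g)
    (I J : Subgroup G) (hIn : ∀ d, ∀ ι ∈ I, d⁻¹ * ι * d ∈ I)
    (hJf : ∀ s ∈ J, f s = 0) (hJρ : ∀ s ∈ J, ∀ a, ρ s a = a)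
    (t0 : G) (e : ℕ) (hte : t0 ^ e ∈ J) (hgen : ∀ ι ∈ I, ∃ j : ℕ, (t0 ^ j)⁻¹ * ι ∈ J)
    (he : ∀ a : A, e • a = -a)
    (ph : G) (hcomm : ∀ d, (ph * d)⁻¹ * (d * ph) ∈ I)
    (hneg : ∀ a, (∀ ι ∈ I, ρ ι a = a) → ρ ph a = -a)
    (N : ℕ) (hN : ∀ a : A, (2 * N) • a = a) :
    ∃ a, ∀ g, f g = ρ g a - a := by
  have hf1 : f 1 = 0 := by
    have h := hf 1 1
    rw [mul_one, map_one] at h
    have h2 : f 1 = f 1 + f 1 := h
    exact left_eq_add.mp h2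
  -- step 1 : averaging
  obtain ⟨m, hm⟩ : ∃ m, m = ∑ j ∈ Finset.range e, f (t0 ^ j) := ⟨_, rfl⟩
  have hm1 : ρ t0 m - m = f t0 := by
    have h1 : ρ t0 m = ∑ j ∈ Finset.range e, (f (t0 ^ (j + 1)) - f t0) := by
      rw [hm, map_sum]
      refine Finset.sum_congr rfl fun j _ => ?_
      rw [pow_succ', hf]
      abel
    have h2 : ∑ j ∈ Finset.range e, f (t0 ^ (j + 1)) = m := by
      have h3 := Finset.sum_range_succ' (fun j => f (t0 ^ j)) e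
      have h4 := Finset.sum_range_succ (fun j => f (t0 ^ j)) e
      rw [h4, pow_zero, hf1, add_zero, hJf _ hte, add_zero] at h3
      rw [hm]
      exact h3.symm
    rw [h1, Finset.sum_sub_distrib, h2, Finset.sum_const, Finset.card_range, he]
    abel
  obtain ⟨g1, hg1⟩ : ∃ g1 : G → A, g1 = fun x => f x - (ρ x m - m) := ⟨_, rfl⟩
  have hc1 : ∀ a b, g1 (a * b) = ρ a (g1 b) + g1 a := by
    rw [hg1]
    exact inj_cob hf m
  have h1t : g1 t0 = 0 := by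
    rw [hg1]
    show f t0 - (ρ t0 m - m) = 0
    rw [hm1, sub_self]
  have h1J : ∀ s ∈ J, g1 s = 0 := by
    intro s hs
    rw [hg1]
    show f s - (ρ s m - m) = 0
    rw [hJf s hs, hJρ s hs, sub_self, sub_self]
  have h1one : g1 1 = 0 := h1J 1 J.one_mem
  have h1pow : ∀ j : ℕ, g1 (t0 ^ j) = 0 := by
    intro j
    induction j with
    | zero => rw [pow_zero]; exact h1one
    | succ j ih => rw [pow_succ', hc1, ih, map_zero, h1t, add_zero]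
  have h1I : ∀ ι ∈ I, g1 ι = 0 := by
    intro ι hι
    obtain ⟨j, hj⟩ := hgen ι hι
    have h2 : ι = t0 ^ j * ((t0 ^ j)⁻¹ * ι) := by group
    rw [h2, hc1, h1J _ hj, map_zero, h1pow, add_zero]
  -- step 2 : Frobenius
  obtain ⟨Y, hY⟩ : ∃ Y, Y = g1 ph := ⟨_, rfl⟩
  have hYI : ∀ ι ∈ I, ρ ι Y = Y := by
    rw [hY]
    exact inj_inv hc1 hIn h1I ph
  have hYph : ρ ph Y = -Y := hneg Y hYI
  obtain ⟨m', hm'⟩ : ∃ m', m' = -(N • Y) := ⟨_, rfl⟩
  have hm'I : ∀ ι ∈ I, ρ ι m' = m' := by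
    intro ι hι
    rw [hm', map_neg, map_nsmul, hYI ι hι]
  have hm'ph : ρ ph m' - m' = Y := by
    rw [hm', map_neg, map_nsmul, hYph]
    have := hN Y
    rw [two_mul, add_nsmul] at this
    rw [smul_neg, neg_neg, sub_neg_eq_add]
    exact this
  obtain ⟨g2, hg2⟩ : ∃ g2 : G → A, g2 = fun x => g1 x - (ρ x m' - m') := ⟨_, rfl⟩
  have hc2 : ∀ a b, g2 (a * b) = ρ a (g2 b) + g2 a := by
    rw [hg2]
    exact inj_cob hc1 m'
  have h2I : ∀ ι ∈ I, g2 ι = 0 := by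
    intro ι hι
    rw [hg2]
    show g1 ι - (ρ ι m' - m') = 0
    rw [h1I ι hι, hm'I ι hι, sub_self, sub_self]
  have h2ph : g2 ph = 0 := by
    rw [hg2]
    show g1 ph - (ρ ph m' - m') = 0
    rw [hm'ph, hY, sub_self]
  have h2 : ∀ d, g2 d = 0 := by
    intro d
    have hinv := inj_inv hc2 hIn h2I d
    have hn := hneg _ hinv
    have e1 : g2 (d * ph) = g2 d := by rw [hc2, h2ph, map_zero, zero_add]
    have e2 : d * ph = (ph * d) * ((ph * d)⁻¹ * (d * ph)) := by group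
    have e3 : g2 (d * ph) = - g2 d := by
      rw [e2, hc2, h2I _ (hcomm d), map_zero, zero_add, hc2, h2ph, add_zero, hn]
    have e4 : g2 d + g2 d = 0 := by
      have : g2 d = - g2 d := e1.symm.trans e3
      exact add_eq_zero_iff_eq_neg.2 this
    have e5 := hN (g2 d)
    rw [mul_comm, mul_nsmul', two_nsmul, e4, smul_zero] at e5
    exact e5.symm
  refine ⟨m + m', fun g => ?_⟩
  have h3 := h2 g
  rw [hg2] at h3
  have h4 : g1 g - (ρ g m' - m') = 0 := h3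
  rw [hg1] at h4
  have h5 : f g - (ρ g m - m) - (ρ g m' - m') = 0 := h4
  rw [map_add]
  have h6 : f g = (ρ g m - m) + (ρ g m' - m') := by
    rw [sub_sub, sub_eq_zero] at h5
    exact h5
  rw [h6]
  abel

/-! ### the concrete situation -/

theorem xi_half {ξ0 : Qb} (hξ0 : IsPrimitiveRoot ξ0 (ee p)) {t : ℕ} (ht : (p : ℕ) = 2 * t + 1)
    (ht1 : 1 ≤ t) : ξ0 ^ (2 * t * (t + 1)) = -1 := by
  have hee : ee p = 4 * t * (t + 1) := by
    rw [ee_eq, ht]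
    have : 2 * t + 1 - 1 = 2 * t := by omega
    rw [this]
    ring
  have hsq : (ξ0 ^ (2 * t * (t + 1))) ^ 2 = 1 := by
    rw [← pow_mul, ← hξ0.pow_eq_one, hee]
    congr 1
    ring
  have hne1 : ξ0 ^ (2 * t * (t + 1)) ≠ 1 := by
    intro h1
    have := (hξ0.pow_eq_one_iff_dvd _).1 h1
    rw [hee] at this
    have hpos : 0 < 2 * t * (t + 1) := by positivity
    have := Nat.le_of_dvd hpos this
    nlinarith
  rw [pow_two] at hsq
  rcases mul_self_eq_one_iff.1 hsq with h1 | h1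
  · exact absurd h1 hne1
  · exact h1

theorem exists_t (hT : TD p π ζ) : ∃ t, (p : ℕ) = 2 * t + 1 ∧ 1 ≤ t := by
  rcases p.2.eq_two_or_odd' with h2 | ⟨t, ht⟩
  · exact absurd h2 hT.hp2
  · exact ⟨t, ht, by have := p.2.two_le; omega⟩

theorem s_pow (hT : TD p π ζ) (hA : Adapted p π r0 τ0 φ ξ0) :
    (((r0 τ0 : M2 k) 0 0) ^ ((p : ℕ) - 1)) ^ (((p : ℕ) + 1) / 2) = -1 := by
  obtain ⟨t, ht, ht1⟩ := exists_t hT
  have e1 : (p : ℕ) - 1 = 2 * t := by omega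
  have e2 : ((p : ℕ) + 1) / 2 = t + 1 := by omega
  have e3 : (((r0 τ0 : M2 k) 0 0) ^ ((p : ℕ) - 1)) ^ (((p : ℕ) + 1) / 2) =
      (((r0 τ0 : M2 k) 0 0) ^ ((p : ℕ) + 1)) ^ t := by
    rw [e1, e2, ht, ← pow_mul, ← pow_mul]
    congr 1
    ring
  rw [e3, hA.hdet, ← map_pow]
  obtain ⟨n, hn⟩ : ∃ n, n = ((cycloChar (p : ℕ) τ0 : (ZMod (p : ℕ))ˣ) : ZMod (p : ℕ)).val := ⟨_, rfl⟩
  have hω : ((cycloChar (p : ℕ) τ0 : (ZMod (p : ℕ))ˣ) : ZMod (p : ℕ)) = (n : ZMod (p : ℕ)) := by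
    rw [hn, ZMod.natCast_zmod_val]
  have h1 := omega_congr hT hA.hτ0 hA.hτπ
  rw [← hn] at h1
  have hξG : (wq p).GE ξ0 0 := (root_EQ ee_pos.ne' hA.hξ0.pow_eq_one).GE le_rfl
  have h2 := GT_pow_sub_pow _ (RVal.GE_natCast n) ((hξG.pow ((p : ℕ) + 1)).mono (by linarith)) h1 t
  have e4 : (ξ0 ^ ((p : ℕ) + 1)) ^ t = -1 := by
    rw [← xi_half hA.hξ0 ht ht1, ← pow_mul, ht]
    congr 1
    ring
  rw [e4, sub_neg_eq_add] at h2
  have h3 : (p : ℕ) ∣ n ^ t + 1 := by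
    by_contra hnd
    have h4 := natCast_EQ (p := p) hnd
    push_cast at h4
    have := h2.lt_w h4.1
    rw [h4.2] at this
    exact lt_irrefl _ this
  have h4 : ((n ^ t + 1 : ℕ) : ZMod (p : ℕ)) = 0 := (ZMod.natCast_eq_zero_iff _ _).2 h3
  push_cast at h4
  rw [hω, eq_neg_of_add_eq_zero_left h4, map_neg, map_one]

theorem charP_k : CharP k (p : ℕ) :=
  charP_of_injective_algebraMap (algebraMap (ZMod (p : ℕ)) k).injective (p : ℕ)

theorem p_nsmul (a : M0 k) : (p : ℕ) • a = 0 := by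
  haveI := charP_k (p := p) (k := k)
  apply Subtype.ext
  show (p : ℕ) • (a : M2 k) = 0
  ext i j
  simp [Matrix.smul_apply]

theorem comm_mem_Iq {δ : GQ} (hδ : δ ∈ Dq p) (hφ : φ ∈ Dq p)
    (hfrob : ∀ x : Qb, (wq p).GE x 0 → (wq p).GT (φ x - x ^ (p : ℕ)) 0) :
    (φ * δ)⁻¹ * (δ * φ) ∈ Iq p := by
  have hD : (φ * δ)⁻¹ ∈ Dq p := inv_mem (mul_mem hφ hδ)
  refine mem_Iq_of_GT p (mul_mem hD (mul_mem hδ hφ)) fun x hx => ?_
  have h1 : (wq p).GT (δ (φ x) - (δ x) ^ (p : ℕ)) 0 := by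
    have := GT_map hδ (hfrob x hx)
    rwa [map_sub, map_pow] at this
  have h2 := hfrob (δ x) (GE_map hδ hx)
  have h3 : (wq p).GT (δ (φ x) - φ (δ x)) 0 := by
    have := h1.sub h2
    rwa [sub_sub_sub_cancel_right] at this
  have h4 := GT_map hD h3
  have e1 : ((φ * δ)⁻¹ * (δ * φ)) x - x = (φ * δ)⁻¹ (δ (φ x) - φ (δ x)) := by
    rw [map_sub]
    have : (φ * δ)⁻¹ (φ (δ x)) = x := by
      rw [← AlgEquiv.mul_apply φ δ, ← AlgEquiv.mul_apply, inv_mul_cancel, AlgEquiv.one_apply]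
    rw [this]
    rfl
  rw [e1]
  exact h4

theorem neg_of_inv (hT : TD p π ζ) (hA : Adapted p π r0 τ0 φ ξ0) (a : M0 k)
    (ha : rhoAd r0 τ0 a = a) : rhoAd r0 φ a = -a := by
  haveI := charP_k (p := p) (k := k)
  have hs := s_pow hT hA
  obtain ⟨a01', a10'⟩ := hA.hI τ0 hA.hτ0
  obtain ⟨r00, r11⟩ := hA.hφ0
  have h2 : (2 : k) ≠ 0 := by
    intro h
    have h3 : ((2 : ℕ) : k) = 0 := by exact_mod_cast h
    rw [CharP.cast_eq_zero_iff k (p : ℕ)] at h3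
    have := Nat.le_of_dvd (by omega) h3
    have := p.2.two_le
    exact hT.hp2 (by omega)
  have hsne : ((r0 τ0 : M2 k) 0 0) ^ (p : ℕ) ≠ (r0 τ0 : M2 k) 0 0 := by
    intro h
    have hs0 : (r0 τ0 : M2 k) 0 0 ≠ 0 := by
      intro h0
      rw [h0, zero_pow (by have := p.2.two_le; omega),
        zero_pow (by have := p.2.two_le; omega)] at hs
      exact (neg_ne_zero.2 one_ne_zero) hs.symm
    have hp1 : (p : ℕ) = ((p : ℕ) - 1) + 1 := by have := p.2.pos; omega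
    rw [hp1, pow_succ] at h
    have h1 : ((r0 τ0 : M2 k) 0 0) ^ ((p : ℕ) - 1) = 1 := by
      have := mul_right_cancel₀ hs0 (h.trans (one_mul _).symm)
      exact this
    rw [h1, one_pow] at hs
    apply h2
    linear_combination hs
  have hcomm : (r0 τ0 : M2 k) * (a : M2 k) = (a : M2 k) * (r0 τ0 : M2 k) := by
    have h1 := congrArg (fun z : M0 k => (z : M2 k) * (r0 τ0 : M2 k)) ha
    simp only [rhoAd_coe] at h1
    rw [mul_assoc, ← Units.val_mul, inv_mul_cancel, Units.val_one, mul_one] at h1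
    exact h1
  have c01 := congrFun (congrFun hcomm 0) 1
  have c10 := congrFun (congrFun hcomm 1) 0
  simp only [Matrix.mul_apply, Fin.sum_univ_two, a01', a10', zero_mul, mul_zero, add_zero, zero_add,
    hA.hpow] at c01 c10
  have ha01 : (a : M2 k) 0 1 = 0 := by
    have : (a : M2 k) 0 1 * (((r0 τ0 : M2 k) 0 0) ^ (p : ℕ) - (r0 τ0 : M2 k) 0 0) = 0 := by
      linear_combination -c01
    exact (mul_eq_zero.1 this).resolve_right (sub_ne_zero.2 hsne)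
  have ha10 : (a : M2 k) 1 0 = 0 := by
    have : (a : M2 k) 1 0 * (((r0 τ0 : M2 k) 0 0) ^ (p : ℕ) - (r0 τ0 : M2 k) 0 0) = 0 := by
      linear_combination c10
    exact (mul_eq_zero.1 this).resolve_right (sub_ne_zero.2 hsne)
  have htr : (a : M2 k) 1 1 = - (a : M2 k) 0 0 := by
    have h1 : (a : M2 k).trace = 0 := a.2
    rw [Matrix.trace_fin_two] at h1
    linear_combination h1
  have hRa : (r0 φ : M2 k) * (a : M2 k) = -((a : M2 k) * (r0 φ : M2 k)) := by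
    ext i j
    fin_cases i <;> fin_cases j <;>
      simp [Matrix.mul_apply, Fin.sum_univ_two, r00, r11, ha01, ha10, htr, mul_comm]
  apply Subtype.ext
  rw [rhoAd_coe, hRa, neg_mul, mul_assoc, ← Units.val_mul, mul_inv_cancel, Units.val_one, mul_one]
  rfl

theorem inj (hT : TD p π ζ) (hA : Adapted p π r0 τ0 φ ξ0) (c : ↥(Z1 (lvlD p) (adRhoD r0 p)))
    (h : ∀ σ (hσ : σ ∈ JJ p π), (c : ↥(Dq p) → M0 k) ⟨σ, Iq_le_Dq p hσ.1⟩ = 0) :
    (c : ↥(Dq p) → M0 k) ∈ B1 (lvlD p) (adRhoD r0 p) := by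
  obtain ⟨hLC, hf⟩ := (mem_Z1 _ _).1 c.2
  obtain ⟨t, ht, ht1⟩ := exists_t hT
  have hτD : τ0 ∈ Dq p := Iq_le_Dq p hA.hτ0
  have hee1 : ee p + 1 = (p : ℕ) * (p : ℕ) := by
    have := ee_pos (p := p)
    unfold ee at *
    rw [← pow_two]
    omega
  obtain ⟨a, ha⟩ := inj_abs (adRhoD r0 p) (c : ↥(Dq p) → M0 k) hf
    ((Iq p).subgroupOf (Dq p)) ((JJ p π).subgroupOf (Dq p))
    (fun d ι hι => by
      rw [Subgroup.mem_subgroupOf] at hι ⊢
      exact conj_mem_Iq d.2 hι)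
    (fun s hs => by
      rw [Subgroup.mem_subgroupOf] at hs
      exact h s.1 hs)
    (fun s hs a => by
      rw [Subgroup.mem_subgroupOf] at hs
      apply Subtype.ext
      show ((rhoAd r0 s.1 a : M0 k) : M2 k) = a
      rw [rhoAd_coe, hA.hJ _ hs]
      simp)
    ⟨τ0, hτD⟩ (ee p)
    (by
      rw [Subgroup.mem_subgroupOf]
      show τ0 ^ ee p ∈ JJ p π
      refine ⟨pow_mem hA.hτ0 _, ?_⟩
      rw [pow_apply not_dvd_ee hA.hτ0 hA.hξ0.pow_eq_one hA.hτπ, hA.hξ0.pow_eq_one, one_mul])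
    (fun ι hι => by
      rw [Subgroup.mem_subgroupOf] at hι
      obtain ⟨j, hj⟩ := exists_pow_mul not_dvd_ee hT.hπ hA.hτ0 hA.hξ0 hA.hτπ hι
      exact ⟨j, by rw [Subgroup.mem_subgroupOf]; exact hj⟩)
    (fun a => by
      have h1 : (ee p + 1) • a = 0 := by rw [hee1, mul_nsmul, p_nsmul]
      rw [add_nsmul, one_nsmul] at h1
      exact eq_neg_of_add_eq_zero_left h1)
    ⟨φ, hA.hφ⟩
    (fun d => by
      rw [Subgroup.mem_subgroupOf]
      exact comm_mem_Iq d.2 hA.hφ hA.hfrob)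
    (fun a ha => neg_of_inv hT hA a (ha ⟨τ0, hτD⟩ (by rw [Subgroup.mem_subgroupOf]; exact hA.hτ0)))
    (t + 1)
    (fun a => by
      have h1 : 2 * (t + 1) = (p : ℕ) + 1 := by omega
      rw [h1, add_nsmul, p_nsmul, zero_add, one_nsmul])
  refine (mem_B1 _ _).2 ⟨hLC, a, ?_⟩
  funext g
  rw [ha g]
  rfl

end Fermat.Agent.S56.FK
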