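import Fermat.Agent.S56.FK.Alpha
import Fermat.Agent.S56.FK.Count
import Fermat.Agent.S56.FK.Inj

/-!
# S56/FK-CORE : the count in an adapted basis          (key `S56/FK-CORE`)

`c ∈ Z1 (lvlD p) (adRhoD r0 p)` with `KumCond p π ζ (ext0 p c)`; `f = ext0 p c`.
* `f (δ⁻¹ σ δ) = (r0 δ)⁻¹ f(σ) (r0 δ)` for `δ ∈ D`, `σ ∈ J` (cocycle relation, `r0 σ = 1`: `c(δ⁻¹ σ δ) = δ⁻¹ c(σ δ) + c(δ⁻¹) = δ⁻¹(σ c(δ) + c(σ)) + c(δ⁻¹) = δ⁻¹ c(σ) + [δ⁻¹ c(δ) + c(δ⁻¹) = c(1) = 0]`).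
* entries: `a σ = f σ 0 0`, `b σ = f σ 0 1`, `c' σ = f σ 1 0`, `f σ 1 1 = - a σ`.  `IsK (kap p (entry i j) x)` from `KumCond` with the vector `Pi.single j 1` and `l y = Tr (x * y i)`.
* `a` : `a(τ0⁻¹ σ τ0) = a σ` (diagonal conjugation), `partA` `⇒ Tr(x a σ) = 0` for all `x` `⇒ a σ = 0` (`Algebra.traceForm_nondegenerate`).
* `b` : `BB p π ζ τ0 φ (s^(p-1)) b` : `(r0 τ0)⁻¹ X (r0 τ0)` has `(0,1)` entry `s⁻¹ X01 s^p`; `r0 (φ^2) = (r0 φ)^2` is scalar (`r0 φ` antidiagonal).  `s_pow` is the hypothesis `hc`.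
* `c'` : `b (φ⁻¹ σ φ) = (m1/m2) c' σ` with `m1 = (r0 φ) 0 1`, `m2 = (r0 φ) 1 0` (both `≠ 0`, `det ≠ 0`).
* choose for `x ∈ X` a cocycle `c_x` and `α_x` (`exists_alpha`).  `α_x = α_y` `⇒` `b_x = b_y` on `J` (`eq_of_alpha`) `⇒ c'_x = c'_y` on `J` (`conj_mem_JJ`) `⇒ c_x - c_y` vanishes on `J` `⇒ x = y` (`inj`, `H1.mk_eq_zero_iff`).
  So `X` injects into `AAset`, which has `≤ #k` elements (`count_gen`, `charP_kk`; `z^p ≠ z` : `z = rs (ξ0^(p²-p))`, `z^p = z ⇒ ξ0^(p(p²-p)) = ξ0^(p²-p)` (`root_eq_of_GT`) `⇒ e ∣ (p²-p)(p-1) ⇒ p + 1 ∣ p (p-1) ⇒ p + 1 ∣ 2`).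
* `KumCond.add/neg/zero` : `IsK.add`, `IsK.neg`, `IsK.zero`.
-/

set_option autoImplicit false

noncomputable section

namespace Fermat.Agent.S56.FK

open Fermat.Agent.S05 Fermat.Agent.S55 Fermat.Agent.S55.B ExtCitation
open Fermat.Agent.S53 (M2)

variable {p : Nat.Primes} {π ζ : Qb} {k : Type} [Field k] [Algebra (ZMod (p : ℕ)) k]
  {r0 : GQ →* GL (Fin 2) k} {τ0 φ : GQ} {ξ0 : Qb}

omit [Algebra (ZMod (p : ℕ)) k] in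
theorem KumCond.zero : KumCond p π ζ (fun _ => (0 : M2 k)) := by
  intro x l
  refine IsK.zero.congr (fun σ _ => ?_)
  simp

omit [Algebra (ZMod (p : ℕ)) k] in
theorem KumCond.add (hT : TD p π ζ) {f g : GQ → M2 k} (hf : KumCond p π ζ f) (hg : KumCond p π ζ g) :
    KumCond p π ζ (fun σ => f σ + g σ) := by
  intro x l
  refine ((hf x l).add hT (hg x l)).congr (fun σ _ => ?_)
  simp only [Matrix.add_mulVec, map_add]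

omit [Algebra (ZMod (p : ℕ)) k] in
theorem KumCond.neg (hT : TD p π ζ) {f : GQ → M2 k} (hf : KumCond p π ζ f) :
    KumCond p π ζ (fun σ => - f σ) := by
  intro x l
  refine ((hf x l).neg hT).congr (fun σ _ => ?_)
  simp only [Matrix.neg_mulVec, map_neg]

/-! ### cocycle identities -/

theorem z1_one {G A : Type*} [Group G] [AddCommGroup A] {ρ : G →* AddMonoid.End A} {f : G → A}
    (hf : ∀ g h, f (g * h) = ρ g (f h) + f g) : f 1 = 0 := by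
  have h := hf 1 1
  rw [mul_one, map_one] at h
  have h2 : f 1 = f 1 + f 1 := h
  exact left_eq_add.mp h2

theorem z1_conj {G A : Type*} [Group G] [AddCommGroup A] {ρ : G →* AddMonoid.End A} {f : G → A}
    (hf : ∀ g h, f (g * h) = ρ g (f h) + f g) {s : G} (hs : ∀ a, ρ s a = a) (d : G) :
    f (d⁻¹ * s * d) = ρ d⁻¹ (f s) := by
  have h1 : ρ d⁻¹ (f d) + f d⁻¹ = 0 := by
    rw [← hf, inv_mul_cancel, z1_one hf]
  have h2 : ρ (d⁻¹ * s) (f d) = ρ d⁻¹ (f d) := by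
    rw [map_mul]
    show ρ d⁻¹ (ρ s (f d)) = _
    rw [hs]
  rw [hf, hf, h2]
  calc ρ d⁻¹ (f d) + (ρ d⁻¹ (f s) + f d⁻¹) = ρ d⁻¹ (f s) + (ρ d⁻¹ (f d) + f d⁻¹) := by abel
    _ = ρ d⁻¹ (f s) := by rw [h1, add_zero]

omit [Algebra (ZMod (p : ℕ)) k] in
theorem conj_f (hJ : ∀ σ ∈ JJ p π, r0 σ = 1) (c : ↥(Z1 (lvlD p) (adRhoD r0 p))) {δ σ : GQ}
    (hδ : δ ∈ Dq p) (hσ : σ ∈ JJ p π) :
    ext0 p (c : ↥(Dq p) → M0 k) (δ⁻¹ * σ * δ) =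
      (((r0 δ)⁻¹ : GL (Fin 2) k) : M2 k) * ext0 p (c : ↥(Dq p) → M0 k) σ * (r0 δ : M2 k) := by
  have hσD : σ ∈ Dq p := Iq_le_Dq p hσ.1
  have hcD : δ⁻¹ * σ * δ ∈ Dq p := mul_mem (mul_mem (inv_mem hδ) hσD) hδ
  rw [ext0_of_mem p _ hcD, ext0_of_mem p _ hσD]
  have hf := ((mem_Z1 _ _).1 c.2).2
  have hs : ∀ a, adRhoD r0 p ⟨σ, hσD⟩ a = a := by
    intro a
    apply Subtype.ext
    show ((rhoAd r0 σ a : M0 k) : M2 k) = a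
    rw [rhoAd_coe, hJ σ hσ]
    simp
  have h1 := z1_conj hf hs ⟨δ, hδ⟩
  have h2 : (⟨δ⁻¹ * σ * δ, hcD⟩ : ↥(Dq p)) = (⟨δ, hδ⟩ : ↥(Dq p))⁻¹ * ⟨σ, hσD⟩ * ⟨δ, hδ⟩ := rfl
  rw [h2, h1]
  show ((rhoAd r0 δ⁻¹ _ : M0 k) : M2 k) = _
  rw [rhoAd_coe, map_inv, inv_inv]

/-- the entries of the cocycle are Kummer -/
theorem isK_entry {f : GQ → M2 k} (hf : KumCond p π ζ f) (i j : Fin 2) (x : k) :
    IsK p π ζ (kap p (fun σ => f σ i j) x) := by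
  have h := hf (Pi.single j 1) (((Algebra.trace (ZMod (p : ℕ)) k).toAddMonoidHom.comp
    (AddMonoidHom.mulLeft x)).comp (Pi.evalAddMonoidHom (fun _ : Fin 2 => k) i))
  refine h.congr (fun σ _ => ?_)
  simp [kap, Matrix.mulVec_single_one]

theorem inv_entries (A B : M2 k) (h : B * A = 1) :
    B 0 0 * A 0 0 + B 0 1 * A 1 0 = 1 ∧ B 0 0 * A 0 1 + B 0 1 * A 1 1 = 0 ∧
    B 1 0 * A 0 0 + B 1 1 * A 1 0 = 0 ∧ B 1 0 * A 0 1 + B 1 1 * A 1 1 = 1 := by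
  have h00 := congrFun (congrFun h 0) 0
  have h01 := congrFun (congrFun h 0) 1
  have h10 := congrFun (congrFun h 1) 0
  have h11 := congrFun (congrFun h 1) 1
  simp only [Matrix.mul_apply, Fin.sum_univ_two] at h00 h01 h10 h11
  refine ⟨by simpa using h00, by simpa using h01, by simpa using h10, by simpa using h11⟩

theorem inv_mul_coe (g : GL (Fin 2) k) : ((g⁻¹ : GL (Fin 2) k) : M2 k) * (g : M2 k) = 1 := by
  rw [← Units.val_mul, inv_mul_cancel, Units.val_one]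

section Parts

variable (hT : TD p π ζ) (hA : Adapted p π r0 τ0 φ ξ0) (c : ↥(Z1 (lvlD p) (adRhoD r0 p)))
  (hc : KumCond p π ζ (ext0 p (c : ↥(Dq p) → M0 k)))

include hA in
/-- conjugation by `τ0` on the entries -/
theorem conj_tau {σ : GQ} (hσ : σ ∈ JJ p π) :
    ext0 p (c : ↥(Dq p) → M0 k) (τ0⁻¹ * σ * τ0) 0 0 = ext0 p (c : ↥(Dq p) → M0 k) σ 0 0 ∧
    ext0 p (c : ↥(Dq p) → M0 k) (τ0⁻¹ * σ * τ0) 0 1 =
      ((r0 τ0 : M2 k) 0 0) ^ ((p : ℕ) - 1) * ext0 p (c : ↥(Dq p) → M0 k) σ 0 1 := by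
  have h := conj_f hA.hJ c (Iq_le_Dq p hA.hτ0) hσ
  obtain ⟨e1, e2, e3, e4⟩ := inv_entries _ _ (inv_mul_coe (r0 τ0))
  obtain ⟨a01, a10⟩ := hA.hI τ0 hA.hτ0
  have hinv := hA.hI τ0⁻¹ (inv_mem hA.hτ0)
  rw [map_inv] at hinv
  obtain ⟨b01, b10⟩ := hinv
  rw [a10, mul_zero, add_zero] at e1
  rw [h]
  simp only [Matrix.mul_apply, Fin.sum_univ_two, a01, a10, b01, b10, mul_zero, zero_mul, add_zero,
    zero_add]
  constructor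
  · rw [mul_right_comm, e1, one_mul]
  · rw [hA.hpow]
    have hp1 : (p : ℕ) = ((p : ℕ) - 1) + 1 := by have := p.2.pos; omega
    conv_lhs => rw [hp1, pow_succ]
    calc _ = ((((r0 τ0)⁻¹ : GL (Fin 2) k) : M2 k) 0 0 * (r0 τ0 : M2 k) 0 0) *
          ((r0 τ0 : M2 k) 0 0 ^ ((p : ℕ) - 1) * ext0 p (c : ↥(Dq p) → M0 k) σ 0 1) := by ring
      _ = _ := by rw [e1, one_mul]

include hA in
/-- conjugation by `φ` on the entries -/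
theorem conj_phi :
    ∃ u v : k, u * v = 1 ∧ ∀ c : ↥(Z1 (lvlD p) (adRhoD r0 p)), ∀ σ ∈ JJ p π,
      ext0 p (c : ↥(Dq p) → M0 k) (φ⁻¹ * σ * φ) 0 1 = u * ext0 p (c : ↥(Dq p) → M0 k) σ 1 0 ∧
      ext0 p (c : ↥(Dq p) → M0 k) (φ⁻¹ * σ * φ) 1 0 = v * ext0 p (c : ↥(Dq p) → M0 k) σ 0 1 := by
  obtain ⟨e1, e2, e3, e4⟩ := inv_entries _ _ (inv_mul_coe (r0 φ))
  obtain ⟨a00, a11⟩ := hA.hφ0
  rw [a00, mul_zero, zero_add] at e1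
  rw [a11, mul_zero, add_zero] at e2 e4
  rw [a00, mul_zero, zero_add] at e3
  have hm1 : (r0 φ : M2 k) 0 1 ≠ 0 := right_ne_zero_of_mul_eq_one e4
  have hm2 : (r0 φ : M2 k) 1 0 ≠ 0 := right_ne_zero_of_mul_eq_one e1
  have b00 : (((r0 φ)⁻¹ : GL (Fin 2) k) : M2 k) 0 0 = 0 := (mul_eq_zero.1 e2).resolve_right hm1
  have b11 : (((r0 φ)⁻¹ : GL (Fin 2) k) : M2 k) 1 1 = 0 := (mul_eq_zero.1 e3).resolve_right hm2
  refine ⟨(((r0 φ)⁻¹ : GL (Fin 2) k) : M2 k) 0 1 * (r0 φ : M2 k) 0 1,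
    (((r0 φ)⁻¹ : GL (Fin 2) k) : M2 k) 1 0 * (r0 φ : M2 k) 1 0, ?_, fun c σ hσ => ?_⟩
  · calc _ = ((((r0 φ)⁻¹ : GL (Fin 2) k) : M2 k) 0 1 * (r0 φ : M2 k) 1 0) *
          ((((r0 φ)⁻¹ : GL (Fin 2) k) : M2 k) 1 0 * (r0 φ : M2 k) 0 1) := by ring
      _ = 1 := by rw [e1, e4, one_mul]
  · rw [conj_f hA.hJ c hA.hφ hσ]
    simp only [Matrix.mul_apply, Fin.sum_univ_two, a00, a11, b00, b11, mul_zero, zero_mul, add_zero,
      zero_add]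
    constructor <;> ring

include hT hA hc in
theorem entry00 [Finite k] : ∀ σ ∈ JJ p π, ext0 p (c : ↥(Dq p) → M0 k) σ 0 0 = 0 := by
  intro σ hσ
  apply trace_nondeg (p := p)
  intro x
  have h := partA hT hA.hτ0 hA.hτπ hA.hξ0 (isK_entry hc 0 0 x) (fun σ hσ => by
    simp only [kap]
    rw [(conj_tau hA c hσ).1])
  exact h σ hσ

include hT hA hc in
theorem entry01 : BB p π ζ τ0 φ (((r0 τ0 : M2 k) 0 0) ^ ((p : ℕ) - 1))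
    (fun σ => ext0 p (c : ↥(Dq p) → M0 k) σ 0 1) where
  hK := isK_entry hc 0 1
  hτ := fun σ hσ => (conj_tau hA c hσ).2
  hφ := fun σ hσ => by
    obtain ⟨u, v, huv, h⟩ := conj_phi hA
    have h := h c
    have h1 : (φ ^ 2)⁻¹ * σ * φ ^ 2 = φ⁻¹ * (φ⁻¹ * σ * φ) * φ := by
      rw [pow_two, mul_inv_rev]
      simp only [mul_assoc]
    show ext0 p (c : ↥(Dq p) → M0 k) ((φ ^ 2)⁻¹ * σ * φ ^ 2) 0 1 = _
    rw [h1, (h _ (conj_mem_JJ hT hA.hφ hσ)).1, (h σ hσ).2, ← mul_assoc, huv, one_mul]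

end Parts

theorem z_pow_ne (hT : TD p π ζ) (hξ0 : IsPrimitiveRoot ξ0 (ee p)) :
    rsq p (ξ0 ^ ((p : ℕ) ^ 2 - (p : ℕ))) ^ (p : ℕ) ≠ rsq p (ξ0 ^ ((p : ℕ) ^ 2 - (p : ℕ))) := by
  intro h
  have hξG : (wq p).GE ξ0 0 := (root_EQ ee_pos.ne' hξ0.pow_eq_one).GE le_rfl
  rw [← rsq_pow (GE_pow0 hξG _), rsq_eq_iff (GE_pow0 (GE_pow0 hξG _) _) (GE_pow0 hξG _), ← pow_mul] at h
  have h1 := modEq_of_pow_eq hξ0 (root_eq_of_GT not_dvd_ee (pow_ee_pow hξ0 _) (pow_ee_pow hξ0 _) h)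
  obtain ⟨r, hr⟩ : ∃ r, (p : ℕ) = r + 2 := ⟨(p : ℕ) - 2, by have := p.2.two_le; omega⟩
  rw [ee_eq, hr] at h1
  have e1 : (r + 2) ^ 2 - (r + 2) = (r + 2) * (r + 1) := by
    have : (r + 2) ^ 2 = (r + 2) * (r + 1) + (r + 2) := by ring
    omega
  have e2 : r + 2 - 1 = r + 1 := by omega
  rw [e1, e2] at h1
  have h2 := (Nat.modEq_iff_dvd' (by nlinarith)).1 h1.symm
  have e3 : (r + 2) * (r + 1) * (r + 2) - (r + 2) * (r + 1) = (r + 1) * ((r + 3) * r + 2) := by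
    have : (r + 2) * (r + 1) * (r + 2) = (r + 1) * ((r + 3) * r + 2) + (r + 2) * (r + 1) := by ring
    omega
  rw [e3] at h2
  have h3 : r + 2 + 1 ∣ (r + 3) * r + 2 := Nat.dvd_of_mul_dvd_mul_left (by omega) h2
  have h4 : r + 3 ∣ 2 := (Nat.dvd_add_right (Dvd.intro _ rfl)).1 h3
  have := Nat.le_of_dvd (by omega) h4
  omega

theorem core [Finite k] (hT : TD p π ζ) (hA : Adapted p π r0 τ0 φ ξ0)
    (X : Set (H1 (lvlD p) (adRhoD r0 p)))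
    (hX : ∀ x ∈ X, ∃ c : ↥(Z1 (lvlD p) (adRhoD r0 p)), H1.mk _ _ c = x ∧ KumCond p π ζ (ext0 p (c : ↥(Dq p) → M0 k))) :
    X.Finite ∧ Nat.card X ≤ Nat.card k := by
  classical
  have hs := s_pow hT hA
  choose! cc hcc1 hcc2 using hX
  have hex := fun x (hx : x ∈ X) => exists_alpha hT hA.hτ0 hA.hτπ hA.hξ0 hA.hφ hA.hφπ hA.hfrob hs
    (entry01 hT hA (cc x) (hcc2 x hx))
  choose! al hal1 hal2 using hex
  haveI : CharP (kk (wq p)) (p : ℕ) := charP_kk _ p.2 (Or.inr (by rw [wq_q]; exact zero_lt_one))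
  obtain ⟨hfin, hcard⟩ := count_gen (p : ℕ) (((r0 τ0 : M2 k) 0 0) ^ ((p : ℕ) - 1))
    (rsq p (ξ0 ^ ((p : ℕ) ^ 2 - (p : ℕ))))
    ((((cycloChar (p : ℕ) (φ ^ 2) : (ZMod (p : ℕ))ˣ) : ZMod (p : ℕ)).val : ℕ) : kk (wq p))
    (z_pow_ne hT hA.hξ0)
  let Φ : X → ↥(AAset p (((r0 τ0 : M2 k) 0 0) ^ ((p : ℕ) - 1))
    (rsq p (ξ0 ^ ((p : ℕ) ^ 2 - (p : ℕ))))
    ((((cycloChar (p : ℕ) (φ ^ 2) : (ZMod (p : ℕ))ˣ) : ZMod (p : ℕ)).val : ℕ) : kk (wq p))) :=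
    fun x => ⟨al x.1, hal1 x.1 x.2⟩
  have hΦ : Function.Injective Φ := by
    rintro ⟨x, hx⟩ ⟨y, hy⟩ h
    have hxy : al x = al y := congrArg Subtype.val h
    apply Subtype.ext
    show x = y
    have hb := eq_of_alpha hT hA.hτ0 hA.hτπ hA.hξ0 hs (entry01 hT hA (cc x) (hcc2 x hx))
      (entry01 hT hA (cc y) (hcc2 y hy)) (hal2 x hx) (hxy ▸ hal2 y hy)
    rw [← hcc1 x hx, ← hcc1 y hy, ← sub_eq_zero, ← map_sub, H1.mk_eq_zero_iff]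
    apply inj hT hA
    intro σ hσ
    have hσD : σ ∈ Dq p := Iq_le_Dq p hσ.1
    apply Subtype.ext
    show ((cc x : ↥(Dq p) → M0 k) ⟨σ, hσD⟩ : M2 k) - ((cc y : ↥(Dq p) → M0 k) ⟨σ, hσD⟩ : M2 k) = 0
    rw [← ext0_of_mem p _ hσD, ← ext0_of_mem p _ hσD, sub_eq_zero]
    have hx00 := entry00 hT hA (cc x) (hcc2 x hx) σ hσ
    have hy00 := entry00 hT hA (cc y) (hcc2 y hy) σ hσ
    have htr : ∀ z : ↥(Z1 (lvlD p) (adRhoD r0 p)), ext0 p (z : ↥(Dq p) → M0 k) σ 1 1 =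
        - ext0 p (z : ↥(Dq p) → M0 k) σ 0 0 := by
      intro z
      have h1 : (ext0 p (z : ↥(Dq p) → M0 k) σ).trace = 0 := by
        rw [ext0_of_mem p _ hσD]
        exact ((z : ↥(Dq p) → M0 k) ⟨σ, hσD⟩).2
      rw [Matrix.trace_fin_two] at h1
      linear_combination h1
    obtain ⟨u, v, huv, hu⟩ := conj_phi hA
    have h10 : ext0 p (cc x : ↥(Dq p) → M0 k) σ 1 0 = ext0 p (cc y : ↥(Dq p) → M0 k) σ 1 0 := by
      have h3 := (hu (cc x) σ hσ).1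
      have h4 := (hu (cc y) σ hσ).1
      have h5 : ext0 p (cc x : ↥(Dq p) → M0 k) (φ⁻¹ * σ * φ) 0 1 =
          ext0 p (cc y : ↥(Dq p) → M0 k) (φ⁻¹ * σ * φ) 0 1 := hb _ (conj_mem_JJ hT hA.hφ hσ)
      rw [h3, h4] at h5
      exact mul_left_cancel₀ (left_ne_zero_of_mul_eq_one huv) h5
    ext i j
    fin_cases i <;> fin_cases j
    · exact hx00.trans hy00.symm
    · exact hb σ hσ
    · exact h10
    · show ext0 p (cc x : ↥(Dq p) → M0 k) σ 1 1 = ext0 p (cc y : ↥(Dq p) → M0 k) σ 1 1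
      rw [htr, htr, hx00, hy00]
  haveI : Finite ↥(AAset p (((r0 τ0 : M2 k) 0 0) ^ ((p : ℕ) - 1))
    (rsq p (ξ0 ^ ((p : ℕ) ^ 2 - (p : ℕ))))
    ((((cycloChar (p : ℕ) (φ ^ 2) : (ZMod (p : ℕ))ˣ) : ZMod (p : ℕ)).val : ℕ) : kk (wq p))) := hfin
  haveI : Finite X := Finite.of_injective Φ hΦ
  exact ⟨Set.toFinite X, (Nat.card_le_card_of_injective Φ hΦ).trans hcard⟩

end Fermat.Agent.S56.FK
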