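import Fermat.Agent.S56.Defs
import Fermat.Agent.S33.Val.Cyc
import Fermat.Agent.S55.E.Chi

/-!
# S56 / FLAT / FK : Kummer theory of `1 + p O_F` over the tame field `F = K0(π)`, `π^(p²-1) = -p`   (owner helper3)

`p : Nat.Primes` odd, `v = wq p` (`v p = 1`), `I = Iq p`, `D = Dq p`, `e = ee p = p² - 1`, `J = JJ p π = stab I π` (`= I_F`),
`ζ` a primitive `p`-th root of unity (it lies in `F`).
* `Kum p π ζ κ w` : `w ≠ 0` and `σ w = ζ^(κ σ) w` for all `σ ∈ J`  (`κ : GQ → ZMod p`, only the values on `J` matter; `u = w^p ∈ F`).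
* `IsK p π ζ κ`   : `κ` is the Kummer character of some `u = w^p ∈ 1 + p O_F`.
* `LD p π ζ i κ a` : `κ` is the Kummer character of some `u = w^p` with `u ≡ 1 + a π^i` modulo `v > i/e`.
* `ext0 p c` : extension by zero of a function on `D` to `GQ`, values in `M2 k`.
* `KumCond p π ζ f` : all `σ ↦ l (f σ *ᵥ x)` are Kummer characters of elements of `1 + p O_F`  (what FLAT/KEY proves for flat lifts).
* `Adapted p π r0 τ0 φ ξ0` : `r0` is in a basis adapted to the tame type (irreducible case).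
-/

set_option autoImplicit false

noncomputable section

namespace Fermat.Agent.S56.FK

open Fermat.Agent.S05 Fermat.Agent.S55 Fermat.Agent.S55.B ExtCitation
open Fermat.Agent.S53 (M2)

variable (p : Nat.Primes)

instance factP : Fact (p : ℕ).Prime := ⟨p.2⟩

/-- `e = p² - 1` -/
def ee : ℕ := (p : ℕ) ^ 2 - 1

/-- the relevant level `i0 = p² + 1` -/
def i0 : ℕ := (p : ℕ) ^ 2 + 1

/-- the tame datum -/
structure TD (π ζ : Qb) : Prop where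
  hπ : π ^ ee p = -((p : ℕ) : Qb)
  hζ : IsPrimitiveRoot ζ (p : ℕ)
  hp2 : (p : ℕ) ≠ 2

/-- `J = I_F` -/
abbrev JJ (π : Qb) : Subgroup GQ := stab (Iq p) π

/-- `κ` is the Kummer cocycle of `w` on `J` -/
def Kum (π ζ : Qb) (κ : GQ → ZMod (p : ℕ)) (w : Qb) : Prop :=
  w ≠ 0 ∧ ∀ σ ∈ JJ p π, σ w = ζ ^ (κ σ).val * w

/-- `κ` is the Kummer character of an element of `1 + p O_F` -/
def IsK (π ζ : Qb) (κ : GQ → ZMod (p : ℕ)) : Prop :=
  ∃ w, Kum p π ζ κ w ∧ (wq p).GE (w ^ (p : ℕ) - 1) 1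

/-- `κ` is the Kummer character of some `u ≡ 1 + a π^i` -/
def LD (π ζ : Qb) (i : ℕ) (κ : GQ → ZMod (p : ℕ)) (a : Qb) : Prop :=
  ∃ w, Kum p π ζ κ w ∧ (wq p).GT (w ^ (p : ℕ) - 1 - a * π ^ i) ((i : ℝ) / (ee p : ℝ))

/-- `κ` vanishes on `J` -/
def Van (π : Qb) {X : Type*} [Zero X] (κ : GQ → X) : Prop := ∀ σ ∈ JJ p π, κ σ = 0

variable {k : Type} [Field k]

/-- extension by zero -/
def ext0 (c : ↥(Dq p) → M0 k) : GQ → M2 k :=
  fun σ => by classical exact if h : σ ∈ Dq p then (c ⟨σ, h⟩).1 else 0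

theorem ext0_of_mem (c : ↥(Dq p) → M0 k) {σ : GQ} (h : σ ∈ Dq p) : ext0 p c σ = (c ⟨σ, h⟩).1 := by
  classical
  simp only [ext0, dif_pos h]

/-- the Kummer condition (`f = ext0 p c`, `c` a cocycle on `D`) -/
def KumCond (π ζ : Qb) (f : GQ → M2 k) : Prop :=
  ∀ (x : Fin 2 → k) (l : (Fin 2 → k) →+ ZMod (p : ℕ)), IsK p π ζ (fun σ => l ((f σ).mulVec x))

/-- `r0` in a basis adapted to the tame type -/
structure Adapted [Algebra (ZMod (p : ℕ)) k] (π : Qb) (r0 : GQ →* GL (Fin 2) k) (τ0 φ : GQ) (ξ0 : Qb) :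
    Prop where
  hJ : ∀ σ ∈ JJ p π, r0 σ = 1
  hI : ∀ τ ∈ Iq p, (r0 τ : M2 k) 0 1 = 0 ∧ (r0 τ : M2 k) 1 0 = 0
  hτ0 : τ0 ∈ Iq p
  hτπ : τ0 π = ξ0 * π
  hξ0 : IsPrimitiveRoot ξ0 (ee p)
  hpow : (r0 τ0 : M2 k) 1 1 = ((r0 τ0 : M2 k) 0 0) ^ (p : ℕ)
  hdet : ((r0 τ0 : M2 k) 0 0) ^ ((p : ℕ) + 1) =
    algebraMap (ZMod (p : ℕ)) k ((cycloChar (p : ℕ) τ0 : (ZMod (p : ℕ))ˣ) : ZMod (p : ℕ))
  hφ : φ ∈ Dq p
  hφπ : φ π = π
  hfrob : ∀ x : Qb, (wq p).GE x 0 → (wq p).GT (φ x - x ^ (p : ℕ)) 0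
  hφ0 : (r0 φ : M2 k) 0 0 = 0 ∧ (r0 φ : M2 k) 1 1 = 0

/-- the character `σ ↦ Tr_{k/F_p}(x b(σ))` -/
def kap [Algebra (ZMod (p : ℕ)) k] (b : GQ → k) (x : k) : GQ → ZMod (p : ℕ) :=
  fun σ => Algebra.trace (ZMod (p : ℕ)) k (x * b σ)

/-- residue class of an element of `ℚ̄` (`0` if not integral) -/
def rsq (a : Qb) : kk (wq p) := by
  classical exact if h : (wq p).GE a 0 then rs (wq p) ⟨a, h⟩ else 0

theorem rsq_of_GE {a : Qb} (h : (wq p).GE a 0) : rsq p a = rs (wq p) ⟨a, h⟩ := by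
  classical
  simp only [rsq, dif_pos h]

/-- the admissible leading coefficient maps -/
def AAset (c : k) (z n0 : kk (wq p)) : Set (k → kk (wq p)) :=
  {α | (∀ x y, α (x + y) = α x + α y) ∧ (∀ x, α (c * x) = z * α x) ∧
    ∀ x, α x ^ ((p : ℕ) ^ 2) = n0 * α x}

/-- `α` is the leading coefficient map (at level `i0`) of `b` -/
def IsAlpha [Algebra (ZMod (p : ℕ)) k] (π ζ : Qb) (b : GQ → k) (α : k → kk (wq p)) : Prop :=
  ∀ x, ∃ a, (wq p).GE a 0 ∧ rsq p a = α x ∧ LD p π ζ (i0 p) (kap p b x) a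

end Fermat.Agent.S56.FK
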