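import Fermat.Agent.S56.FK.LD

/-!
# S56/FK-EIG : tame equivariance pins down the level          (key `S56/FK-EIG`)

* `eig` : `κ` with data `w` at a level `i` (`v(w^p - 1) = i/e`, `p ∤ i`, `i < p²+p`), `τ ∈ I`, `τ π = ξ π`, `κ(τ⁻¹ σ τ) = ε κ(σ)` on `J`.  Then `ξ^i ≡ (ω(τ) ε).val`.
  PROOF. `LD.of_EQ` gives a unit `a` with `LD i κ a`.  `LD.conj` : `LD i (ω(τ) κ(τ⁻¹·τ)) (τ a ξ^i)`, `LD.congr` : `= LD i (n κ)` with `n = (ω(τ) ε).val` (`ZMod.natCast_zmod_val`), `LD.smul` : `LD i (n κ) (n a)`.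
  `LD.uniq` : `τ a ξ^i ≡ n a`; `τ a ≡ a` (`GT_of_mem_Iq`); divide by the unit `a`.
* `partA` : `ε = 1`, `τ = τ0`.  If `κ` does not vanish, `level` (with `j = e`) gives `i ∈ [e, p²+p)`, `ξ0^i ≡ ω(τ0) ≡ ξ0^(p+1)` (`omega_congr`), `root_eq_of_GT` `⇒ ξ0^i = ξ0^(p+1)` `⇒ e ∣ i - (p+1)` (`IsPrimitiveRoot.pow_inj`/`pow_eq_pow_iff_modEq`),
  but `0 < e - p - 1 ≤ i - p - 1 < e`.
* `partB` : `τ1 = τ0^m`, `m = (p+1)/2`, `τ1 π = ξ0^m π` (`root_fixed`), `ε = -1`.  `level` gives `i ≥ j`; `eig` : `ξ0^(m i) ≡ -ω(τ1) ≡ -ξ0^(m(p+1)) = ξ0^(m(p+1) + e/2)` (`ξ0^(e/2) = -1`: its square is `1` and it is `≠ 1`);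
  so `m i ≡ m (p+1) + e/2` mod `e`, i.e. (multiply out, `e = 2 m (p-1)`) `i ≡ p + 1 + (p - 1) = 2p` mod `2(p-1)`, i.e. `i ≡ 2` mod `2(p-1)`; `e ≡ 0` mod `2(p-1)`; `e ≤ i < e + p + 1 ≤ e + 2 + 2(p-1)` `⇒ i = e + 2 = i0`.
-/

set_option autoImplicit false

noncomputable section

namespace Fermat.Agent.S56.FK

open Fermat.Agent.S05 Fermat.Agent.S55 Fermat.Agent.S55.B ExtCitation

variable {p : Nat.Primes} {π ζ : Qb} {κ : GQ → ZMod (p : ℕ)}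

theorem xi_EQ (hT : TD p π ζ) {τ : GQ} {ξ : Qb} (hτ : τ ∈ Dq p) (hξ : τ π = ξ * π) :
    (wq p).EQ ξ 0 := by
  have hπ := w_pi' hT
  have h1 : (wq p).EQ (τ π) (1 / (ee p : ℝ)) :=
    ⟨(map_ne_zero _).2 hπ.1, by rw [pres_Dq p τ hτ]; exact hπ.2⟩
  have h2 := RVal.EQ.of_mul_eq_left hξ.symm hπ h1
  rwa [sub_self] at h2

theorem eig (hT : TD p π ζ) {τ : GQ} {ξ : Qb} {ε : ZMod (p : ℕ)} (hτ : τ ∈ Iq p) (hξ : τ π = ξ * π)
    (hκ : ∀ σ ∈ JJ p π, κ (τ⁻¹ * σ * τ) = ε * κ σ) {i : ℕ} {w : Qb} (hi0 : 0 < i)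
    (hi : ¬ (p : ℕ) ∣ i) (hi2 : i < (p : ℕ) ^ 2 + (p : ℕ)) (hK : Kum p π ζ κ w)
    (hw : (wq p).EQ (w ^ (p : ℕ) - 1) ((i : ℝ) / (ee p : ℝ))) :
    (wq p).GT (ξ ^ i -
      (((((cycloChar (p : ℕ) τ : (ZMod (p : ℕ))ˣ) : ZMod (p : ℕ)) * ε).val : ℕ) : Qb)) 0 := by
  obtain ⟨a, ha, hL⟩ := LD.of_EQ hT hK hw
  obtain ⟨n, hn⟩ : ∃ n, n = (((cycloChar (p : ℕ) τ : (ZMod (p : ℕ))ˣ) : ZMod (p : ℕ)) * ε).val :=
    ⟨_, rfl⟩
  rw [← hn]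
  have hτD := Iq_le_Dq p hτ
  have h1 := hL.conj hT hτD hξ
  have h2 : LD p π ζ i (fun σ => (n : ZMod (p : ℕ)) * κ σ) (τ a * ξ ^ i) :=
    h1.congr (fun σ hσ => by
      rw [hκ σ hσ, ← mul_assoc, hn, ZMod.natCast_zmod_val])
  have h3 := hL.smul hT hi0 (ha.GE le_rfl) n
  have hξ0 := xi_EQ hT hτD hξ
  have hξi : (wq p).GE (ξ ^ i) 0 := by
    have := (hξ0.pow i).GE le_rfl
    simpa using this
  have hτa : (wq p).GE (τ a) 0 := GE_map hτD (ha.GE le_rfl)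
  have h4 := LD.uniq hT hi0 hi hi2 ((hτa.mul hξi).mono (by linarith))
    (((RVal.GE_natCast n).mul (ha.GE le_rfl)).mono (by linarith)) h2 h3
  have h5 : (wq p).GT (τ a - a) 0 := GT_of_mem_Iq p hτ (ha.GE le_rfl)
  have h6 : (wq p).GT ((ξ ^ i - (n : Qb)) * a) 0 := by
    have e1 : (ξ ^ i - (n : Qb)) * a = (τ a * ξ ^ i - (n : Qb) * a) - (τ a - a) * ξ ^ i := by ring
    rw [e1]
    exact h4.sub ((h5.mul_GE hξi).mono (by linarith))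
  have h7 := RVal.GT.of_mul_eq_left rfl ha h6
  rwa [sub_zero] at h7

theorem pow_ee_pow {ξ0 : Qb} (hξ0 : IsPrimitiveRoot ξ0 (ee p)) (i : ℕ) : (ξ0 ^ i) ^ ee p = 1 := by
  rw [← pow_mul, mul_comm, pow_mul, hξ0.pow_eq_one, one_pow]

theorem modEq_of_pow_eq {ξ0 : Qb} (hξ0 : IsPrimitiveRoot ξ0 (ee p)) {A B : ℕ} (h : ξ0 ^ A = ξ0 ^ B) :
    A ≡ B [MOD ee p] := by
  have hne : ξ0 ≠ 0 := hξ0.ne_zero ee_pos.ne'
  have key : ∀ A c : ℕ, ξ0 ^ A = ξ0 ^ (A + c) → A ≡ A + c [MOD ee p] := by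
    intro A c h
    rw [pow_add] at h
    have h1 : ξ0 ^ c = 1 := by
      have := mul_left_cancel₀ (pow_ne_zero A hne) (h.symm.trans (mul_one _).symm)
      exact this
    have hd := (hξ0.pow_eq_one_iff_dvd _).1 h1
    have := (Nat.modEq_zero_iff_dvd.2 hd).add_left A
    simpa using this.symm
  rcases le_total A B with hAB | hAB
  · obtain ⟨c, rfl⟩ := Nat.exists_eq_add_of_le hAB
    exact key A c h
  · obtain ⟨c, rfl⟩ := Nat.exists_eq_add_of_le hAB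
    exact (key B c h.symm).symm

theorem partA (hT : TD p π ζ) {τ0 : GQ} {ξ0 : Qb} (hτ0 : τ0 ∈ Iq p) (hξ : τ0 π = ξ0 * π)
    (hξ0 : IsPrimitiveRoot ξ0 (ee p)) (hK : IsK p π ζ κ)
    (hinv : ∀ σ ∈ JJ p π, κ (τ0⁻¹ * σ * τ0) = κ σ) : Van p π κ := by
  by_contra hne
  obtain ⟨w, hK1, hK2⟩ := hK
  have he := ee_real_pos (p := p)
  have h1 : (wq p).GE (w ^ (p : ℕ) - 1) ((ee p : ℝ) / (ee p : ℝ)) := by
    rw [div_self he.ne']
    exact hK2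
  obtain ⟨i, w', hji, hi2, hi, hK', hE⟩ := level hT hK1 le_rfl h1 hne
  have hi0 : 0 < i := lt_of_lt_of_le ee_pos hji
  have h2 := eig hT hτ0 hξ (ε := 1) (fun σ hσ => by rw [one_mul]; exact hinv σ hσ) hi0 hi hi2 hK' hE
  rw [mul_one] at h2
  have h3 := omega_congr hT hτ0 hξ
  have h4 : (wq p).GT (ξ0 ^ i - ξ0 ^ ((p : ℕ) + 1)) 0 := by
    have := h2.add h3
    rwa [sub_add_sub_cancel] at this
  have h5 : ξ0 ^ i = ξ0 ^ ((p : ℕ) + 1) :=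
    root_eq_of_GT not_dvd_ee (pow_ee_pow hξ0 _) (pow_ee_pow hξ0 _) h4
  have hee : ee p + 1 = (p : ℕ) ^ 2 := by
    have := ee_pos (p := p)
    unfold ee at *
    omega
  obtain ⟨r, rfl⟩ := Nat.exists_eq_add_of_le hji
  rw [pow_add, hξ0.pow_eq_one, one_mul] at h5
  have hp3 : 3 ≤ (p : ℕ) := by
    have := p.2.two_le
    have := hT.hp2
    omega
  have hlt : (p : ℕ) + 1 < ee p := by nlinarith
  have h6 := hξ0.pow_inj (by omega) hlt h5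
  omega

theorem neg_val_add (a : ZMod (p : ℕ)) : (p : ℕ) ∣ (a * (-1)).val + a.val := by
  rw [← ZMod.natCast_eq_zero_iff]
  push_cast
  rw [ZMod.natCast_zmod_val, ZMod.natCast_zmod_val]
  ring

theorem partB (hT : TD p π ζ) {τ0 : GQ} {ξ0 : Qb} (hτ0 : τ0 ∈ Iq p) (hξ : τ0 π = ξ0 * π)
    (hξ0 : IsPrimitiveRoot ξ0 (ee p)) {w : Qb} {j : ℕ} (hK : Kum p π ζ κ w) (hj : ee p ≤ j)
    (h : (wq p).GE (w ^ (p : ℕ) - 1) ((j : ℝ) / (ee p : ℝ)))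
    (hanti : ∀ σ ∈ JJ p π, κ ((τ0 ^ (((p : ℕ) + 1) / 2))⁻¹ * σ * τ0 ^ (((p : ℕ) + 1) / 2)) = - κ σ)
    (hne : ¬ Van p π κ) :
    j ≤ i0 p ∧ ∃ w', Kum p π ζ κ w' ∧ (wq p).EQ (w' ^ (p : ℕ) - 1) ((i0 p : ℝ) / (ee p : ℝ)) := by
  obtain ⟨i, w', hji, hi2, hi, hK', hE⟩ := level hT hK hj h hne
  have hi0 : 0 < i := lt_of_lt_of_le ee_pos (hj.trans hji)
  obtain ⟨t, ht⟩ : ∃ t, (p : ℕ) = 2 * t + 1 := by
    rcases p.2.eq_two_or_odd' with h2 | h2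
    · exact absurd h2 hT.hp2
    · exact h2
  have ht1 : 1 ≤ t := by
    have := p.2.two_le
    omega
  have hm : ((p : ℕ) + 1) / 2 = t + 1 := by omega
  rw [hm] at hanti
  have hee : ee p = 4 * t * (t + 1) := by
    rw [ee_eq, ht]
    have : 2 * t + 1 - 1 = 2 * t := by omega
    rw [this]
    ring
  have hτ1 : τ0 ^ (t + 1) ∈ Iq p := pow_mem hτ0 _
  have hξ1 : (τ0 ^ (t + 1)) π = ξ0 ^ (t + 1) * π :=
    pow_apply not_dvd_ee hτ0 hξ0.pow_eq_one hξ _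
  have h2 := eig hT hτ1 hξ1 (ε := -1) (fun σ hσ => by rw [hanti σ hσ]; ring) hi0 hi hi2 hK' hE
  have h3 := omega_congr hT hτ1 hξ1
  have h4 := natCast_GT (neg_val_add ((cycloChar (p : ℕ) (τ0 ^ (t + 1)) : (ZMod (p : ℕ))ˣ) :
    ZMod (p : ℕ)))
  -- `ξ0^(e/2) = -1`
  have hhalf : ξ0 ^ (2 * t * (t + 1)) = -1 := by
    have hsq : (ξ0 ^ (2 * t * (t + 1))) ^ 2 = 1 := by
      rw [← pow_mul, ← hξ0.pow_eq_one, hee]
      congr 1
      ring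
    have hne1 : ξ0 ^ (2 * t * (t + 1)) ≠ 1 := by
      intro h1
      have := (hξ0.pow_eq_one_iff_dvd _).1 h1
      rw [hee] at this
      have hpos : 0 < 2 * t * (t + 1) := by positivity
      have := Nat.le_of_dvd hpos this
      nlinarith
    rw [pow_two] at hsq
    rcases mul_self_eq_one_iff.1 hsq with h1 | h1
    · exact absurd h1 hne1
    · exact h1
  have h5 : (wq p).GT ((ξ0 ^ (t + 1)) ^ i - ξ0 ^ ((t + 1) * ((p : ℕ) + 1) + 2 * t * (t + 1))) 0 := by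
    have e1 : (ξ0 ^ (t + 1)) ^ i - ξ0 ^ ((t + 1) * ((p : ℕ) + 1) + 2 * t * (t + 1)) =
        ((ξ0 ^ (t + 1)) ^ i - ((((((cycloChar (p : ℕ) (τ0 ^ (t + 1)) : (ZMod (p : ℕ))ˣ) :
          ZMod (p : ℕ)) * (-1)).val : ℕ) : Qb))) +
        ((((((cycloChar (p : ℕ) (τ0 ^ (t + 1)) : (ZMod (p : ℕ))ˣ) :
          ZMod (p : ℕ)) * (-1)).val + (((cycloChar (p : ℕ) (τ0 ^ (t + 1)) : (ZMod (p : ℕ))ˣ) :
          ZMod (p : ℕ))).val : ℕ) : Qb)) -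
        ((((((cycloChar (p : ℕ) (τ0 ^ (t + 1)) : (ZMod (p : ℕ))ˣ) :
          ZMod (p : ℕ))).val : ℕ) : Qb) - (ξ0 ^ (t + 1)) ^ ((p : ℕ) + 1)) := by
      have e0 : ξ0 ^ ((t + 1) * ((p : ℕ) + 1) + 2 * t * (t + 1)) = -(ξ0 ^ (t + 1)) ^ ((p : ℕ) + 1) := by
        rw [pow_add, hhalf, pow_mul]
        ring
      rw [e0]
      push_cast
      ring
    rw [e1]
    exact (h2.add h4).sub h3
  rw [← pow_mul] at h5
  have h6 := modEq_of_pow_eq hξ0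
    (root_eq_of_GT not_dvd_ee (pow_ee_pow hξ0 _) (pow_ee_pow hξ0 _) h5)
  obtain ⟨r, rfl⟩ := Nat.exists_eq_add_of_le (hj.trans hji)
  have hr : r ≤ 2 * t + 1 := by
    have hee1 : ee p + 1 = (p : ℕ) ^ 2 := by
      have := ee_pos (p := p)
      unfold ee at *
      omega
    omega
  have h7 : (t + 1) * r ≡ (t + 1) * (4 * t + 2) [MOD (t + 1) * (4 * t)] := by
    have h8 : (t + 1) * (ee p + r) ≡ (t + 1) * r [MOD ee p] := by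
      rw [mul_add]
      have : (t + 1) * ee p ≡ 0 [MOD ee p] := (Nat.modEq_zero_iff_dvd.2 (Dvd.intro_left _ rfl))
      simpa using this.add_right ((t + 1) * r)
    have h9 := h8.symm.trans h6
    rw [ht, hee] at h9
    have e2 : (t + 1) * (2 * t + 1 + 1) + 2 * t * (t + 1) = (t + 1) * (4 * t + 2) := by ring
    have e3 : 4 * t * (t + 1) = (t + 1) * (4 * t) := by ring
    rwa [e2, e3] at h9
  have h8 : r ≡ 4 * t + 2 [MOD 4 * t] := Nat.ModEq.mul_left_cancel' (by omega) h7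
  have h9 : r ≡ 2 [MOD 4 * t] := by
    have : 4 * t + 2 ≡ 2 [MOD 4 * t] := by
      have h10 : 4 * t ≡ 0 [MOD 4 * t] := Nat.modEq_zero_iff_dvd.2 dvd_rfl
      simpa using h10.add_right 2
    exact h8.trans this
  have hr2 : r = 2 := by
    rcases Nat.lt_or_ge r 2 with hlt | hge
    · have h10 := (Nat.modEq_iff_dvd' (by omega : r ≤ 2)).1 h9
      have := Nat.le_of_dvd (by omega) h10
      omega
    · have h10 := (Nat.modEq_iff_dvd' hge).1 h9.symm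
      rcases Nat.eq_zero_or_pos (r - 2) with h0 | hpos
      · omega
      · have := Nat.le_of_dvd hpos h10
        omega
  have hi0' : ee p + r = i0 p := by
    have hee1 : ee p + 1 = (p : ℕ) ^ 2 := by
      have := ee_pos (p := p)
      unfold ee at *
      omega
    unfold i0
    omega
  rw [hi0'] at hji hE
  exact ⟨hji, w', hK', hE⟩

end Fermat.Agent.S56.FK
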