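import Fermat.Agent.S56.FK.Tame

/-!
# S56/FK : `ω(τ)^((p-1)/2) = -1` for a generator `τ` of the tame quotient `I/J`          (helper21)
-/

set_option autoImplicit false

noncomputable section

namespace Fermat.Agent.S56.FK

open Fermat.Agent.S05 Fermat.Agent.S55 Fermat.Agent.S55.B ExtCitation

variable {p : Nat.Primes} {π ζ : Qb} {k : Type} [Field k]

theorem omega_half [CharP k (p : ℕ)] (hT : TD p π ζ) {τ : GQ} {ξ0 : Qb} (hτ : τ ∈ Iq p)
    (hξ0 : IsPrimitiveRoot ξ0 (ee p)) (hτπ : τ π = ξ0 * π) :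
    ((((cycloChar (p : ℕ) τ : (ZMod (p : ℕ))ˣ) : ZMod (p : ℕ)).val : ℕ) : k) ^ (((p : ℕ) - 1) / 2)
      = -1 := by
  obtain ⟨j, hj⟩ : ∃ j, (p : ℕ) = 2 * j + 1 := by
    rcases p.2.eq_two_or_odd' with h | h
    · exact absurd h hT.hp2
    · exact h
  have hj2 : ((p : ℕ) - 1) / 2 = j := by omega
  have hj0 : 0 < j := by
    have := p.2.two_le
    omega
  rw [hj2]
  obtain ⟨n0, hn0⟩ : ∃ n0 : ℕ, n0 = ((cycloChar (p : ℕ) τ : (ZMod (p : ℕ))ˣ) : ZMod (p : ℕ)).val :=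
    ⟨_, rfl⟩
  have h1 := omega_congr hT hτ hτπ
  rw [← hn0] at h1 ⊢
  have hξE : (wq p).EQ ξ0 0 := root_EQ ee_pos.ne' hξ0.pow_eq_one
  have h2 : (wq p).GT ((n0 : Qb) ^ j - (ξ0 ^ ((p : ℕ) + 1)) ^ j) 0 :=
    GT_pow_sub_pow _ (RVal.GE_natCast n0) ((hξE.pow _).GE (by simp)) h1 j
  have he : ee p = 2 * (((p : ℕ) + 1) * j) := by
    rw [ee_eq]
    have : (p : ℕ) - 1 = 2 * j := by omega
    rw [this]
    ring
  have h3 : (ξ0 ^ ((p : ℕ) + 1)) ^ j = -1 := by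
    rw [← pow_mul]
    have h4 : ξ0 ^ (((p : ℕ) + 1) * j) * ξ0 ^ (((p : ℕ) + 1) * j) = 1 := by
      rw [← pow_add, ← two_mul, ← he, hξ0.pow_eq_one]
    rcases mul_self_eq_one_iff.1 h4 with h5 | h5
    · exfalso
      have hpos : 0 < ((p : ℕ) + 1) * j := Nat.mul_pos (Nat.succ_pos _) hj0
      refine hξ0.pow_ne_one_of_pos_of_lt hpos.ne' ?_ h5
      rw [he]
      omega
    · exact h5
  rw [h3] at h2
  have h6 : (p : ℕ) ∣ n0 ^ j + 1 := by
    by_contra hnd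
    have h7 := natCast_EQ (p := p) hnd
    have e : (((n0 ^ j + 1 : ℕ)) : Qb) = (n0 : Qb) ^ j - -1 := by
      push_cast
      ring
    rw [e] at h7
    rcases h2 with h8 | h8
    · exact h7.1 h8
    · rw [h7.2] at h8
      exact lt_irrefl _ h8
  have h9 := (CharP.cast_eq_zero_iff k (p : ℕ) (n0 ^ j + 1)).2 h6
  push_cast at h9
  linear_combination h9

end Fermat.Agent.S56.FK
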