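import Fermat.Agent.S56.FK.Tame

/-!
# S56/FK-KUM : calculus of Kummer cocycles on `J`          (key `S56/FK-KUM`)

All proofs are direct computations.  `ζ ^ a.val * ζ ^ b.val = ζ ^ (a + b).val` because `ζ ^ p = 1` (`pow_eq_pow_mod`/`ZMod.val_add`);
helper `zpow_val` below.  `Kum.conj` : `σ (δ w) = δ ((δ⁻¹ σ δ) w) = δ (ζ^κ(δ⁻¹σδ) w) = (δ ζ)^κ(..) δ w`, `δ ζ = ζ ^ (cycloChar δ).val` (`S55.E.cycloChar_spec`),
`δ⁻¹ σ δ ∈ J` (`conj_mem_JJ`).  `Kum.van_of_fixed` : `ζ ^ (κ σ).val = 1`, `(κ σ).val < p` `⇒ κ σ = 0` (`IsPrimitiveRoot.pow_eq_one_iff_dvd`).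
-/

set_option autoImplicit false

noncomputable section

namespace Fermat.Agent.S56.FK

open Fermat.Agent.S05 Fermat.Agent.S55 Fermat.Agent.S55.B ExtCitation

variable {p : Nat.Primes} {π ζ : Qb} {κ κ' : GQ → ZMod (p : ℕ)} {w w' : Qb}

theorem zeta_pow_val_add (hζ : ζ ^ (p : ℕ) = 1) (a b : ZMod (p : ℕ)) :
    ζ ^ (a + b).val = ζ ^ a.val * ζ ^ b.val := by
  rw [ZMod.val_add, ← pow_add, ← pow_eq_pow_mod _ hζ]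

theorem zeta_pow_val_mul (hζ : ζ ^ (p : ℕ) = 1) (a b : ZMod (p : ℕ)) :
    ζ ^ (a * b).val = (ζ ^ a.val) ^ b.val := by
  rw [ZMod.val_mul, ← pow_mul, ← pow_eq_pow_mod _ hζ]

theorem zeta_pow_val_natCast (hζ : ζ ^ (p : ℕ) = 1) (n : ℕ) :
    ζ ^ ((n : ZMod (p : ℕ))).val = ζ ^ n := by
  rw [ZMod.val_natCast, ← pow_eq_pow_mod _ hζ]

theorem Kum.congr (h : ∀ σ ∈ JJ p π, κ σ = κ' σ) (hK : Kum p π ζ κ w) : Kum p π ζ κ' w :=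
  ⟨hK.1, fun σ hσ => by rw [← h σ hσ]; exact hK.2 σ hσ⟩

theorem Kum.one : Kum p π ζ (fun _ => 0) 1 :=
  ⟨one_ne_zero, fun σ _ => by simp⟩

theorem Kum.mul (hT : TD p π ζ) (hK : Kum p π ζ κ w) (hK' : Kum p π ζ κ' w') :
    Kum p π ζ (fun σ => κ σ + κ' σ) (w * w') := by
  refine ⟨mul_ne_zero hK.1 hK'.1, fun σ hσ => ?_⟩
  rw [map_mul, hK.2 σ hσ, hK'.2 σ hσ, zeta_pow_val_add hT.hζ.pow_eq_one]
  ring

theorem Kum.inv (hT : TD p π ζ) (hK : Kum p π ζ κ w) : Kum p π ζ (fun σ => - κ σ) w⁻¹ := by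
  refine ⟨inv_ne_zero hK.1, fun σ hσ => ?_⟩
  have h1 : ζ ^ (κ σ).val * ζ ^ (- κ σ).val = 1 := by
    rw [← zeta_pow_val_add hT.hζ.pow_eq_one]
    simp
  have h2 : ζ ^ (κ σ).val ≠ 0 := left_ne_zero_of_mul_eq_one h1
  rw [map_inv₀, hK.2 σ hσ, mul_inv, eq_comm]
  congr 1
  exact eq_inv_of_mul_eq_one_right h1

theorem Kum.pow (hT : TD p π ζ) (hK : Kum p π ζ κ w) (n : ℕ) :
    Kum p π ζ (fun σ => (n : ZMod (p : ℕ)) * κ σ) (w ^ n) := by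
  refine ⟨pow_ne_zero _ hK.1, fun σ hσ => ?_⟩
  show σ (w ^ n) = ζ ^ ((n : ZMod (p : ℕ)) * κ σ).val * w ^ n
  rw [map_pow, hK.2 σ hσ, mul_pow, mul_comm (n : ZMod (p : ℕ)), zeta_pow_val_mul hT.hζ.pow_eq_one]
  congr 1
  have h1 : (ζ ^ (κ σ).val) ^ (p : ℕ) = 1 := by
    rw [← pow_mul, mul_comm, pow_mul, hT.hζ.pow_eq_one, one_pow]
  exact (zeta_pow_val_natCast h1 n).symm

theorem Kum.conj (hT : TD p π ζ) (hK : Kum p π ζ κ w) {δ : GQ} (hδ : δ ∈ Dq p) :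
    Kum p π ζ (fun σ => ((cycloChar (p : ℕ) δ : (ZMod (p : ℕ))ˣ) : ZMod (p : ℕ)) * κ (δ⁻¹ * σ * δ))
      (δ w) := by
  refine ⟨(map_ne_zero _).2 hK.1, fun σ hσ => ?_⟩
  have h1 : σ (δ w) = δ ((δ⁻¹ * σ * δ) w) := by
    simp only [AlgEquiv.mul_apply]
    rw [← AlgEquiv.mul_apply δ δ⁻¹, mul_inv_cancel, AlgEquiv.one_apply]
  rw [h1, hK.2 _ (conj_mem_JJ hT hδ hσ), map_mul, map_pow,
    Fermat.Agent.S55.E.cycloChar_spec (p : ℕ) δ hT.hζ.pow_eq_one,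
    zeta_pow_val_mul hT.hζ.pow_eq_one]

theorem Kum.fixed_of_van (hK : Kum p π ζ κ w) (h : Van p π κ) : ∀ σ ∈ JJ p π, σ w = w := by
  intro σ hσ
  rw [hK.2 σ hσ, h σ hσ]
  simp

theorem Kum.van_of_fixed (hT : TD p π ζ) (hK : Kum p π ζ κ w) (h : ∀ σ ∈ JJ p π, σ w = w) :
    Van p π κ := by
  intro σ hσ
  have h1 := hK.2 σ hσ
  rw [h σ hσ] at h1
  have h2 : ζ ^ (κ σ).val = 1 := by
    have := mul_right_cancel₀ hK.1 (show 1 * w = ζ ^ (κ σ).val * w by rw [one_mul]; exact h1)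
    exact this.symm
  have h3 := (hT.hζ.pow_eq_one_iff_dvd _).1 h2
  have h4 : (κ σ).val = 0 := Nat.eq_zero_of_dvd_of_lt h3 (ZMod.val_lt _)
  exact (ZMod.val_eq_zero _).1 h4

theorem Kum.mul_fixed (hK : Kum p π ζ κ w) {z : Qb} (hz0 : z ≠ 0) (hz : ∀ σ ∈ JJ p π, σ z = z) :
    Kum p π ζ κ (w * z) :=
  ⟨mul_ne_zero hK.1 hz0, fun σ hσ => by rw [map_mul, hK.2 σ hσ, hz σ hσ, mul_assoc]⟩

/-- `u = w^p` lies in `F` -/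
theorem Kum.pow_fixed (hT : TD p π ζ) (hK : Kum p π ζ κ w) : ∀ σ ∈ JJ p π, σ (w ^ (p : ℕ)) = w ^ (p : ℕ) := by
  intro σ hσ
  rw [map_pow, hK.2 σ hσ, mul_pow, ← pow_mul, mul_comm (κ σ).val, pow_mul, hT.hζ.pow_eq_one, one_pow,
    one_mul]

/-! ### `IsK` is a group -/

theorem IsK.zero : IsK p π ζ (fun _ => 0) :=
  ⟨1, Kum.one, by simpa using RVal.GE_zero 1⟩

theorem IsK.congr (h : ∀ σ ∈ JJ p π, κ σ = κ' σ) (hK : IsK p π ζ κ) : IsK p π ζ κ' := by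
  obtain ⟨w, h1, h2⟩ := hK
  exact ⟨w, h1.congr h, h2⟩

/-- `S33.GE_mul_sub_one` -/
theorem IsK.add (hT : TD p π ζ) (hK : IsK p π ζ κ) (hK' : IsK p π ζ κ') :
    IsK p π ζ (fun σ => κ σ + κ' σ) := by
  obtain ⟨w, h1, h2⟩ := hK
  obtain ⟨w', h1', h2'⟩ := hK'
  refine ⟨w * w', h1.mul hT h1', ?_⟩
  rw [mul_pow]
  exact Fermat.Agent.S33.GE_mul_sub_one zero_le_one h2 h2'

/-- `S33.GE_inv_sub_one` -/
theorem IsK.neg (hT : TD p π ζ) (hK : IsK p π ζ κ) : IsK p π ζ (fun σ => - κ σ) := by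
  obtain ⟨w, h1, h2⟩ := hK
  refine ⟨w⁻¹, h1.inv hT, ?_⟩
  rw [inv_pow]
  exact Fermat.Agent.S33.GE_inv_sub_one zero_lt_one h2

end Fermat.Agent.S56.FK
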