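import Fermat.Agent.S56.FK.NP

/-!
# S56/FK-LD : calculus of leading coefficients          (key `S56/FK-LD`)

`LD i κ a` : `∃ w`, `Kum κ w`, `v(w^p - 1 - a π^i) > i/e`.   `u = w^p`, `r = u - 1 - a π^i`.
* `add` : `u u' - 1 - (a+a') π^i = r + r' + (u-1)(u'-1)`, `v(u-1), v(u'-1) ≥ i/e` (`w_pi_pow`), `2i/e > i/e`.
* `neg` : `u⁻¹ - 1 + a π^i = (-r + a π^i (u-1)) / u`, `v u = 0` (`S33.EQ_zero_of_GT_sub_one`).
* `smul` : induction with `add` (`n = 0`: `Kum.one`), `Kum.congr`.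
* `conj` : apply `δ` (`pres_Dq`): `δ u - 1 - δ a (ξ π)^i`.
* `congr_a` : `(a - a') π^i` has `v > i/e`.
* `uniq` : `add` + `neg` give `w''` with `Kum (κ - κ) w''`, so `w'' ∈ F` (`Kum.fixed_of_van`), `v(w''^p - 1 - (a-a')π^i) > i/e`; if `a - a'` were a unit then `v(w''^p - 1) = i/e`, contradicting `np`.
* `of_EQ` : `a = (w^p - 1)/π^i`.
-/

set_option autoImplicit false

noncomputable section

namespace Fermat.Agent.S56.FK

open Fermat.Agent.S05 Fermat.Agent.S55 Fermat.Agent.S55.B ExtCitation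

variable {p : Nat.Primes} {π ζ : Qb} {κ κ' : GQ → ZMod (p : ℕ)} {a a' : Qb} {i : ℕ}

theorem LD.congr (h : ∀ σ ∈ JJ p π, κ σ = κ' σ) (hL : LD p π ζ i κ a) : LD p π ζ i κ' a := by
  obtain ⟨w, h1, h2⟩ := hL
  exact ⟨w, h1.congr h, h2⟩

theorem LD.zero : LD p π ζ i (fun _ => 0) 0 :=
  ⟨1, Kum.one, by simpa using RVal.GT_zero _⟩

theorem GT_map {δ : GQ} (hδ : δ ∈ Dq p) {x : Qb} {t : ℝ} (h : (wq p).GT x t) : (wq p).GT (δ x) t := by
  rcases h with h | h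
  · exact Or.inl (by rw [h, map_zero])
  · exact Or.inr (by rw [pres_Dq p δ hδ]; exact h)

theorem GE_map {δ : GQ} (hδ : δ ∈ Dq p) {x : Qb} {t : ℝ} (h : (wq p).GE x t) : (wq p).GE (δ x) t := by
  rcases h with h | h
  · exact Or.inl (by rw [h, map_zero])
  · exact Or.inr (by rw [pres_Dq p δ hδ]; exact h)

theorem LD.congr_a (hT : TD p π ζ) (h : (wq p).GT (a - a') 0) (hL : LD p π ζ i κ a) :
    LD p π ζ i κ a' := by
  obtain ⟨w, h1, h2⟩ := hL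
  refine ⟨w, h1, ?_⟩
  have e1 : w ^ (p : ℕ) - 1 - a' * π ^ i = (w ^ (p : ℕ) - 1 - a * π ^ i) + (a - a') * π ^ i := by ring
  rw [e1]
  exact h2.add ((h.mul_GE ((w_pi_pow hT i).GE le_rfl)).mono (by linarith))

/-- `v(u - 1) ≥ i/e` -/
theorem LD_aux_GE (hT : TD p π ζ) (ha : (wq p).GE a 0) {u : Qb}
    (h : (wq p).GT (u - 1 - a * π ^ i) ((i : ℝ) / (ee p : ℝ))) :
    (wq p).GE (u - 1) ((i : ℝ) / (ee p : ℝ)) := by
  have e1 : u - 1 = (u - 1 - a * π ^ i) + a * π ^ i := by ring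
  rw [e1]
  exact (h.GE le_rfl).add ((ha.mul ((w_pi_pow hT i).GE le_rfl)).mono (by linarith))

theorem LD.add (hT : TD p π ζ) (hi : 0 < i) (ha : (wq p).GE a 0) (ha' : (wq p).GE a' 0)
    (hL : LD p π ζ i κ a) (hL' : LD p π ζ i κ' a') : LD p π ζ i (fun σ => κ σ + κ' σ) (a + a') := by
  obtain ⟨w, h1, h2⟩ := hL
  obtain ⟨w', h1', h2'⟩ := hL'
  refine ⟨w * w', h1.mul hT h1', ?_⟩
  have hs : (0 : ℝ) < (i : ℝ) / (ee p : ℝ) := by
    have : (0 : ℝ) < (i : ℝ) := by exact_mod_cast hi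
    have := ee_real_pos (p := p)
    positivity
  have e1 : (w * w') ^ (p : ℕ) - 1 - (a + a') * π ^ i =
      (w ^ (p : ℕ) - 1 - a * π ^ i) + (w' ^ (p : ℕ) - 1 - a' * π ^ i) +
        (w ^ (p : ℕ) - 1) * (w' ^ (p : ℕ) - 1) := by
    rw [mul_pow]
    ring
  rw [e1]
  exact (h2.add h2').add (((LD_aux_GE hT ha h2).mul (LD_aux_GE hT ha' h2')).GT (by linarith))

theorem LD.neg (hT : TD p π ζ) (hi : 0 < i) (ha : (wq p).GE a 0) (hL : LD p π ζ i κ a) :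
    LD p π ζ i (fun σ => - κ σ) (-a) := by
  obtain ⟨w, h1, h2⟩ := hL
  refine ⟨w⁻¹, h1.inv hT, ?_⟩
  have hs : (0 : ℝ) < (i : ℝ) / (ee p : ℝ) := by
    have : (0 : ℝ) < (i : ℝ) := by exact_mod_cast hi
    have := ee_real_pos (p := p)
    positivity
  have h3 := LD_aux_GE hT ha h2
  have hu : (wq p).EQ (w ^ (p : ℕ)) 0 := Fermat.Agent.S33.EQ_zero_of_GT_sub_one (h3.GT hs)
  have e1 : (w⁻¹) ^ (p : ℕ) - 1 - (-a) * π ^ i =
      (-(w ^ (p : ℕ) - 1 - a * π ^ i) + a * π ^ i * (w ^ (p : ℕ) - 1)) * (w ^ (p : ℕ))⁻¹ := by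
    have := hu.1
    rw [inv_pow]
    field_simp
    ring
  rw [e1]
  have h4 : (wq p).GT (a * π ^ i * (w ^ (p : ℕ) - 1)) ((i : ℝ) / (ee p : ℝ)) :=
    ((ha.mul ((w_pi_pow hT i).GE le_rfl)).mul h3).GT (by linarith)
  have h5 := (h2.neg.add h4).mul_GE (hu.inv.GE le_rfl)
  exact h5.mono (by linarith)

theorem LD.smul (hT : TD p π ζ) (hi : 0 < i) (ha : (wq p).GE a 0) (hL : LD p π ζ i κ a) (n : ℕ) :
    LD p π ζ i (fun σ => (n : ZMod (p : ℕ)) * κ σ) ((n : Qb) * a) := by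
  induction n with
  | zero =>
    have h := LD.zero (p := p) (π := π) (ζ := ζ) (i := i)
    have h2 := h.congr (κ' := fun σ => ((0 : ℕ) : ZMod (p : ℕ)) * κ σ) (fun σ _ => by simp)
    simpa using h2
  | succ n ih =>
    have h1 := LD.add hT hi ((RVal.GE_natCast n).mul ha |>.mono (by linarith)) ha ih hL
    have h2 := h1.congr (κ' := fun σ => ((n + 1 : ℕ) : ZMod (p : ℕ)) * κ σ) (fun σ _ => by
      push_cast
      ring)
    have e1 : ((n + 1 : ℕ) : Qb) * a = (n : Qb) * a + a := by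
      push_cast
      ring
    rw [e1]
    exact h2

theorem LD.conj (hT : TD p π ζ) (hL : LD p π ζ i κ a) {δ : GQ} (hδ : δ ∈ Dq p) {ξ : Qb}
    (hξ : δ π = ξ * π) :
    LD p π ζ i (fun σ => ((cycloChar (p : ℕ) δ : (ZMod (p : ℕ))ˣ) : ZMod (p : ℕ)) * κ (δ⁻¹ * σ * δ))
      (δ a * ξ ^ i) := by
  obtain ⟨w, h1, h2⟩ := hL
  refine ⟨δ w, h1.conj hT hδ, ?_⟩
  have e1 : (δ w) ^ (p : ℕ) - 1 - δ a * ξ ^ i * π ^ i = δ (w ^ (p : ℕ) - 1 - a * π ^ i) := by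
    rw [map_sub, map_sub, map_pow, map_one, map_mul, map_pow, hξ, mul_pow]
    ring
  rw [e1]
  exact GT_map hδ h2

theorem LD.uniq (hT : TD p π ζ) (hi0 : 0 < i) (hi : ¬ (p : ℕ) ∣ i) (hi2 : i < (p : ℕ) ^ 2 + (p : ℕ))
    (ha : (wq p).GE a 0) (ha' : (wq p).GE a' 0) (hL : LD p π ζ i κ a) (hL' : LD p π ζ i κ a') :
    (wq p).GT (a - a') 0 := by
  obtain ⟨w, h1, h2⟩ := LD.add hT hi0 ha ha'.neg hL (hL'.neg hT hi0 ha')
  have hfix := h1.fixed_of_van (fun σ _ => by simp)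
  rw [← sub_eq_add_neg] at h2
  rw [GT_iff_not_EQ _ (ha.sub ha')]
  intro hE
  apply np hT hfix hi hi2
  have h3 : (wq p).EQ ((a - a') * π ^ i) ((i : ℝ) / (ee p : ℝ)) := by
    have := hE.mul (w_pi_pow hT i)
    rwa [zero_add] at this
  have h4 := h3.add_GT h2
  have e1 : (a - a') * π ^ i + (w ^ (p : ℕ) - 1 - (a - a') * π ^ i) = w ^ (p : ℕ) - 1 := by ring
  rwa [e1] at h4

theorem LD.of_EQ (hT : TD p π ζ) {w : Qb} (hK : Kum p π ζ κ w)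
    (h : (wq p).EQ (w ^ (p : ℕ) - 1) ((i : ℝ) / (ee p : ℝ))) :
    ∃ a, (wq p).EQ a 0 ∧ LD p π ζ i κ a := by
  have hπ := w_pi_pow hT i
  refine ⟨(w ^ (p : ℕ) - 1) / π ^ i, ?_, w, hK, ?_⟩
  · have := h.div hπ
    rwa [sub_self] at this
  · rw [div_mul_cancel₀ _ hπ.1, sub_self]
    exact RVal.GT_zero _

end Fermat.Agent.S56.FK
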