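import Mathlib

/-!
# S56/FK-LA : `2 × 2` linear algebra          (key `S56/FK-LA`, Mathlib only)

* `la_diag` : `T` with `charpoly = (X - α)(X - β)`, `α ≠ β`: eigenvectors `x` (for `α`), `y` (for `β`) exist (`det (T - α) = 0`: evaluate the charpoly / `Matrix.exists_mulVec_eq_zero_iff`), they are independent; `g⁻¹` = matrix with columns `x, y`.
* `la_scalar` : `charpoly = (X - α)²`, `T^n = 1`, `(n : k) ≠ 0`: `N = T - α`, `N² = 0` (Cayley-Hamilton `Matrix.aeval_self_charpoly`), `T^n = α^n + n α^(n-1) N` (`Commute.add_pow` or induction), `α ≠ 0` (`det T = α²`, `T` invertible).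
  `(α^n - 1) + n α^(n-1) N = 0`; multiply by `N`: `(α^n - 1) N = 0`; if `N ≠ 0`: `α^n = 1`, so `n α^(n-1) N = 0`, `N = 0`.
* `la_fixed` : a `p`-group `Γ ≤ GL₂(k)` (`k` finite of characteristic `p`) fixes a nonzero vector: `IsPGroup.exists_fixed_point_of_prime_dvd_card_of_fixed_point` for the action of `Γ` on `Fin 2 → k` (`Matrix.mulVec`), `p ∣ #k²`, `0` is fixed.
* `la_basis` : `x ≠ 0`, `y` not a multiple of `x`, `A x = x`, `A y = y` `⇒ A = 1`.
-/

set_option autoImplicit false

namespace Fermat.Agent.S56.FK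

open Polynomial Matrix

variable {k : Type} [Field k]

omit [Field k] in
theorem laAux_ext {A B : Matrix (Fin 2) (Fin 2) k} (h00 : A 0 0 = B 0 0) (h01 : A 0 1 = B 0 1)
    (h10 : A 1 0 = B 1 0) (h11 : A 1 1 = B 1 1) : A = B := by
  ext i j
  fin_cases i <;> fin_cases j <;> assumption

/-- trace and determinant from the characteristic polynomial -/
theorem laAux_coeff (T : Matrix (Fin 2) (Fin 2) k) {α β : k}
    (h : T.charpoly = (X - C α) * (X - C β)) : T.trace = α + β ∧ T.det = α * β := by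
  rw [Matrix.charpoly_fin_two] at h
  have e : (X - C α) * (X - C β) = X ^ 2 - C (α + β) * X + C (α * β) := by
    simp only [map_add, map_mul]; ring
  rw [e] at h
  constructor
  · have := congrArg (fun f => Polynomial.coeff f 1) h
    simp only [Polynomial.coeff_add, Polynomial.coeff_sub, Polynomial.coeff_X_pow,
      Polynomial.coeff_C_mul, Polynomial.coeff_X_one, Polynomial.coeff_C] at this
    norm_num at this
    linear_combination -this
  · have := congrArg (fun f => Polynomial.coeff f 0) h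
    simp only [Polynomial.coeff_add, Polynomial.coeff_sub, Polynomial.coeff_X_pow,
      Polynomial.coeff_C_mul, Polynomial.coeff_X_zero, Polynomial.coeff_C] at this
    norm_num at this
    exact this

/-- independence in coordinates -/
theorem laAux_det {x y : Fin 2 → k} (hx : x ≠ 0) (hy : ∀ t : k, y ≠ t • x) :
    x 0 * y 1 - x 1 * y 0 ≠ 0 := by
  intro hd
  by_cases h0 : x 0 = 0
  · have h1 : x 1 ≠ 0 := by
      intro h1
      apply hx
      funext i
      fin_cases i
      · exact h0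
      · exact h1
    apply hy (y 1 / x 1)
    funext i
    fin_cases i
    · show y 0 = y 1 / x 1 * x 0
      rw [h0, zero_mul, zero_sub, neg_eq_zero] at hd
      rw [h0, mul_zero]
      exact (mul_eq_zero.1 hd).resolve_left h1
    · show y 1 = y 1 / x 1 * x 1
      field_simp
  · apply hy (y 0 / x 0)
    funext i
    fin_cases i
    · show y 0 = y 0 / x 0 * x 0
      field_simp
    · show y 1 = y 0 / x 0 * x 1
      field_simp
      linear_combination hd

/-- existence of an eigenvector -/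
theorem laAux_eigen (T : Matrix (Fin 2) (Fin 2) k) {α β : k}
    (h : T.charpoly = (X - C α) * (X - C β)) : ∃ x : Fin 2 → k, x ≠ 0 ∧ T.mulVec x = α • x := by
  obtain ⟨ht, hd⟩ := laAux_coeff T h
  have h1 : (T - α • (1 : Matrix (Fin 2) (Fin 2) k)).det = 0 := by
    rw [Matrix.trace_fin_two] at ht
    rw [Matrix.det_fin_two] at hd ⊢
    simp only [Matrix.sub_apply, Matrix.smul_apply, Matrix.one_apply_eq, smul_eq_mul, mul_one,
      Matrix.one_apply_ne (show (0 : Fin 2) ≠ 1 by decide),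
      Matrix.one_apply_ne (show (1 : Fin 2) ≠ 0 by decide), mul_zero, sub_zero]
    linear_combination hd - α * ht
  obtain ⟨x, hx, hx'⟩ := Matrix.exists_mulVec_eq_zero_iff.2 h1
  refine ⟨x, hx, ?_⟩
  rw [Matrix.sub_mulVec, Matrix.smul_mulVec, Matrix.one_mulVec, sub_eq_zero] at hx'
  exact hx'

theorem la_diag (T : GL (Fin 2) k) {α β : k} (hαβ : α ≠ β)
    (h : (T : Matrix (Fin 2) (Fin 2) k).charpoly = (X - C α) * (X - C β)) :
    ∃ g : GL (Fin 2) k, ((g * T * g⁻¹ : GL (Fin 2) k) : Matrix (Fin 2) (Fin 2) k) = !![α, 0; 0, β] := by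
  obtain ⟨x, hx, hTx⟩ := laAux_eigen _ h
  obtain ⟨y, hy, hTy⟩ := laAux_eigen (α := β) (β := α) _ (by rw [h, mul_comm])
  have hind : ∀ t : k, y ≠ t • x := by
    intro t hyt
    have h1 : (T : Matrix (Fin 2) (Fin 2) k).mulVec y = α • y := by
      rw [hyt, Matrix.mulVec_smul, hTx, smul_comm]
    rw [hTy] at h1
    have h2 : (β - α) • y = 0 := by rw [sub_smul, h1, sub_self]
    rcases smul_eq_zero.1 h2 with h3 | h3
    · exact hαβ (sub_eq_zero.1 h3).symm
    · exact hy h3
  have hdet : (!![x 0, y 0; x 1, y 1] : Matrix (Fin 2) (Fin 2) k).det ≠ 0 := by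
    rw [Matrix.det_fin_two_of]
    have := laAux_det hx hind
    intro h0
    apply this
    linear_combination h0
  let P : GL (Fin 2) k := Matrix.GeneralLinearGroup.mkOfDetNeZero _ hdet
  have hP : (P : Matrix (Fin 2) (Fin 2) k) = !![x 0, y 0; x 1, y 1] := rfl
  have hTP : (T : Matrix (Fin 2) (Fin 2) k) * (P : Matrix (Fin 2) (Fin 2) k) =
      (P : Matrix (Fin 2) (Fin 2) k) * !![α, 0; 0, β] := by
    have a0 := congrFun hTx 0
    have a1 := congrFun hTx 1
    have b0 := congrFun hTy 0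
    have b1 := congrFun hTy 1
    simp only [Matrix.mulVec, dotProduct, Fin.sum_univ_two, Pi.smul_apply, smul_eq_mul]
      at a0 a1 b0 b1
    rw [hP]
    refine laAux_ext ?_ ?_ ?_ ?_ <;>
      simp only [Matrix.mul_apply, Fin.sum_univ_two, Matrix.of_apply, Matrix.cons_val',
        Matrix.cons_val_zero, Matrix.cons_val_one, Matrix.cons_val_fin_one, mul_zero, add_zero,
        zero_add]
    · rw [a0, mul_comm]
    · rw [b0, mul_comm]
    · rw [a1, mul_comm]
    · rw [b1, mul_comm]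
  refine ⟨P⁻¹, ?_⟩
  rw [inv_inv, Units.val_mul, Units.val_mul, mul_assoc, hTP, ← mul_assoc, Units.inv_mul, one_mul]

theorem la_scalar (T : GL (Fin 2) k) {α : k}
    (h : (T : Matrix (Fin 2) (Fin 2) k).charpoly = (X - C α) * (X - C α)) {n : ℕ} (hn : (n : k) ≠ 0)
    (hT : T ^ n = 1) : (T : Matrix (Fin 2) (Fin 2) k) = !![α, 0; 0, α] := by
  obtain ⟨ht, hd⟩ := laAux_coeff _ h
  obtain ⟨N, hN⟩ : ∃ N : Matrix (Fin 2) (Fin 2) k,
      N = (T : Matrix (Fin 2) (Fin 2) k) - α • (1 : Matrix (Fin 2) (Fin 2) k) := ⟨_, rfl⟩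
  have hTN : (T : Matrix (Fin 2) (Fin 2) k) = α • (1 : Matrix (Fin 2) (Fin 2) k) + N := by
    rw [hN]; abel
  have hNN : N * N = 0 := by
    rw [Matrix.trace_fin_two] at ht
    rw [Matrix.det_fin_two] at hd
    rw [hN]
    refine laAux_ext ?_ ?_ ?_ ?_ <;>
      simp only [Matrix.mul_apply, Fin.sum_univ_two, Matrix.sub_apply, Matrix.smul_apply,
        Matrix.one_apply_eq, smul_eq_mul, mul_one, Matrix.zero_apply,
        Matrix.one_apply_ne (show (0 : Fin 2) ≠ 1 by decide),
        Matrix.one_apply_ne (show (1 : Fin 2) ≠ 0 by decide), mul_zero, sub_zero]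
    · linear_combination (T : Matrix (Fin 2) (Fin 2) k) 0 0 * ht - hd
    · linear_combination (T : Matrix (Fin 2) (Fin 2) k) 0 1 * ht
    · linear_combination (T : Matrix (Fin 2) (Fin 2) k) 1 0 * ht
    · linear_combination (T : Matrix (Fin 2) (Fin 2) k) 1 1 * ht - hd
  have hα : α ≠ 0 := by
    rintro rfl
    have h1 : IsUnit (T : Matrix (Fin 2) (Fin 2) k).det :=
      (Matrix.isUnit_iff_isUnit_det _).1 T.isUnit
    rw [hd, mul_zero] at h1
    exact not_isUnit_zero h1
  have hpow : ∀ m : ℕ, (T : Matrix (Fin 2) (Fin 2) k) ^ (m + 1) =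
      (α ^ (m + 1)) • (1 : Matrix (Fin 2) (Fin 2) k) + (((m + 1 : ℕ) : k) * α ^ m) • N := by
    intro m
    induction m with
    | zero => simp [hTN]
    | succ m ih =>
      rw [pow_succ, ih, hTN]
      simp only [add_mul, mul_add, Matrix.smul_mul, Matrix.mul_smul, one_mul, mul_one, hNN,
        smul_zero, add_zero, smul_smul]
      rw [add_assoc, ← add_smul]
      congr 2
      · ring
      · push_cast
        ring
  obtain ⟨m, rfl⟩ : ∃ m, n = m + 1 := by
    rcases n with _ | m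
    · exact absurd Nat.cast_zero hn
    · exact ⟨m, rfl⟩
  have h1 : (T : Matrix (Fin 2) (Fin 2) k) ^ (m + 1) = 1 := by
    rw [← Units.val_pow_eq_pow_val, hT, Units.val_one]
  rw [hpow m] at h1
  set d : k := ((m + 1 : ℕ) : k) * α ^ m with hd'
  have hd0 : d ≠ 0 := mul_ne_zero hn (pow_ne_zero _ hα)
  have h2 : d • N = (1 - α ^ (m + 1)) • (1 : Matrix (Fin 2) (Fin 2) k) := by
    rw [sub_smul, one_smul]
    exact eq_sub_of_add_eq' h1
  have h3 : ((1 - α ^ (m + 1)) * (1 - α ^ (m + 1))) • (1 : Matrix (Fin 2) (Fin 2) k) = 0 := by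
    have : (d • N) * (d • N) = 0 := by
      rw [Matrix.smul_mul, Matrix.mul_smul, hNN, smul_zero, smul_zero]
    rw [h2, Matrix.smul_mul, Matrix.mul_smul, one_mul, smul_smul] at this
    exact this
  have h4 : (1 - α ^ (m + 1)) * (1 - α ^ (m + 1)) = 0 := by
    have := congrFun (congrFun h3 0) 0
    simpa using this
  have h5 : 1 - α ^ (m + 1) = 0 := mul_self_eq_zero.1 h4
  rw [h5, zero_smul] at h2
  have h6 : N = 0 := (smul_eq_zero.1 h2).resolve_left hd0
  rw [hTN, h6, add_zero]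
  refine laAux_ext ?_ ?_ ?_ ?_ <;> simp

theorem la_fixed (p : ℕ) [Fact p.Prime] [CharP k p] [Finite k] (Γ : Subgroup (GL (Fin 2) k))
    (hΓ : ∀ g ∈ Γ, ∃ a : ℕ, g ^ (p ^ a) = 1) :
    ∃ x : Fin 2 → k, x ≠ 0 ∧ ∀ g ∈ Γ, (g : Matrix (Fin 2) (Fin 2) k).mulVec x = x := by
  let _ : MulAction ↥Γ (Fin 2 → k) :=
    { smul := fun g x => ((g : GL (Fin 2) k) : Matrix (Fin 2) (Fin 2) k).mulVec x
      one_smul := fun x => by
        show (((1 : ↥Γ) : GL (Fin 2) k) : Matrix (Fin 2) (Fin 2) k).mulVec x = x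
        simp
      mul_smul := fun g h x => by
        show (((g * h : ↥Γ) : GL (Fin 2) k) : Matrix (Fin 2) (Fin 2) k).mulVec x =
          ((g : GL (Fin 2) k) : Matrix (Fin 2) (Fin 2) k).mulVec
            (((h : GL (Fin 2) k) : Matrix (Fin 2) (Fin 2) k).mulVec x)
        rw [Matrix.mulVec_mulVec]
        rfl }
  have hP : IsPGroup p ↥Γ := by
    intro g
    obtain ⟨a, ha⟩ := hΓ g g.2
    exact ⟨a, Subtype.ext ha⟩
  have hcard : p ∣ Nat.card (Fin 2 → k) := by
    have : Fintype k := Fintype.ofFinite k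
    obtain ⟨n, -, hn⟩ := FiniteField.card k p
    rw [Nat.card_eq_fintype_card, Fintype.card_fun, hn, Fintype.card_fin]
    exact dvd_pow (dvd_pow_self p n.ne_zero) two_ne_zero
  obtain ⟨b, hb, hb0⟩ := hP.exists_fixed_point_of_prime_dvd_card_of_fixed_point (Fin 2 → k) hcard
    (a := 0) (fun g => by
      show ((g : GL (Fin 2) k) : Matrix (Fin 2) (Fin 2) k).mulVec 0 = 0
      simp)
  exact ⟨b, fun h => hb0 h.symm, fun g hg => hb ⟨g, hg⟩⟩

theorem la_basis {x y : Fin 2 → k} (hx : x ≠ 0) (hy : ∀ t : k, y ≠ t • x)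
    {A : Matrix (Fin 2) (Fin 2) k} (hAx : A.mulVec x = x) (hAy : A.mulVec y = y) : A = 1 := by
  have hd := laAux_det hx hy
  have a0 := congrFun hAx 0
  have a1 := congrFun hAx 1
  have b0 := congrFun hAy 0
  have b1 := congrFun hAy 1
  simp only [Matrix.mulVec, dotProduct, Fin.sum_univ_two] at a0 a1 b0 b1
  refine laAux_ext ?_ ?_ ?_ ?_
  · rw [Matrix.one_apply_eq]
    apply mul_right_cancel₀ hd
    linear_combination y 1 * a0 - x 1 * b0
  · rw [Matrix.one_apply_ne (show (0 : Fin 2) ≠ 1 by decide)]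
    apply mul_right_cancel₀ hd
    linear_combination x 0 * b0 - y 0 * a0
  · rw [Matrix.one_apply_ne (show (1 : Fin 2) ≠ 0 by decide)]
    apply mul_right_cancel₀ hd
    linear_combination y 1 * a1 - x 1 * b1
  · rw [Matrix.one_apply_eq]
    apply mul_right_cancel₀ hd
    linear_combination x 0 * b1 - y 0 * a1

end Fermat.Agent.S56.FK
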