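import Fermat.Agent.S56.FK.Kum

/-!
# S56/FK-NP : `p`-th powers in `F` : Newton polygon, Hensel, levels          (key `S56/FK-NP`)

`v = wq p`, `e = p² - 1`, `p/(p-1) = (p²+p)/e`.
* `np` : suppose `w ∈ F`, `v(w^p - 1) = i/e`.  `v(w - 1) > 0` (`S33.GT_sub_one_of_pow`), `y = w - 1 ≠ 0`, `t = v y = n/e`, `n ≥ 1` (`val_group`).
  `v((1+y)^p - 1 - y^p) ≥ 1 + t` (`S33.GE_one_add_pow`).  If `p t < 1 + t` then `v(w^p - 1) = p t` (`EQ.add_GT`), `i = p n`, contradiction with `p ∤ i`.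
  Otherwise `t ≥ 1/(p-1)` and `v(w^p - 1) ≥ 1 + t ≥ p/(p-1) = (p²+p)/e > i/e`.
* `hensel` : `v(w - 1) > 0`, `v(w - 1) ≥ 1/(p-1)` (`S33.GE_sub_one_of_pow`), so `w = 1 + (ζ-1) h`, `h` integral (`S33.w_pi`).  For `σ ∈ J`: `σ w - w = (ζ-1)(σ h - h)` (`zeta_fixed`) has `v > 1/(p-1)`
  (`GT_of_mem_Iq`), and `σ w - w = (ζ^c - 1) w`, `c = (κ σ).val`; if `c ≠ 0`, `ζ^c` is a primitive `p`-th root of unity, `v(ζ^c - 1) = 1/(p-1)` (`S33.w_pi`), `v w = 0`: contradiction.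
* `pstep` : `a = (w^p - 1)/π^(p²)` integral; `β` with `β^p = a` (`IsAlgClosed.exists_pow_nat_eq`), integral; `β'` fixed by `I`, `β' ≡ β` (`S33.exists_fixed_congr`);
  `z0 = 1 + β' π^p ∈ F`, `z0^p = 1 + β'^p π^(p²) + (v ≥ 1 + p/e > p²/e)` (`S33.GE_one_add_pow`), `β'^p ≡ a` (`GT_pow_sub_pow`); `z = z0⁻¹`:
  `(w z)^p - 1 = (w^p - z0^p)/z0^p`, `v(z0) = 0`.
* `level` : `u = w^p ≠ 1` (else `w ∈ μ_p ⊆ F`, `Kum.van_of_fixed`), `v(u - 1) = n/e` (`val_group`, `Kum.pow_fixed`), `n ≥ j`.  `n ≥ p²+p` `⇒` `hensel`.  `p ∤ n` : done.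
  `p ∣ n`, `e ≤ n < p²+p` `⇒ n = p²`: `pstep` + `Kum.mul_fixed` gives `w'` with `v(w'^p - 1) = n'/e`, `p² < n'`; again `n' < p²+p` by `hensel`, and then `p ∤ n'`.
-/

set_option autoImplicit false

noncomputable section

namespace Fermat.Agent.S56.FK

open Fermat.Agent.S05 Fermat.Agent.S55 Fermat.Agent.S55.B ExtCitation

variable {p : Nat.Primes} {π ζ : Qb} {κ : GQ → ZMod (p : ℕ)} {w : Qb}

theorem ee_real : (ee p : ℝ) = ((p : ℕ) : ℝ) ^ 2 - 1 := by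
  have h : ee p + 1 = (p : ℕ) ^ 2 := by
    have := ee_pos (p := p)
    unfold ee at *
    omega
  have h2 : ((ee p + 1 : ℕ) : ℝ) = (((p : ℕ) ^ 2 : ℕ) : ℝ) := by rw [h]
  push_cast at h2
  linarith

theorem two_le_real : (2 : ℝ) ≤ ((p : ℕ) : ℝ) := by exact_mod_cast p.2.two_le

theorem ee_real_pos : (0 : ℝ) < (ee p : ℝ) := by exact_mod_cast ee_pos

theorem np (hT : TD p π ζ) {i : ℕ} (hw : ∀ σ ∈ JJ p π, σ w = w) (hi : ¬ (p : ℕ) ∣ i)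
    (hi2 : i < (p : ℕ) ^ 2 + (p : ℕ)) : ¬ (wq p).EQ (w ^ (p : ℕ) - 1) ((i : ℝ) / (ee p : ℝ)) := by
  intro hE
  have hpw : (wq p).w (((p : ℕ) : Qb)) = 1 := wq_q p
  have he : (0 : ℝ) < (ee p : ℝ) := ee_real_pos
  have hP := two_le_real (p := p)
  have hi0 : 0 < i := Nat.pos_of_ne_zero (by rintro rfl; exact hi (dvd_zero _))
  have hi0' : (0 : ℝ) < (i : ℝ) := by exact_mod_cast hi0
  have h1 : (wq p).GT (w ^ (p : ℕ) - 1) 0 := hE.GT (by positivity)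
  have h2 : (wq p).GT (w - 1) 0 := Fermat.Agent.S33.GT_sub_one_of_pow p.2 hpw h1
  have hy0 : w - 1 ≠ 0 := by
    intro h
    have hw1 : w = 1 := by linear_combination h
    apply hE.1
    rw [hw1]
    simp
  have hyfix : ∀ σ ∈ JJ p π, σ (w - 1) = w - 1 := fun σ hσ => by
    rw [map_sub, map_one, hw σ hσ]
  obtain ⟨n, hn⟩ := val_group hT hyfix hy0
  have ht : 0 < (wq p).w (w - 1) := h2.lt_w hy0
  have hGE := Fermat.Agent.S33.GE_one_add_pow p.2 hpw (x := w - 1) (s := (wq p).w (w - 1)) ht.le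
    ((RVal.EQ_self hy0).GE le_rfl)
  have hwy : 1 + (w - 1) = w := by ring
  rw [hwy] at hGE
  rcases lt_or_ge (((p : ℕ) : ℝ) * (wq p).w (w - 1)) (1 + (wq p).w (w - 1)) with hlt | hge
  · have h3 : (wq p).EQ ((w - 1) ^ (p : ℕ)) (((p : ℕ) : ℝ) * (wq p).w (w - 1)) :=
      (RVal.EQ_self hy0).pow (p : ℕ)
    have h4 : (wq p).EQ (w ^ (p : ℕ) - 1) (((p : ℕ) : ℝ) * (wq p).w (w - 1)) := by
      have := h3.add_GT (hGE.GT hlt)
      have he2 : (w - 1) ^ (p : ℕ) + (w ^ (p : ℕ) - 1 - (w - 1) ^ (p : ℕ)) = w ^ (p : ℕ) - 1 := by ring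
      rwa [he2] at this
    have h5 : (i : ℝ) / (ee p : ℝ) = ((p : ℕ) : ℝ) * ((n : ℝ) / (ee p : ℝ)) := by
      rw [← hE.2, h4.2, hn]
    have h6 : (i : ℝ) = ((p : ℕ) : ℝ) * (n : ℝ) := by
      field_simp at h5
      linarith
    have h7 : (i : ℤ) = ((p : ℕ) : ℤ) * n := by exact_mod_cast h6
    exact hi (Int.natCast_dvd_natCast.1 ⟨n, h7⟩)
  · have h3 : (wq p).GE ((w - 1) ^ (p : ℕ)) (1 + (wq p).w (w - 1)) :=
      ((RVal.EQ_self hy0).pow (p : ℕ)).GE hge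
    have h4 : (wq p).GE (w ^ (p : ℕ) - 1) (1 + (wq p).w (w - 1)) := by
      have := h3.add hGE
      have he2 : (w - 1) ^ (p : ℕ) + (w ^ (p : ℕ) - 1 - (w - 1) ^ (p : ℕ)) = w ^ (p : ℕ) - 1 := by ring
      rwa [he2] at this
    have h5 := h4.le_w hE.1
    rw [hE.2, le_div_iff₀ he] at h5
    have h6 : (i : ℝ) < ((p : ℕ) : ℝ) ^ 2 + ((p : ℕ) : ℝ) := by exact_mod_cast hi2
    rw [ee_real] at h5
    set t := (wq p).w (w - 1)
    set P := ((p : ℕ) : ℝ)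
    have h7 : 1 ≤ (P - 1) * t := by linarith
    have h8 : (P + 1) * 1 ≤ (P + 1) * ((P - 1) * t) :=
      mul_le_mul_of_nonneg_left h7 (by linarith)
    nlinarith

theorem hensel (hT : TD p π ζ) (hK : Kum p π ζ κ w)
    (h : (wq p).GE (w ^ (p : ℕ) - 1) (((p : ℕ) : ℝ) / (((p : ℕ) : ℝ) - 1))) : Van p π κ := by
  intro σ hσ
  by_contra hne
  have hpw : (wq p).w (((p : ℕ) : Qb)) = 1 := wq_q p
  have hP := two_le_real (p := p)
  have hP1 : (0 : ℝ) < ((p : ℕ) : ℝ) - 1 := by linarith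
  have h1 : (wq p).GT (w ^ (p : ℕ) - 1) 0 := h.GT (by positivity)
  have h2 : (wq p).GT (w - 1) 0 := Fermat.Agent.S33.GT_sub_one_of_pow p.2 hpw h1
  have h3 : (wq p).GE (w - 1) (1 / (((p : ℕ) : ℝ) - 1)) :=
    Fermat.Agent.S33.GE_sub_one_of_pow p.2 hpw h2 h
  have hz := Fermat.Agent.S33.w_pi p hT.hζ
  obtain ⟨h', hh'⟩ : ∃ h', h' = (w - 1) / (ζ - 1) := ⟨_, rfl⟩
  have hh : (wq p).GE h' 0 := by
    rw [hh', div_eq_mul_inv]
    exact (h3.mul (hz.inv.GE le_rfl)).mono (by linarith)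
  have hw : w = 1 + (ζ - 1) * h' := by
    rw [hh']
    field_simp [hz.1]
    ring
  have hσζ : σ ζ = ζ := zeta_fixed hT hσ
  have h4 : σ w - w = (ζ - 1) * (σ h' - h') := by
    have : σ w = 1 + (ζ - 1) * σ h' := by
      conv_lhs => rw [hw]
      rw [map_add, map_mul, map_sub, map_one, hσζ]
    rw [this]
    conv_lhs => rw [hw]
    ring
  have h5 : (wq p).GT (σ h' - h') 0 := GT_of_mem_Iq p hσ.1 hh
  have h6 : (wq p).GT (σ w - w) (1 / (((p : ℕ) : ℝ) - 1)) := by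
    rw [h4]
    exact ((hz.GE le_rfl).mul_GT h5).mono (by linarith)
  have h7 : σ w - w = (ζ ^ (κ σ).val - 1) * w := by
    rw [hK.2 σ hσ]
    ring
  have hc0 : (κ σ).val ≠ 0 := fun h0 => hne ((ZMod.val_eq_zero _).1 h0)
  have hclt : (κ σ).val < (p : ℕ) := ZMod.val_lt _
  have hcop : Nat.Coprime (κ σ).val (p : ℕ) :=
    (Nat.coprime_of_lt_prime hc0 hclt p.2).symm
  have hprim : IsPrimitiveRoot (ζ ^ (κ σ).val) (p : ℕ) := hT.hζ.pow_of_coprime _ hcop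
  have h8 := Fermat.Agent.S33.w_pi p hprim
  have hw0 : (wq p).EQ w 0 := Fermat.Agent.S33.EQ_zero_of_GT_sub_one h2
  have h9 : (wq p).EQ (σ w - w) (1 / (((p : ℕ) : ℝ) - 1)) := by
    rw [h7]
    simpa using h8.mul hw0
  have := h6.lt_w h9.1
  rw [h9.2] at this
  exact lt_irrefl _ this

theorem pstep (hT : TD p π ζ) (h : (wq p).GE (w ^ (p : ℕ) - 1) ((((p : ℕ) ^ 2 : ℕ) : ℝ) / (ee p : ℝ))) :
    ∃ z : Qb, z ≠ 0 ∧ (∀ σ ∈ JJ p π, σ z = z) ∧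
      (wq p).GT ((w * z) ^ (p : ℕ) - 1) ((((p : ℕ) ^ 2 : ℕ) : ℝ) / (ee p : ℝ)) := by
  have hpw : (wq p).w (((p : ℕ) : Qb)) = 1 := wq_q p
  have he : (0 : ℝ) < (ee p : ℝ) := ee_real_pos
  have hP := two_le_real (p := p)
  have hπ2 := w_pi_pow hT ((p : ℕ) ^ 2)
  have hπ1 := w_pi_pow hT (p : ℕ)
  obtain ⟨a, ha⟩ : ∃ a, a = (w ^ (p : ℕ) - 1) / π ^ ((p : ℕ) ^ 2) := ⟨_, rfl⟩
  have ha0 : (wq p).GE a 0 := by
    rw [ha, div_eq_mul_inv]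
    exact (h.mul (hπ2.inv.GE le_rfl)).mono (by linarith)
  have hau : w ^ (p : ℕ) - 1 = a * π ^ ((p : ℕ) ^ 2) := by
    rw [ha]
    field_simp [hπ2.1]
  obtain ⟨β, hβ⟩ := IsAlgClosed.exists_pow_nat_eq a p.2.pos
  have hβ0 : (wq p).GE β 0 := by
    by_cases hb : β = 0
    · exact Or.inl hb
    · right
      have ha1 : a ≠ 0 := by rw [← hβ]; exact pow_ne_zero _ hb
      have h1 := ha0.le_w ha1
      rw [← hβ, RVal.w_pow hb] at h1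
      have hPpos : (0 : ℝ) < ((p : ℕ) : ℝ) := by linarith
      by_contra hneg
      push Not at hneg
      nlinarith
  obtain ⟨β', hfix, hβ'0, hcong⟩ := Fermat.Agent.S33.exists_fixed_congr p hβ0
  obtain ⟨x, hx⟩ : ∃ x, x = β' * π ^ (p : ℕ) := ⟨_, rfl⟩
  have hxGE : (wq p).GE x ((((p : ℕ) : ℕ) : ℝ) / (ee p : ℝ)) := by
    rw [hx]
    exact (hβ'0.mul (hπ1.GE le_rfl)).mono (by linarith)
  have hs0 : (0 : ℝ) ≤ (((p : ℕ) : ℕ) : ℝ) / (ee p : ℝ) := by positivity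
  have h1 := Fermat.Agent.S33.GE_one_add_pow p.2 hpw hs0 hxGE
  have h2 : x ^ (p : ℕ) = β' ^ (p : ℕ) * π ^ ((p : ℕ) ^ 2) := by
    rw [hx, mul_pow, ← pow_mul, pow_two]
  have h3 : (wq p).GT (β ^ (p : ℕ) - β' ^ (p : ℕ)) 0 := GT_pow_sub_pow _ hβ0 hβ'0 hcong _
  have hlt : (((p : ℕ) ^ 2 : ℕ) : ℝ) / (ee p : ℝ) < 1 + (((p : ℕ) : ℕ) : ℝ) / (ee p : ℝ) := by
    rw [div_lt_iff₀ he, add_mul, div_mul_cancel₀ _ he.ne', ee_real]
    push_cast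
    linarith
  have h4 : (wq p).GT (w ^ (p : ℕ) - (1 + x) ^ (p : ℕ)) ((((p : ℕ) ^ 2 : ℕ) : ℝ) / (ee p : ℝ)) := by
    have e1 : w ^ (p : ℕ) - (1 + x) ^ (p : ℕ) =
        (β ^ (p : ℕ) - β' ^ (p : ℕ)) * π ^ ((p : ℕ) ^ 2) - ((1 + x) ^ (p : ℕ) - 1 - x ^ (p : ℕ)) := by
      rw [h2, hβ]
      linear_combination hau
    rw [e1]
    refine RVal.GT.sub ?_ (h1.GT hlt)
    exact (h3.mul_GE (hπ2.GE le_rfl)).mono (by linarith)
  have hxGT : (wq p).GT ((1 + x) - 1) 0 := by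
    have : (1 + x) - 1 = x := by ring
    rw [this]
    exact hxGE.GT (by
      have : (0 : ℝ) < (((p : ℕ) : ℕ) : ℝ) := by linarith
      positivity)
  have hz0 : (wq p).EQ (1 + x) 0 := Fermat.Agent.S33.EQ_zero_of_GT_sub_one hxGT
  refine ⟨(1 + x)⁻¹, inv_ne_zero hz0.1, fun σ hσ => ?_, ?_⟩
  · rw [map_inv₀, map_add, map_one, hx, map_mul, map_pow, hfix σ hσ.1, hσ.2]
  · have e2 : (w * (1 + x)⁻¹) ^ (p : ℕ) - 1 =
        (w ^ (p : ℕ) - (1 + x) ^ (p : ℕ)) * ((1 + x) ^ (p : ℕ))⁻¹ := by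
      have := pow_ne_zero (p : ℕ) hz0.1
      rw [mul_pow, inv_pow]
      field_simp
    rw [e2]
    have hz1 : (wq p).EQ (((1 + x) ^ (p : ℕ))⁻¹) 0 := by
      have := (hz0.pow (p : ℕ)).inv
      simpa using this
    exact (h4.mul_GE (hz1.GE le_rfl)).mono (by linarith)

/-- auxiliary: the exact level of a non-trivial Kummer character -/
theorem level_aux (hT : TD p π ζ) (hK : Kum p π ζ κ w) (hne : ¬ Van p π κ)
    (h0 : (wq p).GE (w ^ (p : ℕ) - 1) 0) :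
    ∃ n : ℕ, n < (p : ℕ) ^ 2 + (p : ℕ) ∧ (wq p).EQ (w ^ (p : ℕ) - 1) ((n : ℝ) / (ee p : ℝ)) := by
  have he : (0 : ℝ) < (ee p : ℝ) := ee_real_pos
  have hP := two_le_real (p := p)
  have hu1 : w ^ (p : ℕ) - 1 ≠ 0 := by
    intro h0
    apply hne
    apply hK.van_of_fixed hT
    intro σ hσ
    obtain ⟨a, -, ha⟩ := hT.hζ.eq_pow_of_pow_eq_one (sub_eq_zero.1 h0)
    rw [← ha, map_pow, zeta_fixed hT hσ]
  have hfix : ∀ σ ∈ JJ p π, σ (w ^ (p : ℕ) - 1) = w ^ (p : ℕ) - 1 := fun σ hσ => by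
    rw [map_sub, map_one, hK.pow_fixed hT σ hσ]
  obtain ⟨m, hm⟩ := val_group hT hfix hu1
  have hm0 : 0 ≤ m := by
    have h1 := h0.le_w hu1
    rw [hm] at h1
    have : (0 : ℝ) ≤ (m : ℝ) := by
      by_contra hneg
      push Not at hneg
      have := div_neg_of_neg_of_pos hneg he
      linarith
    exact_mod_cast this
  obtain ⟨n, rfl⟩ := Int.eq_ofNat_of_zero_le hm0
  refine ⟨n, ?_, hu1, by rw [hm]; push_cast; rfl⟩
  by_contra hge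
  push Not at hge
  apply hne
  apply hensel hT hK
  right
  rw [hm]
  have hge' : ((p : ℕ) : ℝ) ^ 2 + ((p : ℕ) : ℝ) ≤ (n : ℝ) := by exact_mod_cast hge
  have hP1 : (0 : ℝ) < ((p : ℕ) : ℝ) - 1 := by linarith
  rw [div_le_div_iff₀ hP1 he, ee_real]
  push_cast
  nlinarith

theorem level (hT : TD p π ζ) {j : ℕ} (hK : Kum p π ζ κ w) (hj : ee p ≤ j)
    (h : (wq p).GE (w ^ (p : ℕ) - 1) ((j : ℝ) / (ee p : ℝ))) (hne : ¬ Van p π κ) :
    ∃ (i : ℕ) (w' : Qb), j ≤ i ∧ i < (p : ℕ) ^ 2 + (p : ℕ) ∧ ¬ (p : ℕ) ∣ i ∧ Kum p π ζ κ w' ∧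
      (wq p).EQ (w' ^ (p : ℕ) - 1) ((i : ℝ) / (ee p : ℝ)) := by
  have he : (0 : ℝ) < (ee p : ℝ) := ee_real_pos
  obtain ⟨n, hn1, hn2⟩ := level_aux hT hK hne (h.mono (by positivity))
  have hjn : j ≤ n := by
    have h1 := h.le_w hn2.1
    rw [hn2.2, div_le_div_iff_of_pos_right he] at h1
    exact_mod_cast h1
  by_cases hpn : (p : ℕ) ∣ n
  · -- `n = p²`
    have hee : ee p + 1 = (p : ℕ) ^ 2 := by
      have := ee_pos (p := p)
      unfold ee at *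
      omega
    have hn3 : n = (p : ℕ) ^ 2 := by
      obtain ⟨m, rfl⟩ := hpn
      have hp0 := p.2.pos
      have h1 : (p : ℕ) * m < (p : ℕ) * ((p : ℕ) + 1) := by nlinarith
      have h2 : m < (p : ℕ) + 1 := lt_of_mul_lt_mul_left h1 (Nat.zero_le _)
      have h3 : (p : ℕ) * ((p : ℕ) - 1) < (p : ℕ) * m := by
        have h4 : (p : ℕ) * ((p : ℕ) - 1) + (p : ℕ) = (p : ℕ) ^ 2 := by
          obtain ⟨q, hq⟩ : ∃ q, (p : ℕ) = q + 1 := ⟨(p : ℕ) - 1, by omega⟩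
          rw [hq]
          simp
          ring
        have := p.2.two_le
        omega
      have h4 : (p : ℕ) - 1 < m := lt_of_mul_lt_mul_left h3 (Nat.zero_le _)
      have h5 : m = (p : ℕ) := by omega
      rw [h5, pow_two]
    obtain ⟨z, hz0, hzfix, hz⟩ := pstep hT (w := w) (by rw [← hn3]; exact hn2.GE le_rfl)
    have hK' := hK.mul_fixed hz0 hzfix
    obtain ⟨n', hn1', hn2'⟩ := level_aux hT hK' hne (hz.GE (by positivity))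
    have hlt : (p : ℕ) ^ 2 < n' := by
      have h1 := hz.lt_w hn2'.1
      rw [hn2'.2, div_lt_div_iff_of_pos_right he] at h1
      exact_mod_cast h1
    refine ⟨n', w * z, by omega, hn1', ?_, hK', hn2'⟩
    rintro ⟨m, rfl⟩
    have hp0 := p.2.pos
    have h1 : (p : ℕ) * m < (p : ℕ) * ((p : ℕ) + 1) := by nlinarith
    have h2 : m < (p : ℕ) + 1 := lt_of_mul_lt_mul_left h1 (Nat.zero_le _)
    have h3 : (p : ℕ) * (p : ℕ) < (p : ℕ) * m := by nlinarith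
    have h4 : (p : ℕ) < m := lt_of_mul_lt_mul_left h3 (Nat.zero_le _)
    omega
  · exact ⟨n, w, hjn, hn1, hpn, hK, hn2⟩

end Fermat.Agent.S56.FK
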