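import Fermat.Agent.S56.FK.TameN
import Fermat.Agent.Lib.Frobenius

/-!
# S56/FK-TAME : the tame field `F = K0(π)`          (key `S56/FK-TAME`)

The general facts are in `TameN.lean`.  PROOFS of the remaining statements.
* `zeta_fixed` : `ϖ = π^(p+1)`, `ϖ^(p-1) = -p` (`ee_eq`); `y = (ζ-1)/ϖ` is a unit (`S33.w_pi`, `w_pi_pow`); `σ y ≡ y` (`GT_of_mem_Iq`); `σ y / y = σ(ζ-1)/(ζ-1) ≡ c` if `σ ζ = ζ^c`, `c = (cycloChar σ).val`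
  (`S33.GT_sigma_pi`, `S55.E.cycloChar_spec`), so `c ≡ 1` mod `𝔪`, `p ∣ c - 1` (`natCast_EQ`), `ζ^c = ζ`.
* `omega_congr` : the same computation with `τ ϖ = ξ^(p+1) ϖ`: `τ y ≡ y`, `τ y / y = (τ(ζ-1)/(ζ-1)) / ξ^(p+1)`.
* `exists_phi` : `Frob.exists_isFrobeniusAt (primeLocalPlace p) p.2 (D.liesOverPrime_primeLocalPlace p)` gives `φ'`; `φ' π = ξ π` (`exists_root`); `exists_tau0` + `hξ0.eq_pow_of_pow_eq_one`: `τ = τ0^j` with `τ π = ξ⁻¹ π`; hmm: take `φ = τ * φ'` with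
  `τ (ξ π) = ξ τ π = π` (`root_fixed`).  Congruence: `IsFrobeniusAt.smul_residue_eq` + `OO_wq`/`GT_zero_iff_mem_nonunits` (see `S33/M1/InstTexp.lean`, `S55/D/ProCycInst.lean` for the dictionary), and `τ z ≡ z`.
-/

set_option autoImplicit false

noncomputable section

namespace Fermat.Agent.S56.FK

open Fermat.Agent.S05 Fermat.Agent.S55 Fermat.Agent.S55.B ExtCitation

variable {p : Nat.Primes} {π ζ : Qb}

theorem ee_pos : 0 < ee p := by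
  have := p.2.two_le
  unfold ee
  have : 4 ≤ (p : ℕ) ^ 2 := by nlinarith
  omega

theorem ee_eq : ee p = ((p : ℕ) - 1) * ((p : ℕ) + 1) := by
  obtain ⟨n, hn⟩ : ∃ n, (p : ℕ) = n + 1 := ⟨(p : ℕ) - 1, by have := p.2.pos; omega⟩
  unfold ee
  rw [hn]
  have : (n + 1) ^ 2 = n * (n + 1 + 1) + 1 := by ring
  rw [this]
  simp

theorem not_dvd_ee : ¬ (p : ℕ) ∣ ee p := by
  intro h
  have h1 : (p : ℕ) ∣ (p : ℕ) ^ 2 := dvd_pow_self _ two_ne_zero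
  have h2 : ee p + 1 = (p : ℕ) ^ 2 := by
    have := ee_pos (p := p)
    unfold ee at *
    omega
  have h3 : (p : ℕ) ∣ 1 := by
    have := (Nat.dvd_add_right h).1 (h2 ▸ h1)
    exact this
  exact p.2.one_lt.ne' (Nat.dvd_one.1 h3)

theorem pi_ne_zero (hT : TD p π ζ) : π ≠ 0 := varpi_ne_zero hT.hπ

theorem w_pi' (hT : TD p π ζ) : (wq p).EQ π (1 / (ee p : ℝ)) := w_varpi ee_pos.ne' hT.hπ

theorem w_pi_pow (hT : TD p π ζ) (i : ℕ) : (wq p).EQ (π ^ i) ((i : ℝ) / (ee p : ℝ)) := by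
  have := (w_pi' hT).pow i
  rwa [mul_one_div] at this

theorem exists_root (hT : TD p π ζ) (δ : GQ) : ∃ ξ : Qb, ξ ^ ee p = 1 ∧ δ π = ξ * π :=
  exists_root_gen hT.hπ δ

theorem conj_mem_JJ (hT : TD p π ζ) {δ σ : GQ} (hδ : δ ∈ Dq p) (hσ : σ ∈ JJ p π) :
    δ⁻¹ * σ * δ ∈ JJ p π := conj_mem_stab not_dvd_ee hT.hπ hδ hσ

theorem val_group (hT : TD p π ζ) {x : Qb} (hx : ∀ σ ∈ JJ p π, σ x = x) (hx0 : x ≠ 0) :
    ∃ n : ℤ, (wq p).w x = (n : ℝ) / (ee p : ℝ) := val_group_gen not_dvd_ee hT.hπ hx hx0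

theorem exists_tau0 (hT : TD p π ζ) :
    ∃ τ0 ∈ Iq p, ∃ ξ0 : Qb, IsPrimitiveRoot ξ0 (ee p) ∧ τ0 π = ξ0 * π :=
  exists_tau_gen not_dvd_ee hT.hπ

theorem ee_cast : (ee p : ℝ) = (((p : ℕ) : ℝ) - 1) * (((p : ℕ) : ℝ) + 1) := by
  rw [ee_eq, Nat.cast_mul, Nat.cast_sub p.2.one_le]
  push_cast
  ring

theorem omega_congr (hT : TD p π ζ) {τ : GQ} {ξ : Qb} (hτ : τ ∈ Iq p) (hξ : τ π = ξ * π) :
    (wq p).GT (((((cycloChar (p : ℕ) τ : (ZMod (p : ℕ))ˣ) : ZMod (p : ℕ)).val : ℕ) : Qb) -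
      ξ ^ ((p : ℕ) + 1)) 0 := by
  have hπ0 := pi_ne_zero hT
  have hξe : ξ ^ ee p = 1 := by
    have h1 : (τ π) ^ ee p = π ^ ee p := by
      rw [← map_pow, hT.hπ, map_neg, map_natCast]
    rw [hξ, mul_pow] at h1
    exact mul_right_cancel₀ (pow_ne_zero _ hπ0) (h1.trans (one_mul _).symm)
  have hξE : (wq p).EQ ξ 0 := root_EQ ee_pos.ne' hξe
  have hX : (wq p).EQ (ξ ^ ((p : ℕ) + 1)) 0 := by simpa using hξE.pow ((p : ℕ) + 1)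
  have hτζ := E.cycloChar_spec (p : ℕ) τ hT.hζ.pow_eq_one
  have hA := S33.GT_sigma_pi p hT.hζ hτζ
  have hz := S33.w_pi p hT.hζ
  have hp1 : (0 : ℝ) < ((p : ℕ) : ℝ) - 1 := by
    have : (1 : ℝ) < (p : ℕ) := by exact_mod_cast p.2.one_lt
    linarith
  have hy : (wq p).EQ ((ζ - 1) / π ^ ((p : ℕ) + 1)) 0 := by
    refine (hz.div (w_pi_pow hT ((p : ℕ) + 1))).of_eq ?_
    rw [ee_cast]
    push_cast
    field_simp
    ring
  have h1 := GT_of_mem_Iq p hτ (hy.GE le_rfl)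
  have e : (τ (ζ - 1) / (ζ - 1) - ξ ^ ((p : ℕ) + 1)) * ((ζ - 1) / π ^ ((p : ℕ) + 1)) =
      (τ ((ζ - 1) / π ^ ((p : ℕ) + 1)) - (ζ - 1) / π ^ ((p : ℕ) + 1)) * ξ ^ ((p : ℕ) + 1) := by
    rw [map_div₀, map_pow, hξ, mul_pow]
    have := hz.1
    have := hX.1
    field_simp
  have h2 : (wq p).GT ((τ ((ζ - 1) / π ^ ((p : ℕ) + 1)) - (ζ - 1) / π ^ ((p : ℕ) + 1)) *
      ξ ^ ((p : ℕ) + 1)) 0 := by simpa using h1.mul_GE (hX.GE le_rfl)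
  have h3 := RVal.GT.of_mul_eq_left e hy h2
  rw [sub_zero] at h3
  have h4 := h3.sub hA
  rwa [sub_sub_sub_cancel_left] at h4

theorem zeta_fixed (hT : TD p π ζ) {σ : GQ} (hσ : σ ∈ JJ p π) : σ ζ = ζ := by
  have h1 := omega_congr hT hσ.1 (ξ := 1) (by rw [one_mul, hσ.2])
  rw [one_pow] at h1
  have hσζ := E.cycloChar_spec (p : ℕ) σ hT.hζ.pow_eq_one
  set c := ((cycloChar (p : ℕ) σ : (ZMod (p : ℕ))ˣ) : ZMod (p : ℕ)).val with hc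
  have hc0 : c ≠ 0 := by
    rw [hc]
    intro h0
    exact (cycloChar (p : ℕ) σ).ne_zero ((ZMod.val_eq_zero _).1 h0)
  have hcp : c < (p : ℕ) := ZMod.val_lt _
  have e : ((c : ℕ) : Qb) - 1 = ((c - 1 : ℕ) : Qb) := by
    rw [Nat.cast_sub (Nat.one_le_iff_ne_zero.2 hc0), Nat.cast_one]
  rw [e] at h1
  have h2 : (p : ℕ) ∣ c - 1 := by
    by_contra hnd
    exact h1.not_LE ((natCast_EQ hnd).LE le_rfl) le_rfl
  have h3 : c - 1 = 0 := Nat.eq_zero_of_dvd_of_lt h2 (by omega)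
  have h4 : c = 1 := by omega
  rw [hσζ, h4, pow_one]

theorem exists_phi (hT : TD p π ζ) : ∃ φ ∈ Dq p, φ π = π ∧
    ∀ x : Qb, (wq p).GE x 0 → (wq p).GT (φ x - x ^ (p : ℕ)) 0 := by
  obtain ⟨φ', hφ'⟩ := Frob.exists_isFrobeniusAt (primeLocalPlace p) p.2
    (D.liesOverPrime_primeLocalPlace p)
  have hφD : φ' ∈ Dq p := hφ'.mem_decompositionSubgroup
  have hcong : ∀ x : Qb, (wq p).GE x 0 → (wq p).GT (φ' x - x ^ (p : ℕ)) 0 := by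
    intro x hx
    have hxA : x ∈ primeLocalPlace p := by rwa [← OO_wq, mem_OO]
    have h1 := D.frob_pow_smul hφ' 1 (IsLocalRing.residue (primeLocalPlace p) ⟨x, hxA⟩)
    rw [← IsLocalRing.ResidueField.residue_smul, ← map_pow, D.residue_eq_iff, pow_one, pow_one] at h1
    exact (GT_zero_iff_mem_nonunits p).2 h1
  obtain ⟨ξ, hξ, hφπ⟩ := exists_root hT φ'
  obtain ⟨τ0, hτ0, ξ0, hξ0, hτ0π⟩ := exists_tau0 hT
  have : NeZero (ee p) := ⟨ee_pos.ne'⟩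
  obtain ⟨j, -, hj⟩ := hξ0.eq_pow_of_pow_eq_one (ξ := ξ⁻¹) (by rw [inv_pow, hξ, inv_one])
  have hτ : τ0 ^ j ∈ Iq p := (Iq p).pow_mem hτ0 j
  have hξ0' : ξ ≠ 0 := by
    rintro rfl
    rw [zero_pow ee_pos.ne'] at hξ
    exact zero_ne_one hξ
  refine ⟨τ0 ^ j * φ', (Dq p).mul_mem (Iq_le_Dq p hτ) hφD, ?_, fun x hx => ?_⟩
  · rw [AlgEquiv.mul_apply, hφπ, map_mul, root_fixed not_dvd_ee hξ hτ,
      pow_apply not_dvd_ee hτ0 hξ0.pow_eq_one hτ0π j, hj, ← mul_assoc, mul_inv_cancel₀ hξ0', one_mul]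
  · have h1 := GT_of_mem_Iq p hτ ((pres_Dq p).GE hφD hx)
    have h2 := h1.add (hcong x hx)
    rwa [sub_add_sub_cancel] at h2

end Fermat.Agent.S56.FK
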