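import Fermat.Agent.S56.FK.Defs

/-!
# S56/FK-TAMEN : tame extensions `K0(ϖ)`, `ϖ^n = -p`, `p ∤ n`          (key `S56/FK-TAMEN`)

PROOFS.
* `natCast_EQ` : `p ∤ n` : Bezout `a n + b p = 1` (`Nat.Coprime`, `Int.gcd_eq_gcd_ab`); if `w n > 0` then `w 1 > 0` (`wq_q`, `RVal.GE_intCast`).  `natCast_GT` : `n = p m`.
* `root_EQ` : `n * w ξ = w 1 = 0`.
* `root_eq_of_GT` : `η = ξ'/ξ`; if `η ≠ 1` then `∑_{j<n} η^j = 0` (`mul_neg_geom_sum`/`geom_sum_eq`), but `η ≡ 1` gives `∑ ≡ n` (`GT_pow_sub_pow`, `GT_sum`), a unit.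
* `root_fixed` : `τ ξ ≡ ξ` (`GT_of_mem_Iq`), `(τ ξ)^n = 1`, `root_eq_of_GT`.
* `root_fixed_D` : `S55.B.lf_Dq` contains a primitive `(p-1)`-th root of unity in `Fx (Dq p)` (field `root`); every `ξ` with `ξ^(p-1) = 1` is a power of it (`IsPrimitiveRoot.eq_pow_of_pow_eq_one`).
* `conj_mem_Iq` : `mem_Iq_of_GT`: `x` integral `⇒ δ x` integral (`pres_Dq`), `σ (δ x) - δ x` has `w > 0`, apply `δ⁻¹`.
* `exists_root_gen` : `ξ = δ ϖ / ϖ`, `ξ^n = δ(-p)/(-p) = 1`.    `pow_apply` : induction, `root_fixed`.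
* `conj_mem_stab` : `δ ϖ = ξ ϖ`, `σ ξ = ξ` (`root_fixed`), so `σ (δ ϖ) = δ ϖ`.
* `relIndex_stab` : `θ : I → rootsOfUnity n Qb`, `τ ↦ τ ϖ / ϖ` is a homomorphism (`root_fixed`) with kernel `stab I ϖ` (as a subgroup of `I`), so `relIndex ∣ n` (`Subgroup.index_ker`, `Subgroup.card_subgroup_dvd_card`,
  `IsPrimitiveRoot.card_rootsOfUnity`/`card_rootsOfUnity` `≤ n`...; a primitive `n`-th root exists: `HasEnoughRootsOfUnity`/`IsAlgClosed`, char 0); `S33.w_of_relIndex` applied to `ϖ` (`w ϖ = 1/n`) gives `n ∣ relIndex`.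
* `val_group_gen` = `S33.w_of_relIndex` + `relIndex_stab`.   `exists_tau_gen` : `θ` is injective on `I/stab` with `n` elements, so onto.
* `exists_pow_mul` : `σ ϖ = η ϖ`, `η = ξ^j`.
-/

set_option autoImplicit false

noncomputable section

namespace Fermat.Agent.S56.FK

open Fermat.Agent.S05 Fermat.Agent.S55 Fermat.Agent.S55.B ExtCitation

variable {p : Nat.Primes}

theorem natCast_EQ {n : ℕ} (hn : ¬ (p : ℕ) ∣ n) : (wq p).EQ (n : Qb) 0 := by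
  have hn0 : n ≠ 0 := by
    rintro rfl
    exact hn (dvd_zero _)
  exact ⟨by exact_mod_cast hn0, w_natCast_eq_zero p.2 (inerAux_wq_pos p) hn⟩

theorem natCast_GT {n : ℕ} (hn : (p : ℕ) ∣ n) : (wq p).GT (n : Qb) 0 := by
  obtain ⟨m, rfl⟩ := hn
  rw [Nat.cast_mul]
  have h1 : (wq p).GT (((p : ℕ) : Qb)) 0 := Or.inr (inerAux_wq_pos p)
  simpa using h1.mul_GE (RVal.GE_natCast (v := wq p) m)

theorem root_EQ {n : ℕ} (hn : n ≠ 0) {ξ : Qb} (h : ξ ^ n = 1) : (wq p).EQ ξ 0 :=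
  w_eq_zero_of_pow_eq_one (Nat.pos_of_ne_zero hn) h

theorem root_eq_of_GT {n : ℕ} (hn : ¬ (p : ℕ) ∣ n) {ξ ξ' : Qb} (h : ξ ^ n = 1) (h' : ξ' ^ n = 1)
    (hc : (wq p).GT (ξ - ξ') 0) : ξ = ξ' :=
  eq_of_pow_eq_one (inerAux_pos p hn) (w_natCast_eq_zero p.2 (inerAux_wq_pos p) hn) h h' hc

theorem root_fixed {n : ℕ} (hn : ¬ (p : ℕ) ∣ n) {ξ : Qb} (h : ξ ^ n = 1) {τ : GQ} (hτ : τ ∈ Iq p) :
    τ ξ = ξ :=
  apply_root_of_mem_Iq p hτ hn h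

theorem root_fixed_D {ξ : Qb} (h : ξ ^ ((p : ℕ) - 1) = 1) {δ : GQ} (hδ : δ ∈ Dq p) : δ ξ = ξ := by
  obtain ⟨ω, hω, hprim⟩ := (lf_Dq p).res.root
  have : NeZero ((p : ℕ) - 1) := ⟨by have := p.2.two_le; omega⟩
  obtain ⟨i, -, rfl⟩ := hprim.eq_pow_of_pow_eq_one h
  rw [map_pow, mem_Fx.1 hω δ hδ]

theorem conj_mem_Iq {δ σ : GQ} (hδ : δ ∈ Dq p) (hσ : σ ∈ Iq p) : δ⁻¹ * σ * δ ∈ Iq p := by
  have hδi : δ⁻¹ ∈ Dq p := (Dq p).inv_mem hδ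
  refine mem_Iq_of_GT p ((Dq p).mul_mem ((Dq p).mul_mem hδi (Iq_le_Dq p hσ)) hδ) fun x hx => ?_
  have h1 : (wq p).GE (δ x) 0 := (pres_Dq p).GE hδ hx
  have h2 := GT_of_mem_Iq p hσ h1
  have h3 := (pres_Dq p).GT hδi h2
  have e : δ⁻¹ (σ (δ x) - δ x) = (δ⁻¹ * σ * δ) x - x := by
    rw [map_sub, AlgEquiv.mul_apply, AlgEquiv.mul_apply, ← AlgEquiv.mul_apply δ⁻¹ δ x,
      inv_mul_cancel, AlgEquiv.one_apply]
  rwa [e] at h3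

variable {n : ℕ} {ϖ : Qb}

theorem varpi_ne_zero (h : ϖ ^ n = -((p : ℕ) : Qb)) : ϖ ≠ 0 := by
  rintro rfl
  rcases Nat.eq_zero_or_pos n with rfl | hn
  · rw [pow_zero] at h
    have h1 : ((((p : ℕ) + 1 : ℕ)) : Qb) = 0 := by
      push_cast
      linear_combination h
    exact absurd (Nat.cast_eq_zero.1 h1) (Nat.succ_ne_zero _)
  · rw [zero_pow hn.ne'] at h
    exact q_ne_zero p (neg_eq_zero.1 h.symm)

theorem w_varpi (hn : n ≠ 0) (h : ϖ ^ n = -((p : ℕ) : Qb)) : (wq p).EQ ϖ (1 / (n : ℝ)) := by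
  have h0 := varpi_ne_zero h
  refine ⟨h0, ?_⟩
  have h1 := RVal.w_pow (v := wq p) h0 n
  rw [h, RVal.w_neg, wq_q] at h1
  have hn' : (n : ℝ) ≠ 0 := by exact_mod_cast hn
  field_simp
  linarith

theorem exists_root_gen (h : ϖ ^ n = -((p : ℕ) : Qb)) (δ : GQ) :
    ∃ ξ : Qb, ξ ^ n = 1 ∧ δ ϖ = ξ * ϖ := by
  have h0 := varpi_ne_zero h
  refine ⟨δ ϖ / ϖ, ?_, by field_simp⟩
  rw [div_pow, ← map_pow, h, map_neg, map_natCast, div_self (neg_ne_zero.2 (q_ne_zero p))]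

theorem pow_apply (hn : ¬ (p : ℕ) ∣ n) {τ : GQ} {ξ : Qb} (hτ : τ ∈ Iq p) (hξ : ξ ^ n = 1)
    (hτϖ : τ ϖ = ξ * ϖ) (j : ℕ) : (τ ^ j) ϖ = ξ ^ j * ϖ := by
  induction j with
  | zero => simp
  | succ j ih =>
    rw [pow_succ', AlgEquiv.mul_apply, ih, map_mul, map_pow, root_fixed hn hξ hτ, hτϖ]
    ring

theorem conj_mem_stab (hn : ¬ (p : ℕ) ∣ n) (h : ϖ ^ n = -((p : ℕ) : Qb)) {δ σ : GQ} (hδ : δ ∈ Dq p)
    (hσ : σ ∈ stab (Iq p) ϖ) : δ⁻¹ * σ * δ ∈ stab (Iq p) ϖ := by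
  refine ⟨conj_mem_Iq hδ hσ.1, ?_⟩
  obtain ⟨ξ, hξ, hδϖ⟩ := exists_root_gen h δ
  rw [AlgEquiv.mul_apply, AlgEquiv.mul_apply, hδϖ, map_mul, root_fixed hn hξ hσ.1, hσ.2, ← hδϖ,
    ← AlgEquiv.mul_apply, inv_mul_cancel, AlgEquiv.one_apply]

/-- `τ ↦ τ ϖ / ϖ` -/
def thetaN (hn : ¬ (p : ℕ) ∣ n) (h : ϖ ^ n = -((p : ℕ) : Qb)) : ↥(Iq p) →* Qbˣ :=
  MonoidHom.mk' (fun τ => Units.mk0 ((τ : GQ) ϖ / ϖ)
    (div_ne_zero ((map_ne_zero _).2 (varpi_ne_zero h)) (varpi_ne_zero h)))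
    (fun σ τ => by
      apply Units.ext
      simp only [Units.val_mk0, Units.val_mul]
      obtain ⟨ξ, hξ, hτ⟩ := exists_root_gen h (τ : GQ)
      have h0 := varpi_ne_zero h
      rw [Subgroup.coe_mul, AlgEquiv.mul_apply, hτ, map_mul, root_fixed hn hξ σ.2]
      field_simp)

theorem thetaN_apply (hn : ¬ (p : ℕ) ∣ n) (h : ϖ ^ n = -((p : ℕ) : Qb)) (τ : ↥(Iq p)) :
    ((thetaN hn h τ : Qbˣ) : Qb) = (τ : GQ) ϖ / ϖ := rfl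

theorem thetaN_ker (hn : ¬ (p : ℕ) ∣ n) (h : ϖ ^ n = -((p : ℕ) : Qb)) :
    (thetaN hn h).ker = (stab (Iq p) ϖ).subgroupOf (Iq p) := by
  ext τ
  rw [MonoidHom.mem_ker, Subgroup.mem_subgroupOf, mem_stab, ← Units.val_inj, thetaN_apply,
    Units.val_one, div_eq_one_iff_eq (varpi_ne_zero h)]
  exact ⟨fun h1 => ⟨τ.2, h1⟩, fun h1 => h1.2⟩

theorem thetaN_range_le (hn : ¬ (p : ℕ) ∣ n) (h : ϖ ^ n = -((p : ℕ) : Qb)) :
    (thetaN hn h).range ≤ rootsOfUnity n Qb := by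
  rintro _ ⟨τ, rfl⟩
  rw [mem_rootsOfUnity]
  apply Units.ext
  rw [Units.val_pow_eq_pow_val, thetaN_apply, Units.val_one, div_pow, ← map_pow, h, map_neg,
    map_natCast, div_self (neg_ne_zero.2 (q_ne_zero p))]

theorem relIndex_stab (hn : ¬ (p : ℕ) ∣ n) (h : ϖ ^ n = -((p : ℕ) : Qb)) :
    (stab (Iq p) ϖ).relIndex (Iq p) = n := by
  have hn0 : n ≠ 0 := (inerAux_pos p hn).ne'
  have : NeZero n := ⟨hn0⟩
  have h1 : (stab (Iq p) ϖ).relIndex (Iq p) = Nat.card (thetaN hn h).range := by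
    rw [Subgroup.relIndex, ← thetaN_ker hn h, Subgroup.index_ker]
  have hcard : Nat.card (rootsOfUnity n Qb) = n := HasEnoughRootsOfUnity.natCard_rootsOfUnity Qb n
  have h2 : Nat.card (thetaN hn h).range ∣ n := by
    have := Subgroup.card_dvd_of_le (thetaN_range_le hn h)
    rwa [hcard] at this
  have h3 : (stab (Iq p) ϖ).relIndex (Iq p) ≠ 0 := by
    rw [h1]
    intro h0
    rw [h0] at h2
    exact hn0 (Nat.eq_zero_of_zero_dvd h2)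
  obtain ⟨k, hk⟩ := S33.w_of_relIndex p (stab_le _ _) h3 (mem_Fx_stab (Iq p) ϖ) (varpi_ne_zero h)
  rw [(w_varpi hn0 h).2] at hk
  have hn' : (n : ℝ) ≠ 0 := by exact_mod_cast hn0
  have h4 : (((stab (Iq p) ϖ).relIndex (Iq p) : ℕ) : ℝ) = k * n := by
    field_simp at hk
    linarith
  have h5 : (((stab (Iq p) ϖ).relIndex (Iq p) : ℕ) : ℤ) = k * n := by exact_mod_cast h4
  have h6 : (n : ℤ) ∣ (((stab (Iq p) ϖ).relIndex (Iq p) : ℕ) : ℤ) := ⟨k, by rw [h5]; ring⟩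
  have h7 : n ∣ (stab (Iq p) ϖ).relIndex (Iq p) := by exact_mod_cast h6
  exact Nat.dvd_antisymm (h1 ▸ h2) h7

theorem val_group_gen (hn : ¬ (p : ℕ) ∣ n) (h : ϖ ^ n = -((p : ℕ) : Qb)) {x : Qb}
    (hx : ∀ σ ∈ stab (Iq p) ϖ, σ x = x) (hx0 : x ≠ 0) : ∃ m : ℤ, (wq p).w x = (m : ℝ) / (n : ℝ) := by
  have hn0 : n ≠ 0 := (inerAux_pos p hn).ne'
  obtain ⟨k, hk⟩ := S33.w_of_relIndex p (stab_le (Iq p) ϖ) (by rw [relIndex_stab hn h]; exact hn0)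
    (mem_Fx.2 hx) hx0
  rw [relIndex_stab hn h] at hk
  have hn' : (n : ℝ) ≠ 0 := by exact_mod_cast hn0
  exact ⟨k, by field_simp; linarith⟩

theorem exists_tau_gen (hn : ¬ (p : ℕ) ∣ n) (h : ϖ ^ n = -((p : ℕ) : Qb)) :
    ∃ τ ∈ Iq p, ∃ ξ : Qb, IsPrimitiveRoot ξ n ∧ τ ϖ = ξ * ϖ := by
  have hn0 : n ≠ 0 := (inerAux_pos p hn).ne'
  have : NeZero n := ⟨hn0⟩
  have hcard : Nat.card (rootsOfUnity n Qb) = n := HasEnoughRootsOfUnity.natCard_rootsOfUnity Qb n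
  have h1 : Nat.card (thetaN hn h).range = n := by
    rw [← Subgroup.index_ker, thetaN_ker hn h]
    exact relIndex_stab hn h
  have : Finite (rootsOfUnity n Qb) := Nat.finite_of_card_ne_zero (by rw [hcard]; exact hn0)
  have h2 : (thetaN hn h).range = rootsOfUnity n Qb :=
    Subgroup.eq_of_le_of_card_ge (thetaN_range_le hn h) (by rw [hcard, h1])
  obtain ⟨ξ, hξ⟩ := HasEnoughRootsOfUnity.exists_primitiveRoot Qb n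
  have hξ0 : ξ ≠ 0 := hξ.ne_zero hn0
  have h3 : Units.mk0 ξ hξ0 ∈ (thetaN hn h).range := by
    rw [h2, mem_rootsOfUnity]
    apply Units.ext
    rw [Units.val_pow_eq_pow_val, Units.val_mk0, hξ.pow_eq_one, Units.val_one]
  obtain ⟨τ, hτ⟩ := h3
  refine ⟨τ, τ.2, ξ, hξ, ?_⟩
  have h4 := congrArg Units.val hτ
  rw [thetaN_apply, Units.val_mk0] at h4
  rw [← h4]
  have h0 := varpi_ne_zero h
  field_simp

theorem exists_pow_mul (hn : ¬ (p : ℕ) ∣ n) (h : ϖ ^ n = -((p : ℕ) : Qb)) {τ : GQ} {ξ : Qb}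
    (hτ : τ ∈ Iq p) (hξ : IsPrimitiveRoot ξ n) (hτϖ : τ ϖ = ξ * ϖ) {σ : GQ} (hσ : σ ∈ Iq p) :
    ∃ j : ℕ, (τ ^ j)⁻¹ * σ ∈ stab (Iq p) ϖ := by
  have hn0 : n ≠ 0 := (inerAux_pos p hn).ne'
  have : NeZero n := ⟨hn0⟩
  obtain ⟨η, hη, hση⟩ := exists_root_gen h σ
  obtain ⟨j, -, rfl⟩ := hξ.eq_pow_of_pow_eq_one hη
  refine ⟨j, (Iq p).mul_mem ((Iq p).inv_mem ((Iq p).pow_mem hτ j)) hσ, ?_⟩
  rw [AlgEquiv.mul_apply, hση, ← pow_apply hn hτ hξ.pow_eq_one hτϖ j, ← AlgEquiv.mul_apply,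
    inv_mul_cancel, AlgEquiv.one_apply]

end Fermat.Agent.S56.FK
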