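import Fermat.Agent.S56.FK.LinAlg

/-!
# S56/FK-TYPE : the matrix part of `exists_adapted`  (Mathlib + `LinAlg.lean`)          (helper21)
-/

set_option autoImplicit false

namespace Fermat.Agent.S56.FK

open Polynomial Matrix

variable {k : Type} [Field k]

theorem diag2_pow (a b : k) (m : ℕ) :
    (!![a, 0; 0, b] : Matrix (Fin 2) (Fin 2) k) ^ m = !![a ^ m, 0; 0, b ^ m] := by
  induction m with
  | zero => simp [Matrix.one_fin_two]
  | succ m ih =>
    rw [pow_succ, ih, Matrix.mul_fin_two]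
    simp [pow_succ]

theorem diag2_comm {A : Matrix (Fin 2) (Fin 2) k} {a b a' b' : k}
    (h : A * !![a, 0; 0, b] = !![a', 0; 0, b'] * A) :
    A 0 0 * a = a' * A 0 0 ∧ A 0 1 * b = a' * A 0 1 ∧ A 1 0 * a = b' * A 1 0 ∧
      A 1 1 * b = b' * A 1 1 := by
  have e00 := congrFun (congrFun h 0) 0
  have e01 := congrFun (congrFun h 0) 1
  have e10 := congrFun (congrFun h 1) 0
  have e11 := congrFun (congrFun h 1) 1
  simp [Matrix.mul_apply, Fin.sum_univ_two] at e00 e01 e10 e11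
  exact ⟨e00, e01, e10, e11⟩

theorem gl2_det_ne_zero (A : GL (Fin 2) k) :
    (A : Matrix (Fin 2) (Fin 2) k) 0 0 * (A : Matrix (Fin 2) (Fin 2) k) 1 1 -
      (A : Matrix (Fin 2) (Fin 2) k) 0 1 * (A : Matrix (Fin 2) (Fin 2) k) 1 0 ≠ 0 := by
  rw [← Matrix.det_fin_two]
  exact (Matrix.GeneralLinearGroup.det A).ne_zero

theorem conj_comm_diag (g A T : GL (Fin 2) k) {a b : k} {m : ℕ}
    (hT : ((g * T * g⁻¹ : GL (Fin 2) k) : Matrix (Fin 2) (Fin 2) k) = !![a, 0; 0, b])
    (h : A * T * A⁻¹ = T ^ m) :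
    ((g * A * g⁻¹ : GL (Fin 2) k) : Matrix (Fin 2) (Fin 2) k) 0 0 * a =
        a ^ m * ((g * A * g⁻¹ : GL (Fin 2) k) : Matrix (Fin 2) (Fin 2) k) 0 0 ∧
    ((g * A * g⁻¹ : GL (Fin 2) k) : Matrix (Fin 2) (Fin 2) k) 0 1 * b =
        a ^ m * ((g * A * g⁻¹ : GL (Fin 2) k) : Matrix (Fin 2) (Fin 2) k) 0 1 ∧
    ((g * A * g⁻¹ : GL (Fin 2) k) : Matrix (Fin 2) (Fin 2) k) 1 0 * a =
        b ^ m * ((g * A * g⁻¹ : GL (Fin 2) k) : Matrix (Fin 2) (Fin 2) k) 1 0 ∧
    ((g * A * g⁻¹ : GL (Fin 2) k) : Matrix (Fin 2) (Fin 2) k) 1 1 * b =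
        b ^ m * ((g * A * g⁻¹ : GL (Fin 2) k) : Matrix (Fin 2) (Fin 2) k) 1 1 := by
  have h1 : (g * A * g⁻¹) * (g * T * g⁻¹) = (g * T * g⁻¹) ^ m * (g * A * g⁻¹) := by
    rw [conj_pow, ← h]
    group
  have h2 : ((g * A * g⁻¹ : GL (Fin 2) k) : Matrix (Fin 2) (Fin 2) k) *
      ((g * T * g⁻¹ : GL (Fin 2) k) : Matrix (Fin 2) (Fin 2) k) =
      ((g * T * g⁻¹ : GL (Fin 2) k) : Matrix (Fin 2) (Fin 2) k) ^ m *
        ((g * A * g⁻¹ : GL (Fin 2) k) : Matrix (Fin 2) (Fin 2) k) := by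
    rw [← Units.val_mul, h1, Units.val_mul, Units.val_pow_eq_pow_val]
  rw [hT, diag2_pow] at h2
  exact diag2_comm h2

theorem mulVec_e0 {B : Matrix (Fin 2) (Fin 2) k} (h : B 1 0 = 0) :
    B.mulVec ![1, 0] = B 0 0 • ![1, 0] := by
  ext i
  fin_cases i
  · simp [Matrix.mulVec, dotProduct, Fin.sum_univ_two]
  · simp [Matrix.mulVec, dotProduct, Fin.sum_univ_two, h]

theorem pow_of_modEq {a : k} {N m : ℕ} (ha : a ^ N = 1) (hm : m ≡ 1 [MOD N]) : a ^ m = a := by
  rw [pow_eq_pow_mod m ha, hm, ← pow_eq_pow_mod 1 ha, pow_one]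

theorem type_abs {p : ℕ} (hp : p.Prime) (hp2 : p ≠ 2) [CharP k p] (T R : GL (Fin 2) k) {α β : k}
    (hch : (T : Matrix (Fin 2) (Fin 2) k).charpoly = (X - C α) * (X - C β)) {n : ℕ}
    (hn : (n : k) ≠ 0) (hTn : T ^ n = 1) (hR : R * T * R⁻¹ = T ^ p)
    (hhalf : (α * β) ^ ((p - 1) / 2) = -1) (Δ : Set (GL (Fin 2) k))
    (hΔ : ∀ A ∈ Δ, ∃ m : ℕ, m ≡ 1 [MOD p - 1] ∧ A * T * A⁻¹ = T ^ m)
    (hirr : ∀ x : Fin 2 → k, x ≠ 0 → ∃ A ∈ Δ, ∀ t : k,
      (A : Matrix (Fin 2) (Fin 2) k).mulVec x ≠ t • x) :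
    ∃ g : GL (Fin 2) k,
      ((g * T * g⁻¹ : GL (Fin 2) k) : Matrix (Fin 2) (Fin 2) k) = !![α, 0; 0, α ^ p] ∧
      α ^ (p + 1) = α * β ∧ α ^ (p ^ 2 - 1) = 1 ∧
      ((g * R * g⁻¹ : GL (Fin 2) k) : Matrix (Fin 2) (Fin 2) k) 0 0 = 0 ∧
      ((g * R * g⁻¹ : GL (Fin 2) k) : Matrix (Fin 2) (Fin 2) k) 1 1 = 0 := by
  obtain ⟨j, hj⟩ : ∃ j, p = 2 * j + 1 := by
    rcases hp.eq_two_or_odd' with h | h
    · exact absurd h hp2
    · exact h
  have hj2 : (p - 1) / 2 = j := by omega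
  have hj1 : p - 1 = 2 * j := by omega
  have h2 : (2 : k) ≠ 0 := by
    intro h
    have h3 : ((2 : ℕ) : k) = 0 := by exact_mod_cast h
    have h4 := (CharP.cast_eq_zero_iff k p 2).1 h3
    have := Nat.le_of_dvd (by norm_num) h4
    have := hp.two_le
    omega
  have h1ne : (1 : k) ≠ -1 := by
    intro h
    apply h2
    linear_combination h
  rw [hj2] at hhalf
  by_cases hαβ : α = β
  · exfalso
    subst hαβ
    have hT := la_scalar T hch hn hTn
    obtain ⟨e00, e01, e10, e11⟩ := conj_comm_diag 1 R T (a := α) (b := α) (m := p)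
      (by simpa using hT) hR
    have hdet := gl2_det_ne_zero (1 * R * 1⁻¹)
    have hdT := gl2_det_ne_zero T
    rw [hT] at hdT
    have hα0 : α ≠ 0 := by
      rintro rfl
      simp at hdT
    have hαp : α ^ p = α := by
      by_contra hne
      have hz : ∀ r : k, r * α = α ^ p * r → r = 0 := by
        intro r hr
        have : (α ^ p - α) * r = 0 := by linear_combination -hr
        exact (mul_eq_zero.1 this).resolve_left (sub_ne_zero.2 hne)
      rw [hz _ e00, hz _ e01] at hdet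
      simp at hdet
    have h3 : α ^ (p - 1) = 1 := by
      have : α ^ (p - 1) * α = 1 * α := by
        rw [← pow_succ, Nat.sub_add_cancel hp.one_le, hαp, one_mul]
      exact mul_right_cancel₀ hα0 this
    apply h1ne
    rw [← hhalf, ← h3, hj1, pow_mul, sq]
  · obtain ⟨g, hg⟩ := la_diag T hαβ hch
    have hdT := gl2_det_ne_zero (g * T * g⁻¹)
    rw [hg] at hdT
    have hα0 : α ≠ 0 := by
      rintro rfl
      simp at hdT
    have hβ0 : β ≠ 0 := by
      rintro rfl
      simp at hdT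
    obtain ⟨e00, e01, e10, e11⟩ := conj_comm_diag g R T hg hR
    have hdet := gl2_det_ne_zero (g * R * g⁻¹)
    obtain ⟨R', hR'⟩ : ∃ R', R' = ((g * R * g⁻¹ : GL (Fin 2) k) : Matrix (Fin 2) (Fin 2) k) :=
      ⟨_, rfl⟩
    rw [← hR'] at e00 e01 e10 e11 hdet
    -- the reducible case is excluded
    have hred : ¬ (α ^ p = α ∧ β ^ p = β) := by
      rintro ⟨ha, hb⟩
      have ha1 : α ^ (p - 1) = 1 := by
        have : α ^ (p - 1) * α = 1 * α := by
          rw [← pow_succ, Nat.sub_add_cancel hp.one_le, ha, one_mul]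
        exact mul_right_cancel₀ hα0 this
      have hb1 : β ^ (p - 1) = 1 := by
        have : β ^ (p - 1) * β = 1 * β := by
          rw [← pow_succ, Nat.sub_add_cancel hp.one_le, hb, one_mul]
        exact mul_right_cancel₀ hβ0 this
      let x : Fin 2 → k := ((g⁻¹ : GL (Fin 2) k) : Matrix (Fin 2) (Fin 2) k).mulVec ![1, 0]
      have hx : x ≠ 0 := by
        intro hx
        have h3 : (g : Matrix (Fin 2) (Fin 2) k).mulVec x = ![1, 0] := by
          show (g : Matrix (Fin 2) (Fin 2) k).mulVec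
            (((g⁻¹ : GL (Fin 2) k) : Matrix (Fin 2) (Fin 2) k).mulVec ![1, 0]) = _
          rw [Matrix.mulVec_mulVec, ← Units.val_mul, mul_inv_cancel, Units.val_one,
            Matrix.one_mulVec]
        rw [hx, Matrix.mulVec_zero] at h3
        have := congrFun h3 0
        simp at this
      obtain ⟨A, hA, hAx⟩ := hirr x hx
      obtain ⟨m, hm, hAT⟩ := hΔ A hA
      obtain ⟨-, -, f10, -⟩ := conj_comm_diag g A T hg hAT
      rw [pow_of_modEq hb1 hm] at f10
      have hA10 : ((g * A * g⁻¹ : GL (Fin 2) k) : Matrix (Fin 2) (Fin 2) k) 1 0 = 0 := by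
        have : (α - β) * ((g * A * g⁻¹ : GL (Fin 2) k) : Matrix (Fin 2) (Fin 2) k) 1 0 = 0 := by
          linear_combination f10
        exact (mul_eq_zero.1 this).resolve_left (sub_ne_zero.2 hαβ)
      apply hAx (((g * A * g⁻¹ : GL (Fin 2) k) : Matrix (Fin 2) (Fin 2) k) 0 0)
      have h4 : (A : Matrix (Fin 2) (Fin 2) k).mulVec x =
          ((g⁻¹ : GL (Fin 2) k) : Matrix (Fin 2) (Fin 2) k).mulVec
            (((g * A * g⁻¹ : GL (Fin 2) k) : Matrix (Fin 2) (Fin 2) k).mulVec ![1, 0]) := by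
        show (A : Matrix (Fin 2) (Fin 2) k).mulVec
            (((g⁻¹ : GL (Fin 2) k) : Matrix (Fin 2) (Fin 2) k).mulVec ![1, 0]) = _
        rw [Matrix.mulVec_mulVec, Matrix.mulVec_mulVec, ← Units.val_mul, ← Units.val_mul]
        congr 2
        group
      rw [h4, mulVec_e0 hA10, Matrix.mulVec_smul]
    have h00 : R' 0 0 = 0 := by
      by_contra hne
      have ha : α ^ p = α := by
        have : (α ^ p - α) * R' 0 0 = 0 := by linear_combination -e00
        exact sub_eq_zero.1 ((mul_eq_zero.1 this).resolve_right hne)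
      have h01 : R' 0 1 = 0 := by
        rw [ha] at e01
        have : (α - β) * R' 0 1 = 0 := by linear_combination -e01
        exact (mul_eq_zero.1 this).resolve_left (sub_ne_zero.2 hαβ)
      have h11 : R' 1 1 ≠ 0 := by
        intro h
        rw [h01, h] at hdet
        simp at hdet
      have hb : β ^ p = β := by
        have : (β ^ p - β) * R' 1 1 = 0 := by linear_combination -e11
        exact sub_eq_zero.1 ((mul_eq_zero.1 this).resolve_right h11)
      exact hred ⟨ha, hb⟩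
    have h11 : R' 1 1 = 0 := by
      by_contra hne
      have hb : β ^ p = β := by
        have : (β ^ p - β) * R' 1 1 = 0 := by linear_combination -e11
        exact sub_eq_zero.1 ((mul_eq_zero.1 this).resolve_right hne)
      rw [h00] at hdet
      have h10 : R' 1 0 = 0 := by
        rw [hb] at e10
        have : (α - β) * R' 1 0 = 0 := by linear_combination e10
        exact (mul_eq_zero.1 this).resolve_left (sub_ne_zero.2 hαβ)
      rw [h10] at hdet
      simp at hdet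
    rw [h00, h11] at hdet
    have h01 : R' 0 1 ≠ 0 := by
      intro h
      rw [h] at hdet
      simp at hdet
    have h10 : R' 1 0 ≠ 0 := by
      intro h
      rw [h] at hdet
      simp at hdet
    have hβ : β = α ^ p := by
      have : (β - α ^ p) * R' 0 1 = 0 := by linear_combination e01
      exact sub_eq_zero.1 ((mul_eq_zero.1 this).resolve_right h01)
    have hα : α = β ^ p := by
      have : (α - β ^ p) * R' 1 0 = 0 := by linear_combination e10
      exact sub_eq_zero.1 ((mul_eq_zero.1 this).resolve_right h10)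
    refine ⟨g, by rw [hg, hβ], by rw [hβ, pow_succ'], ?_, hR' ▸ h00, hR' ▸ h11⟩
    have h3 : α ^ (p ^ 2 - 1) * α = 1 * α := by
      rw [← pow_succ, Nat.sub_add_cancel (Nat.one_le_pow _ _ hp.pos), sq, pow_mul, ← hβ, ← hα,
        one_mul]
    exact mul_right_cancel₀ hα0 h3

end Fermat.Agent.S56.FK
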