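import Fermat.Agent.S56.FK.TypeA
import Fermat.Agent.S56.FK.TypeAbs
import Fermat.Agent.S56.FK.Half

/-!
# S56/FK-TYPE : irreducible `⇒` adapted basis          (key `S56/FK-TYPE`)

`r0` smooth, `det = ω`, split characteristic polynomials, no `D`-stable line.
1. `wild p r0 hsm` gives `n` (`p ∤ n`, `e ∣ n`); choose `ϖ` with `ϖ^(n/e) = π` (`IsAlgClosed.exists_pow_nat_eq`), so `ϖ^n = -p`.  `trivial_on_wild` : `r0 = 1` on `P = stab I ϖ`.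
2. `exists_tau_gen` : `τ ∈ I`, `τ ϖ = ξ ϖ`, `ξ` primitive `n`-th root.  `T = r0 τ`, `T^n = 1` (`pow_apply`: `τ^n ∈ P`).  `r0 σ = T^j` for `σ ∈ I` (`exists_pow_mul`).
   `τ π = ξ0 π`, `ξ0 = ξ^(n/e)` primitive `e`-th root (`IsPrimitiveRoot.pow`).   `φ` from `exists_phi`.  `R T R⁻¹ = T^p`, `R = r0 φ` (`conj_rel_frob`); `r0 δ T (r0 δ)⁻¹ = T^m`, `m ≡ 1 [MOD p-1]` (`conj_rel`; `p - 1 ∣ e ∣ n` by `ee_eq`).
3. `hsplit τ` : `charpoly T = (X-α)(X-β)`.  `det T = α β = ω(τ)` (`hdet`; `Matrix.det_eq_sign_charpoly_coeff` or evaluate at `0`).  `w0 := (ω(τ).val : k)` satisfies `w0^((p-1)/2) = -1` (as in `Inj.s_pow`: `omega_congr`, `ξ0^(e/2) = -1`).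
   If `α = β` : `la_scalar` (`(n : k) ≠ 0`, `CharP`) `T = α`, `T = T^p` `⇒ α^(p-1) = 1`, `w0^((p-1)/2) = α^(p-1) = 1 ≠ -1` (`p ≠ 2`). Contradiction.
4. `α ≠ β` : `la_diag` gives `g`, `g T g⁻¹ = diag(α, β)`.  `r0' = conj g ∘ r0`.  `R' = r0' φ` satisfies `R' diag(α,β) = diag(α^p, β^p) R'`: entrywise
   `R'00 (α - α^p) = 0`, `R'01 (β - α^p) = 0`, `R'10 (α - β^p) = 0`, `R'11 (β - β^p) = 0`.
   If `R'00 ≠ 0` or `R'11 ≠ 0`: `det R' ≠ 0` and `α ≠ β` force `α^p = α` and `β^p = β` [`R'00 ≠ 0 ⇒ α^p = α`; then `R'01 ≠ 0 ⇒ β = α`, so `R'01 = 0`, so `R'11 ≠ 0`, `β^p = β`; symmetric].  Then `α^m = α`, `β^m = β` for `m ≡ 1 [MOD p-1]`, so every `r0' δ` commutes with `diag(α,β)`, so is diagonal,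
   so `g⁻¹ e_0` spans a `D`-stable line of `r0`: contradiction with `hirr`.   Hence `R'00 = R'11 = 0`, `R'01, R'10 ≠ 0`, `β = α^p`.
5. fields of `Adapted` : `hJ` : `σ ∈ J`: `σ = τ^j ρ`, `ρ ∈ P`; `σ π = π ⇒ ξ0^j = 1 ⇒ e ∣ j`; `T^e = 1` because `α^(p²) = β^p = α` etc.  `hI` : powers of a diagonal matrix.  `hpow` : `β = α^p`.  `hdet` : `α^(p+1) = α β = ω(τ)`.
-/

set_option autoImplicit false

noncomputable section

namespace Fermat.Agent.S56.FK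

open Fermat.Agent.S05 Fermat.Agent.S55 Fermat.Agent.S55.B ExtCitation Polynomial
open Fermat.Agent.S53 (M2)

variable {p : Nat.Primes} {π ζ : Qb} {k : Type} [Field k]

/-- `g r0 g⁻¹` -/
abbrev conjRep (g : GL (Fin 2) k) (r0 : GQ →* GL (Fin 2) k) : GQ →* GL (Fin 2) k :=
  (MulAut.conj g).toMonoidHom.comp r0

theorem exists_adapted [Finite k] [Algebra (ZMod (p : ℕ)) k] (hT : TD p π ζ)
    (r0 : GQ →* GL (Fin 2) k) (hsm : IsSm r0) (hdet : IsCycDet (p : ℕ) r0)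
    (hsplit : ∀ σ : GQ, ∃ α β : k, (r0 σ : M2 k).charpoly = (X - C α) * (X - C β))
    (hirr : Irr p r0) :
    ∃ (g : GL (Fin 2) k) (τ0 φ : GQ) (ξ0 : Qb), Adapted p π (conjRep g r0) τ0 φ ξ0 := by
  haveI : CharP k (p : ℕ) := charP_of_injective_algebraMap (algebraMap (ZMod (p : ℕ)) k).injective _
  obtain ⟨n, hn, ⟨d, rfl⟩, hw⟩ := wild p r0 hsm
  have hn0 : 0 < ee p * d := inerAux_pos p hn
  have hd0 : 0 < d := Nat.pos_of_mul_pos_left hn0 |> fun h => by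
    rcases Nat.eq_zero_or_pos d with rfl | h'
    · simp at hn0
    · exact h'
  obtain ⟨ϖ, hϖd⟩ := IsAlgClosed.exists_pow_nat_eq π hd0
  have hϖ : ϖ ^ (ee p * d) = -((p : ℕ) : Qb) := by
    rw [mul_comm, pow_mul, hϖd, hT.hπ]
  have htriv := trivial_on_wild hirr hn hϖ (hw ϖ hϖ)
  obtain ⟨τ, hτ, ξ, hξ, hτϖ⟩ := exists_tau_gen hn hϖ
  have hξ0 : IsPrimitiveRoot (ξ ^ d) (ee p) := hξ.pow hn0 (mul_comm _ _)
  have hτπ : τ π = ξ ^ d * π := by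
    rw [← hϖd, map_pow, hτϖ, mul_pow]
  obtain ⟨φ, hφ, hφπ, hfrob⟩ := exists_phi hT
  -- relations
  have hTn : r0 τ ^ (ee p * d) = 1 := by
    rw [← map_pow]
    refine htriv _ ⟨(Iq p).pow_mem hτ _, ?_⟩
    rw [pow_apply hn hτ hξ.pow_eq_one hτϖ, hξ.pow_eq_one, one_mul]
  have hrel : ∀ {δ : GQ} {m : ℕ}, (τ ^ m)⁻¹ * (δ * τ * δ⁻¹) ∈ stab (Iq p) ϖ →
      r0 δ * r0 τ * (r0 δ)⁻¹ = r0 τ ^ m := by
    intro δ m h
    have h1 := htriv _ h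
    rw [map_mul, map_inv, map_pow, map_mul, map_mul, map_inv, inv_mul_eq_one] at h1
    exact h1.symm
  have hR := hrel (conj_rel_frob hn hϖ hτ hξ hτϖ hφ hfrob)
  have hn1 : ((p : ℕ) - 1) ∣ ee p * d := Dvd.dvd.mul_right (by rw [ee_eq]; exact Dvd.intro _ rfl) _
  obtain ⟨α, β, hch⟩ := hsplit τ
  have hdetT : α * β = ((((cycloChar (p : ℕ) τ : (ZMod (p : ℕ))ˣ) : ZMod (p : ℕ)).val : ℕ) : k) := by
    rw [← hdet τ, Matrix.det_eq_sign_charpoly_coeff, hch, Polynomial.coeff_zero_eq_eval_zero]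
    simp
  have hhalf : (α * β) ^ (((p : ℕ) - 1) / 2) = -1 := by
    rw [hdetT]
    exact omega_half hT hτ hξ0 hτπ
  have hnk : ((ee p * d : ℕ) : k) ≠ 0 := by
    intro h
    exact hn ((CharP.cast_eq_zero_iff k (p : ℕ) _).1 h)
  obtain ⟨g, hg, hαβ, hαe, hR00, hR11⟩ := type_abs p.2 hT.hp2 (r0 τ) (r0 φ) hch hnk hTn hR hhalf
    (r0 '' (Dq p : Set GQ))
    (by
      rintro _ ⟨δ, hδ, rfl⟩
      obtain ⟨m, hm, h⟩ := conj_rel hn hn1 hϖ hτ hξ hτϖ hδ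
      exact ⟨m, hm, hrel h⟩)
    (by
      intro x hx
      obtain ⟨δ, hδ, h⟩ := hirr x hx
      exact ⟨r0 δ, ⟨δ, hδ, rfl⟩, h⟩)
  have hTe : r0 τ ^ ee p = 1 := by
    have h1 : (g * r0 τ * g⁻¹) ^ ee p = 1 := by
      apply Units.ext
      rw [Units.val_pow_eq_pow_val, hg, diag2_pow, ← pow_mul, mul_comm (p : ℕ), pow_mul]
      have : α ^ ee p = 1 := hαe
      rw [this, one_pow, Units.val_one, Matrix.one_fin_two]
    rw [conj_pow] at h1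
    have h2 : r0 τ ^ ee p = g⁻¹ * (g * r0 τ ^ ee p * g⁻¹) * g := by group
    rw [h2, h1]
    group
  have hpowI : ∀ σ ∈ Iq p, ∃ j : ℕ, r0 σ = r0 τ ^ j ∧ σ π = (ξ ^ d) ^ j * π := by
    intro σ hσ
    obtain ⟨j, hj⟩ := exists_pow_mul hn hϖ hτ hξ hτϖ hσ
    refine ⟨j, ?_, ?_⟩
    · have h1 := htriv _ hj
      rw [map_mul, map_inv, map_pow, inv_mul_eq_one] at h1
      exact h1.symm
    · have h2 : ((τ ^ j)⁻¹ * σ) π = π := by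
        rw [← hϖd, map_pow, hj.2]
      rw [← pow_apply not_dvd_ee hτ hξ0.pow_eq_one hτπ j]
      nth_rewrite 2 [← h2]
      rw [← AlgEquiv.mul_apply, mul_inv_cancel_left]
  refine ⟨g, τ, φ, ξ ^ d, ?_, ?_, hτ, hτπ, hξ0, ?_, ?_, hφ, hφπ, hfrob, ⟨hR00, hR11⟩⟩
  · intro σ hσ
    obtain ⟨j, hj, hjπ⟩ := hpowI σ hσ.1
    rw [hσ.2] at hjπ
    have h1 : (ξ ^ d) ^ j = 1 := by
      have h2 : (ξ ^ d) ^ j * π = 1 * π := by rw [← hjπ, one_mul]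
      exact mul_right_cancel₀ (pi_ne_zero hT) h2
    obtain ⟨c, rfl⟩ := (hξ0.pow_eq_one_iff_dvd j).1 h1
    show g * r0 σ * g⁻¹ = 1
    rw [hj, pow_mul, hTe, one_pow]
    group
  · intro σ hσ
    obtain ⟨j, hj, -⟩ := hpowI σ hσ
    have h1 : ((conjRep g r0 σ : GL (Fin 2) k) : M2 k) = !![α ^ j, 0; 0, (α ^ (p : ℕ)) ^ j] := by
      show ((g * r0 σ * g⁻¹ : GL (Fin 2) k) : M2 k) = _
      rw [hj, ← conj_pow, Units.val_pow_eq_pow_val, hg, diag2_pow]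
    rw [h1]
    exact ⟨rfl, rfl⟩
  · show ((g * r0 τ * g⁻¹ : GL (Fin 2) k) : M2 k) 1 1 = (((g * r0 τ * g⁻¹ : GL (Fin 2) k) : M2 k) 0 0) ^ (p : ℕ)
    rw [hg]
    rfl
  · show (((g * r0 τ * g⁻¹ : GL (Fin 2) k) : M2 k) 0 0) ^ ((p : ℕ) + 1) = _
    rw [hg]
    show α ^ ((p : ℕ) + 1) = _
    rw [hαβ, hdetT, ← map_natCast (algebraMap (ZMod (p : ℕ)) k), ZMod.natCast_zmod_val]

end Fermat.Agent.S56.FK
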