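import Fermat.Agent.S56.FK.Wild
import Fermat.Agent.S56.FK.LinAlg
import Fermat.Agent.S56.FK.Tame

/-!
# S56/FK-TYPEA : irreducible `⇒` tame, and the conjugation relation          (key `S56/FK-TYPEA`)

`Irr p r0` : no `D`-stable line.
* `trivial_on_wild` : `P = stab I ϖ` (`ϖ^n = -p`, `n` from `wild`).  `Γ = P.map r0` consists of `p`-elements; `la_fixed` gives `x ≠ 0` fixed by `r0 P`.  `Irr` gives `δ ∈ D` with `y = r0 δ x` not a multiple of `x`;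
  `y` is fixed by `r0 P` too: `r0 σ (r0 δ x) = r0 δ (r0 (δ⁻¹ σ δ) x) = r0 δ x` (`conj_mem_stab`).  `la_basis` `⇒ r0 σ = 1`.
* `conj_rel` : `δ ∈ D`, `τ ∈ I`, `τ ϖ = ξ ϖ`, `ξ` primitive `n`-th root, `δ ξ = ξ^m` (exists: `hξ.eq_pow_of_pow_eq_one`).  Then `(τ^m)⁻¹ (δ τ δ⁻¹) ∈ stab I ϖ`:
  `δ⁻¹ ϖ = η ϖ` (`exists_root_gen`), `τ (η ϖ) = η ξ ϖ` (`root_fixed`), `δ (η ξ ϖ) = δ ξ · δ (η ϖ) = ξ^m ϖ`; `τ^m ϖ = ξ^m ϖ` (`pow_apply`); membership in `I`: `conj_mem_Iq` (applied to `δ⁻¹`).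
  `m ≡ 1` mod `p - 1` : `η' = ξ^(n/(p-1))` satisfies `η'^(p-1) = 1`, so `δ η' = η'` (`root_fixed_D`), `ξ^(m n/(p-1)) = ξ^(n/(p-1))`, `n ∣ (m-1) n/(p-1)` (`IsPrimitiveRoot.pow_inj`/`pow_eq_pow_iff_modEq`).
  For a Frobenius `φ` (`φ x ≡ x^p`) : `φ ξ ≡ ξ^p`, `root_eq_of_GT` `⇒ φ ξ = ξ^p`, so `m = p` works.
-/

set_option autoImplicit false

noncomputable section

namespace Fermat.Agent.S56.FK

open Fermat.Agent.S05 Fermat.Agent.S55 Fermat.Agent.S55.B ExtCitation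
open Fermat.Agent.S53 (M2)

variable {p : Nat.Primes} {k : Type} [Field k]

/-- no `D_p`-stable line -/
def Irr (p : Nat.Primes) (r0 : GQ →* GL (Fin 2) k) : Prop :=
  ∀ x : Fin 2 → k, x ≠ 0 → ∃ δ ∈ Dq p, ∀ t : k, (r0 δ : M2 k).mulVec x ≠ t • x

theorem trivial_on_wild [Finite k] [CharP k (p : ℕ)] {r0 : GQ →* GL (Fin 2) k} (hirr : Irr p r0)
    {n : ℕ} (hn : ¬ (p : ℕ) ∣ n) {ϖ : Qb} (hϖ : ϖ ^ n = -((p : ℕ) : Qb))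
    (hw : ∀ σ ∈ stab (Iq p) ϖ, ∃ a : ℕ, r0 σ ^ ((p : ℕ) ^ a) = 1) :
    ∀ σ ∈ stab (Iq p) ϖ, r0 σ = 1 := by
  obtain ⟨x, hx0, hx⟩ := la_fixed (p : ℕ) ((stab (Iq p) ϖ).map r0) (by
    rintro g ⟨σ, hσ, rfl⟩
    exact hw σ hσ)
  obtain ⟨δ, hδ, hδx⟩ := hirr x hx0
  intro σ hσ
  have h1 : (r0 σ : M2 k).mulVec x = x := hx _ ⟨σ, hσ, rfl⟩
  have h2 : (r0 σ : M2 k).mulVec ((r0 δ : M2 k).mulVec x) = (r0 δ : M2 k).mulVec x := by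
    have h3 : r0 σ * r0 δ = r0 δ * r0 (δ⁻¹ * σ * δ) := by
      rw [← map_mul, ← map_mul]
      congr 1
      group
    rw [Matrix.mulVec_mulVec, ← Units.val_mul, h3, Units.val_mul, ← Matrix.mulVec_mulVec,
      hx _ ⟨_, conj_mem_stab hn hϖ hδ hσ, rfl⟩]
  exact Units.ext (la_basis hx0 hδx h1 h2)

theorem prim_modEq {n : ℕ} (hn0 : n ≠ 0) {ξ : Qb} (hξ : IsPrimitiveRoot ξ n) {A B : ℕ}
    (h : ξ ^ A = ξ ^ B) : A ≡ B [MOD n] := by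
  have hne : ξ ≠ 0 := hξ.ne_zero hn0
  have key : ∀ A c : ℕ, ξ ^ A = ξ ^ (A + c) → A ≡ A + c [MOD n] := by
    intro A c h
    rw [pow_add] at h
    have h1 : ξ ^ c = 1 := by
      have := mul_left_cancel₀ (pow_ne_zero A hne) (h.symm.trans (mul_one _).symm)
      exact this
    have hd := (hξ.pow_eq_one_iff_dvd _).1 h1
    have := (Nat.modEq_zero_iff_dvd.2 hd).add_left A
    simpa using this.symm
  rcases le_total A B with hAB | hAB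
  · obtain ⟨c, rfl⟩ := Nat.exists_eq_add_of_le hAB
    exact key A c h
  · obtain ⟨c, rfl⟩ := Nat.exists_eq_add_of_le hAB
    exact (key B c h.symm).symm

theorem conj_aux {n : ℕ} (hn : ¬ (p : ℕ) ∣ n) {ϖ : Qb}
    (hϖ : ϖ ^ n = -((p : ℕ) : Qb)) {τ : GQ} {ξ : Qb} (hτ : τ ∈ Iq p) (hξ : IsPrimitiveRoot ξ n)
    (hτϖ : τ ϖ = ξ * ϖ) {δ : GQ} (hδ : δ ∈ Dq p) {m : ℕ} (hm : δ ξ = ξ ^ m) :
    (τ ^ m)⁻¹ * (δ * τ * δ⁻¹) ∈ stab (Iq p) ϖ := by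
  have hI : δ * τ * δ⁻¹ ∈ Iq p := by
    have := conj_mem_Iq (inv_mem hδ) hτ
    rwa [inv_inv] at this
  refine ⟨mul_mem (inv_mem (pow_mem hτ m)) hI, ?_⟩
  obtain ⟨η, hη, hηϖ⟩ := exists_root_gen hϖ δ⁻¹
  have h1 : (δ * τ * δ⁻¹) ϖ = ξ ^ m * ϖ := by
    have e1 : (δ * τ * δ⁻¹) ϖ = δ (τ (δ⁻¹ ϖ)) := rfl
    rw [e1, hηϖ, map_mul τ, root_fixed hn hη hτ, hτϖ]
    have e2 : η * (ξ * ϖ) = ξ * (η * ϖ) := by ring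
    rw [e2, map_mul δ, ← hηϖ, hm]
    congr 1
    rw [← AlgEquiv.mul_apply, mul_inv_cancel, AlgEquiv.one_apply]
  have h2 := pow_apply hn hτ hξ.pow_eq_one hτϖ m
  rw [AlgEquiv.mul_apply, h1, ← h2, ← AlgEquiv.mul_apply, inv_mul_cancel, AlgEquiv.one_apply]

theorem conj_rel {n : ℕ} (hn : ¬ (p : ℕ) ∣ n) (hn1 : ((p : ℕ) - 1) ∣ n) {ϖ : Qb}
    (hϖ : ϖ ^ n = -((p : ℕ) : Qb)) {τ : GQ} {ξ : Qb} (hτ : τ ∈ Iq p) (hξ : IsPrimitiveRoot ξ n)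
    (hτϖ : τ ϖ = ξ * ϖ) {δ : GQ} (hδ : δ ∈ Dq p) :
    ∃ m : ℕ, m ≡ 1 [MOD (p : ℕ) - 1] ∧ (τ ^ m)⁻¹ * (δ * τ * δ⁻¹) ∈ stab (Iq p) ϖ := by
  have hn0 : n ≠ 0 := by
    rintro rfl
    exact hn (dvd_zero _)
  haveI : NeZero n := ⟨hn0⟩
  have h1 : (δ ξ) ^ n = 1 := by rw [← map_pow, hξ.pow_eq_one, map_one]
  obtain ⟨m, -, hm⟩ := hξ.eq_pow_of_pow_eq_one h1
  refine ⟨m, ?_, conj_aux hn hϖ hτ hξ hτϖ hδ hm.symm⟩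
  obtain ⟨q, hq⟩ := hn1
  have hq0 : q ≠ 0 := by
    rintro rfl
    exact hn0 (by rw [hq, mul_zero])
  have h2 : (ξ ^ q) ^ ((p : ℕ) - 1) = 1 := by
    rw [← pow_mul, mul_comm, ← hq, hξ.pow_eq_one]
  have h3 := root_fixed_D h2 hδ
  rw [map_pow, ← hm, ← pow_mul] at h3
  have h4 := prim_modEq hn0 hξ h3
  rw [hq] at h4
  have h5 : q * m ≡ q * 1 [MOD q * ((p : ℕ) - 1)] := by
    rw [mul_one, mul_comm q m, mul_comm q]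
    exact h4
  exact Nat.ModEq.mul_left_cancel' hq0 h5

theorem conj_rel_frob {n : ℕ} (hn : ¬ (p : ℕ) ∣ n) {ϖ : Qb}
    (hϖ : ϖ ^ n = -((p : ℕ) : Qb)) {τ : GQ} {ξ : Qb} (hτ : τ ∈ Iq p) (hξ : IsPrimitiveRoot ξ n)
    (hτϖ : τ ϖ = ξ * ϖ) {φ : GQ} (hφ : φ ∈ Dq p)
    (hfrob : ∀ x : Qb, (wq p).GE x 0 → (wq p).GT (φ x - x ^ (p : ℕ)) 0) :
    (τ ^ (p : ℕ))⁻¹ * (φ * τ * φ⁻¹) ∈ stab (Iq p) ϖ := by
  have hn0 : n ≠ 0 := by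
    rintro rfl
    exact hn (dvd_zero _)
  refine conj_aux hn hϖ hτ hξ hτϖ hφ ?_
  refine root_eq_of_GT hn (by rw [← map_pow, hξ.pow_eq_one, map_one])
    (by rw [← pow_mul, mul_comm, pow_mul, hξ.pow_eq_one, one_pow]) ?_
  exact hfrob ξ ((root_EQ hn0 hξ.pow_eq_one).GE le_rfl)

end Fermat.Agent.S56.FK
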