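import Fermat.Agent.S56.FK.Tame
import Fermat.Agent.S55.B.Prim
import Fermat.Agent.S55.B.Interp

/-!
# S56/FK-WILD : wild inertia acts through `p`-elements          (key `S56/FK-WILD`)

`r : GQ →* G`, `G` finite, trivial on an open subgroup `U = F.fixingSubgroup` (`F` a number field).
CLAIM: there is `n`, `p ∤ n`, `e ∣ n`, such that for every `ϖ` with `ϖ^n = -p` and every `σ ∈ I` fixing `ϖ`, `r σ` has `p`-power order.
PROOF. `M = Nat.card G`, `ζ_M` a primitive `M`-th root of unity, `L' = normalClosure(F)(ζ_M)` (or any number field, normal or not, containing `σ'^i x` below: simplest: `L'` = normal closure of `F(ζ_M)`),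
`H = I ⊓ L'.fixingSubgroup`, `N' = H.relIndex I ≠ 0` (`E.finiteIndex_fixingSubgroup`, `Subgroup.relIndex_inf_ne_zero`…; compare `S55/B/Padic.lean` section Open), `N' = p^a n'`, `p ∤ n'` (`Nat.exists_eq_pow_mul_and_not_dvd`), `n = e n'`.
Let `σ ∈ I`, `σ ϖ = ϖ`, `o = orderOf (r σ) = p^b o'`, `p ∤ o'`.  If `o' ≠ 1` take a prime `ℓ ∣ o'`, `σ' = σ^(o/ℓ)`: `r σ'` has order `ℓ`, `ℓ ∣ M`, `ℓ ≠ p`.
`σ' ∉ ker r ⊇ (normal closure of F).fixingSubgroup`, so `σ' x ≠ x` for some `x` in the normal closure `L` of `F`;  `σ'^ℓ`: REPLACE the use of `σ'^ℓ x = x` as follows: the restriction of `σ'` to `L` has some finite order; it is simpler to argue with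
`K1 = ` fixed field of `ker r` : `x ∈ Qb` fixed by `ker r` (a normal subgroup of finite index, closed because it contains `U`), `σ' x ≠ x` for some such `x` (otherwise `σ' ∈ ker r`: `InfiniteGalois`/`IntermediateField.fixingSubgroup_fixedField` for the closed subgroup `ker r`;
or elementary: `ker r ⊇ U`, `Gal(L/ℚ)` finite, Galois correspondence for `L/ℚ`), `σ'^ℓ ∈ ker r` so `σ'^ℓ x = x`, `τ x ∈ L` for all `τ`.
Resolvents: `ζ_ℓ = ζ_M^(M/ℓ)`, `y_j = ∑_{i<ℓ} ζ_ℓ^(-ij) σ'^i x`, `σ' y_j = ζ_ℓ^j y_j` (`root_fixed`), `∑_j y_j = ℓ x`; so some `y = y_j ≠ 0` with `j ≠ 0`: `σ' y = ζ' y`, `ζ' ≠ 1`, `ζ'^ℓ = 1`, `y ∈ L'`.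
`t = w y`: `N' t ∈ ℤ` (`S33.w_of_relIndex`), so `p^a t = m/n' = w(ϖ^(e m))` (`w_varpi`); `ℓ t = w(y^ℓ)`; Bezout `x1 ℓ + x2 p^a = 1`: `z = (y^ℓ)^x1 (ϖ^(e m))^x2` (`zpow`) is fixed by `σ'` and `w z = t`.
`y/z` is a unit, `σ'(y/z) = ζ' (y/z)`, `σ' ∈ I` `⇒` `(ζ' - 1)(y/z)` has `w > 0` `⇒ w(ζ' - 1) > 0 ⇒ ζ' = 1` (`root_eq_of_GT`). Contradiction.
-/

set_option autoImplicit false

noncomputable section

namespace Fermat.Agent.S56.FK

open Fermat.Agent.S05 Fermat.Agent.S55 Fermat.Agent.S55.B ExtCitation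

/-- the core of `wild`: an element of `I` fixing `ϖ` whose image has order prime to `p` is in the kernel -/
theorem wildAux (p : Nat.Primes) {G : Type} [Group G] [Finite G] (r : GQ →* G)
    (F : IntermediateField ℚ Qb) [FiniteDimensional ℚ F] (hF : ∀ σ ∈ F.fixingSubgroup, r σ = 1)
    {a n' : ℕ} (hN : (Iq p ⊓ r.ker).relIndex (Iq p) = (p : ℕ) ^ a * n') (hn' : n' ≠ 0)
    {ϖ : Qb} (hϖ : ϖ ^ (ee p * n') = -((p : ℕ) : Qb)) {s : GQ} (hs : s ∈ Iq p) (hsϖ : s ϖ = ϖ)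
    (ho : ¬ (p : ℕ) ∣ orderOf (r s)) : r s = 1 := by
  classical
  by_contra hne
  set o := orderOf (r s) with ho'
  have ho0 : 0 < o := orderOf_pos (r s)
  have ho1 : 1 < o := by
    rcases Nat.lt_or_ge 1 o with h | h
    · exact h
    · exact absurd (orderOf_eq_one_iff.1 (by omega : orderOf (r s) = 1)) hne
  have hc : Cyc (Iq p ⊓ (Subgroup.zpowers (r s)).comap r) (Iq p ⊓ r.ker) s o := by
    refine cyc_of_open F ?_ ?_ ?_ ho0 ?_ ?_ ?_ ?_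
    · intro u hu
      exact ⟨hu.1.1, hF u hu.2⟩
    · intro h hh
      refine ⟨hh.1, ?_⟩
      show r h ∈ Subgroup.zpowers (r s)
      rw [MonoidHom.mem_ker.1 hh.2]
      exact one_mem _
    · exact ⟨hs, Subgroup.mem_zpowers _⟩
    · intro h hh
      have h1 : r h = 1 := hh.2
      refine ⟨⟨(Iq p).mul_mem ((Iq p).mul_mem hs hh.1) ((Iq p).inv_mem hs), ?_⟩,
        ⟨(Iq p).mul_mem ((Iq p).mul_mem ((Iq p).inv_mem hs) hh.1) hs, ?_⟩⟩
      · show r (s * h * s⁻¹) = 1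
        rw [map_mul, map_mul, h1, mul_one, ← map_mul, mul_inv_cancel, map_one]
      · show r (s⁻¹ * h * s) = 1
        rw [map_mul, map_mul, h1, mul_one, ← map_mul, inv_mul_cancel, map_one]
    · intro τ hτ
      have h1 : r τ ∈ Subgroup.zpowers (r s) := hτ.2
      rw [← mem_powers_iff_mem_zpowers, mem_powers_iff_mem_range_orderOf] at h1
      obtain ⟨i, hi, hi'⟩ := Finset.mem_image.1 h1
      refine ⟨i, Finset.mem_range.1 hi, (Iq p).mul_mem ((Iq p).inv_mem ((Iq p).pow_mem hs i)) hτ.1, ?_⟩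
      show r ((s ^ i)⁻¹ * τ) = 1
      rw [map_mul, map_inv, map_pow, ← hi', inv_mul_cancel]
    · exact ⟨(Iq p).pow_mem hs o, by
        show r (s ^ o) = 1
        rw [map_pow, pow_orderOf_eq_one]⟩
    · intro i hi0 hio hmem
      have h1 : r (s ^ i) = 1 := hmem.2
      rw [map_pow] at h1
      exact pow_ne_one_of_lt_orderOf hi0.ne' hio h1
  have : NeZero o := ⟨ho0.ne'⟩
  obtain ⟨ζ', hζ'⟩ := HasEnoughRootsOfUnity.exists_primitiveRoot Qb o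
  have hfix : ∀ i ∈ Iq p, i ζ' = ζ' := fun i hi => root_fixed ho hζ'.pow_eq_one hi
  obtain ⟨y, hyH, hy0, hy⟩ := hc.h90 (x := ζ') (mem_Fx.2 fun i hi => hfix i hi.1)
    (by rw [Nm_of_fixed (hfix s hs), hζ'.pow_eq_one])
  have hsy : s y = ζ' * y := by rw [hy]; field_simp
  have hNne : (Iq p ⊓ r.ker).relIndex (Iq p) ≠ 0 := by
    rw [hN]
    exact mul_ne_zero (pow_ne_zero _ p.2.ne_zero) hn'
  obtain ⟨k, hk⟩ := S33.w_of_relIndex p inf_le_left hNne hyH hy0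
  rw [hN] at hk
  -- Bezout
  have hcop : IsCoprime (o : ℤ) (((p : ℕ) ^ a : ℕ) : ℤ) := by
    rw [Nat.isCoprime_iff_coprime]
    exact Nat.Coprime.pow_right a ((Nat.Coprime.symm ((Nat.Prime.coprime_iff_not_dvd p.2).2 ho)))
  obtain ⟨x1, x2, hx⟩ := hcop
  have hϖ0 : ϖ ≠ 0 := varpi_ne_zero hϖ
  have hen : ee p * n' ≠ 0 := mul_ne_zero ee_pos.ne' hn'
  have hwϖ := (w_varpi hen hϖ).2
  set z : Qb := (y ^ o) ^ x1 * (ϖ ^ ((ee p : ℤ) * k)) ^ x2 with hz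
  have hz0 : z ≠ 0 := mul_ne_zero (zpow_ne_zero _ (pow_ne_zero _ hy0))
    (zpow_ne_zero _ (zpow_ne_zero _ hϖ0))
  have hsz : s z = z := by
    rw [hz, map_mul, map_zpow₀, map_zpow₀, map_zpow₀, map_pow, hsy, hsϖ, mul_pow, hζ'.pow_eq_one,
      one_mul]
  have hwz : (wq p).w z = (wq p).w y := by
    rw [hz, (wq p).map_mul _ _ (zpow_ne_zero _ (pow_ne_zero _ hy0))
      (zpow_ne_zero _ (zpow_ne_zero _ hϖ0)), RVal.w_zpow (pow_ne_zero _ hy0), RVal.w_pow hy0,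
      RVal.w_zpow (zpow_ne_zero _ hϖ0), RVal.w_zpow hϖ0, hwϖ]
    have hx' : (x1 : ℝ) * (o : ℝ) + (x2 : ℝ) * ((p : ℕ) : ℝ) ^ a = 1 := by exact_mod_cast hx
    have he : (ee p : ℝ) ≠ 0 := by exact_mod_cast ee_pos.ne'
    have hn'' : (n' : ℝ) ≠ 0 := by exact_mod_cast hn'
    push_cast at hk ⊢
    have h1 : ((ee p : ℝ) * (k : ℝ)) * (1 / ((ee p : ℝ) * (n' : ℝ))) =
        ((p : ℕ) : ℝ) ^ a * (wq p).w y := by
      rw [← hk]
      field_simp
    rw [h1]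
    linear_combination (wq p).w y * hx'
  have hu : (wq p).EQ (y / z) 0 := ⟨div_ne_zero hy0 hz0, by rw [RVal.w_div hy0 hz0, hwz, sub_self]⟩
  have h1 := GT_of_mem_Iq p hs (hu.GE le_rfl)
  have e : (ζ' - 1) * (y / z) = s (y / z) - y / z := by
    rw [map_div₀, hsy, hsz]
    ring
  have h2 := RVal.GT.of_mul_eq_left e hu h1
  rw [sub_zero] at h2
  exact hζ'.ne_one ho1 (root_eq_of_GT ho hζ'.pow_eq_one (one_pow o) h2)

theorem wild (p : Nat.Primes) {G : Type} [Group G] [Finite G] (r : GQ →* G)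
    (hsm : ∃ U ∈ lvlQ.sets, ∀ σ ∈ U, r σ = 1) :
    ∃ n : ℕ, ¬ (p : ℕ) ∣ n ∧ ee p ∣ n ∧ ∀ ϖ : Qb, ϖ ^ n = -((p : ℕ) : Qb) →
      ∀ σ ∈ stab (Iq p) ϖ, ∃ a : ℕ, r σ ^ ((p : ℕ) ^ a) = 1 := by
  obtain ⟨_, ⟨F, hFfin, rfl⟩, hF⟩ := hsm
  have hNne : (Iq p ⊓ r.ker).relIndex (Iq p) ≠ 0 := by
    rw [Subgroup.inf_relIndex_left]
    have : r.ker.FiniteIndex := Subgroup.finiteIndex_ker r
    exact Subgroup.FiniteIndex.index_ne_zero
  obtain ⟨a, n', hpn', hN⟩ := Nat.exists_eq_pow_mul_and_not_dvd hNne (p : ℕ) p.2.ne_one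
  have hn' : n' ≠ 0 := by
    rintro rfl
    exact hpn' (dvd_zero _)
  refine ⟨ee p * n', ?_, dvd_mul_right _ _, fun ϖ hϖ σ hσ => ?_⟩
  · intro h
    rcases (Nat.Prime.dvd_mul p.2).1 h with h | h
    · exact not_dvd_ee h
    · exact hpn' h
  · obtain ⟨b, o', hpo', ho⟩ := Nat.exists_eq_pow_mul_and_not_dvd (orderOf_pos (r σ)).ne' (p : ℕ)
      p.2.ne_one
    refine ⟨b, ?_⟩
    have h1 : orderOf (r (σ ^ ((p : ℕ) ^ b))) = o' := by
      rw [map_pow, orderOf_pow_of_dvd (pow_ne_zero _ p.2.ne_zero) (ho ▸ dvd_mul_right _ _), ho,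
        Nat.mul_div_cancel_left _ (pow_pos p.2.pos b)]
    have h2 := wildAux p r F hF hN hn' hϖ ((Iq p).pow_mem hσ.1 ((p : ℕ) ^ b))
      (pow_apply_of_fixed hσ.2 _) (by rw [h1]; exact hpo')
    rwa [map_pow] at h2

end Fermat.Agent.S56.FK
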